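import Fermat.Agent.LubinTate.Coleman.CycloMeasure
import Mathlib.FieldTheory.Finite.Basic
import Mathlib.NumberTheory.Padics.RingHoms
import Mathlib.Topology.LocallyConstant.Basic

/-!
# Interpolation of zeta values by the measure of the cyclotomic units

The measure lives on the units. Its moments `k - 1 + (p - 1) t` extend to a continuous function of
`t` in `ℤ_p`.
-/

set_option autoImplicit false

noncomputable section

open Finset Filter
open scoped fwdDiff Topology Classical

namespace Fermat.Agent.LubinTate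

variable {p : ℕ} [hp : Fact p.Prime]

/-- The indicator of the units. -/
def unitsIndicator : C(ℤ_[p], ℤ_[p]) where
  toFun x := if IsUnit x then 1 else 0
  continuous_toFun := by
    refine ((IsLocallyConstant.iff_eventually_eq _).2 fun x => ?_).continuous
    filter_upwards [Metric.ball_mem_nhds x one_pos] with y hy
    rw [Metric.mem_ball, dist_eq_norm] at hy
    have h : IsUnit y ↔ IsUnit x := by
      simp only [PadicInt.isUnit_iff]
      constructor <;> intro h
      · refine le_antisymm (PadicInt.norm_le_one _) (not_lt.1 fun hx => ?_)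
        have := PadicInt.nonarchimedean (y - x) x
        rw [sub_add_cancel, h] at this
        exact not_lt.2 this (max_lt hy hx)
      · refine le_antisymm (PadicInt.norm_le_one _) (not_lt.1 fun hx => ?_)
        have := PadicInt.nonarchimedean (x - y) y
        rw [sub_add_cancel, h, norm_sub_rev] at this
        exact not_lt.2 this (max_lt hy hx)
    simp only [h]

theorem unitsIndicator_apply (x : ℤ_[p]) :
    unitsIndicator x = if IsUnit x then 1 else 0 := rfl

theorem norm_amiceIntegral_le (F : PowerSeries ℤ_[p]) (f : C(ℤ_[p], ℤ_[p])) :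
    ‖amiceIntegral F f‖ ≤ ‖f‖ :=
  IsUltrametricDist.norm_tsum_le_of_forall_le_of_nonneg (norm_nonneg _) fun n => by
    rw [norm_mul]
    exact (mul_le_of_le_one_left (norm_nonneg _) (PadicInt.norm_le_one _)).trans
      (IsUltrametricDist.norm_fwdDiff_iter_apply_le 1 f 0 n)

/-- Every continuous function is a difference. -/
theorem exists_fwdDiff_eq (G : C(ℤ_[p], ℤ_[p])) :
    ∃ H : C(ℤ_[p], ℤ_[p]), ∀ y, H (y + 1) - H y = G y := by
  set b : ℕ → ℤ_[p] := fun n => match n with
    | 0 => 0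
    | n + 1 => Δ_[1]^[n] G 0
  have hb : Tendsto b atTop (𝓝 0) :=
    (tendsto_add_atTop_iff_nat 1).1 (PadicInt.fwdDiff_tendsto_zero G)
  set H : C(ℤ_[p], ℤ_[p]) := PadicInt.mahlerSeries b with hH
  refine ⟨H, fun y => ?_⟩
  set D : C(ℤ_[p], ℤ_[p]) := H.comp ⟨fun y => y + 1, by fun_prop⟩ - H with hD
  have hDG : D = G := by
    refine (PadicInt.mahlerEquiv ℤ_[p]).injective (ZeroAtInftyContinuousMap.ext fun n => ?_)
    change Δ_[1]^[n] D 0 = Δ_[1]^[n] G 0
    rw [show (D : ℤ_[p] → ℤ_[p]) = Δ_[1] (H : ℤ_[p] → ℤ_[p]) from funext fun z => by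
      simp [hD, fwdDiff], ← Function.iterate_succ_apply, hH, PadicInt.fwdDiff_mahlerSeries hb]
  exact DFunLike.congr_fun hDG y

variable {a : ℕ} (ha : ¬ p ∣ a)
include ha

/-- The measure does not see functions supported off the units. -/
theorem cycloMeasure_shift {f : C(ℤ_[p], ℤ_[p])} (hf : ∀ x, IsUnit x → f x = 0) :
    amiceIntegral (cycloMeasure p a) (f.comp ⟨fun x => x + ((a * p : ℕ) : ℤ_[p]), by fun_prop⟩) =
      amiceIntegral (cycloMeasure p a) f := by
  have hu : ∀ n : ℕ, ¬ p ∣ n → f (n : ℤ_[p]) = 0 := fun n hn => hf _ (PadicInt.isUnit_iff.2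
    (PadicInt.norm_natCast_eq_one_iff.2 ((Nat.Prime.coprime_iff_not_dvd hp.out).2 hn)))
  have h := congrArg (fun F => amiceIntegral F f) (cycloMeasure_mul ha)
  rw [mul_sub, mul_one, mul_comm (cycloMeasure p a), amiceIntegral_sub,
    sub_apply, amiceIntegral_one_add_X_pow_mul] at h
  rw [← sub_eq_zero, h, ← map_natCast PowerSeries.C, amiceIntegral_sub, amiceIntegral_sub,
    amiceIntegral_smul]
  simp only [sub_apply, smul_apply, amiceIntegral_sum,
    amiceIntegral_one_add_X_pow]
  rw [Finset.sum_eq_zero fun j hj => hu (a * (j + 1)) ?_, smul_zero, zero_sub, neg_eq_zero,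
    sub_eq_zero]
  · refine Eq.trans ?_ (Finset.sum_image (g := fun i => p * (i + 1) - 1)
      (f := fun i => f ((i + 1 : ℕ) : ℤ_[p])) (s := range a) ?_ |>.trans ?_)
    · refine (Finset.sum_subset ?_ fun i hi hni => hu _ fun hd => hni ?_).symm
      · intro i hi
        obtain ⟨j, hj, rfl⟩ := Finset.mem_image.1 hi
        rw [mem_range] at hj ⊢
        have h1 : p * (j + 1) ≤ a * p := by rw [mul_comm a p]; exact Nat.mul_le_mul_left p hj
        have h2 : 0 < p * (j + 1) := Nat.mul_pos hp.out.pos (Nat.succ_pos j)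
        omega
      · obtain ⟨d, hd⟩ := hd
        rw [mem_range] at hi
        have hd0 : 0 < d := Nat.pos_of_ne_zero (by rintro rfl; simp at hd)
        refine Finset.mem_image.2 ⟨d - 1, mem_range.2 ?_, ?_⟩
        · have h1 : p * d ≤ p * a := by rw [← hd, mul_comm p a]; omega
          have := Nat.le_of_mul_le_mul_left h1 hp.out.pos
          omega
        · rw [Nat.sub_add_cancel hd0, ← hd, Nat.add_sub_cancel]
    · intro i _ j _ hij
      have h1 : 0 < p * (i + 1) := Nat.mul_pos hp.out.pos (Nat.succ_pos i)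
      have h2 : 0 < p * (j + 1) := Nat.mul_pos hp.out.pos (Nat.succ_pos j)
      have h3 : p * (i + 1) = p * (j + 1) := by
        have h4 : p * (i + 1) - 1 = p * (j + 1) - 1 := hij
        omega
      have := Nat.eq_of_mul_eq_mul_left hp.out.pos h3
      omega
    · refine Finset.sum_congr rfl fun i _ => ?_
      rw [Nat.sub_add_cancel (Nat.mul_pos hp.out.pos (Nat.succ_pos i))]
  · rw [hp.out.dvd_mul, not_or]
    refine ⟨ha, fun hd => ?_⟩
    have := Nat.le_of_dvd (Nat.succ_pos j) hd
    rw [mem_range] at hj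
    omega

/-- **The measure is supported on the units.** -/
theorem amiceIntegral_mul_unitsIndicator (g : C(ℤ_[p], ℤ_[p])) :
    amiceIntegral (cycloMeasure p a) (g * unitsIndicator) =
      amiceIntegral (cycloMeasure p a) g := by
  have hp0 : (p : ℚ_[p]) ≠ 0 := Nat.cast_ne_zero.2 hp.out.ne_zero
  have hau : ‖(a : ℚ_[p])‖ = 1 := by
    rw [← PadicInt.coe_natCast]
    exact PadicInt.norm_natCast_eq_one_iff.2 ((Nat.Prime.coprime_iff_not_dvd hp.out).2 ha)
  have hap0 : ((a * p : ℕ) : ℚ_[p]) ≠ 0 := by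
    rw [Nat.cast_mul]
    exact mul_ne_zero (fun h => by simp [h] at hau) hp0
  -- division by `a p` off the units
  set q : ℤ_[p] → ℚ_[p] := fun x =>
    ((1 - unitsIndicator x : ℤ_[p]) : ℚ_[p]) * ((x : ℚ_[p]) / ((a * p : ℕ) : ℚ_[p])) with hq
  have hqn : ∀ x, ‖q x‖ ≤ 1 := by
    intro x
    by_cases hx : IsUnit x
    · simp [hq, unitsIndicator_apply, hx]
    · simp only [hq, unitsIndicator_apply, if_neg hx, sub_zero, PadicInt.coe_one, one_mul,
        Nat.cast_mul, norm_div, norm_mul, hau, Padic.norm_p]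
      rw [div_inv_eq_mul]
      obtain ⟨c, rfl⟩ : (p : ℤ_[p]) ∣ x := by
        rw [← PadicInt.norm_lt_one_iff_dvd]
        exact lt_of_le_of_ne (PadicInt.norm_le_one x) fun h => hx (PadicInt.isUnit_iff.2 h)
      rw [PadicInt.coe_mul, norm_mul, PadicInt.coe_natCast, Padic.norm_p, mul_comm, ← mul_assoc,
        mul_inv_cancel₀ (by exact_mod_cast hp.out.ne_zero), one_mul]
      exact c.norm_le_one
  have hqc : Continuous q := by
    simp only [hq]
    fun_prop
  set y : C(ℤ_[p], ℤ_[p]) := ⟨fun x => ⟨q x, hqn x⟩, hqc.subtype_mk _⟩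
  obtain ⟨H, hH⟩ := exists_fwdDiff_eq
    (g.comp ⟨fun z => ((a * p : ℕ) : ℤ_[p]) * z, by fun_prop⟩)
  set f : C(ℤ_[p], ℤ_[p]) := (1 - unitsIndicator) * H.comp y
  have hf : ∀ x, IsUnit x → f x = 0 := fun x hx => by simp [f, unitsIndicator_apply, hx]
  have hu : ∀ x : ℤ_[p], IsUnit (x + ((a * p : ℕ) : ℤ_[p])) ↔ IsUnit x := by
    intro x
    have hmem : ((a * p : ℕ) : ℤ_[p]) ∈ IsLocalRing.maximalIdeal ℤ_[p] := by
      rw [PadicInt.maximalIdeal_eq_span_p, Ideal.mem_span_singleton, Nat.cast_mul]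
      exact dvd_mul_left _ _
    rw [← not_iff_not, ← mem_nonunits_iff, ← mem_nonunits_iff, ← IsLocalRing.mem_maximalIdeal,
      ← IsLocalRing.mem_maximalIdeal]
    exact ⟨fun h => by simpa using sub_mem h hmem, fun h => add_mem h hmem⟩
  have hdiff : f.comp ⟨fun x => x + ((a * p : ℕ) : ℤ_[p]), by fun_prop⟩ =
      f + (g - g * unitsIndicator) := by
    ext x
    by_cases hx : IsUnit x
    · have hx' := (hu x).2 hx
      simp only [ContinuousMap.comp_apply, ContinuousMap.coe_mk, ContinuousMap.add_apply,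
        ContinuousMap.sub_apply, ContinuousMap.mul_apply, hf _ hx, hf _ hx', unitsIndicator_apply,
        if_pos hx, mul_one, sub_self, add_zero]
    · have hx' : ¬ IsUnit (x + ((a * p : ℕ) : ℤ_[p])) := fun h => hx ((hu x).1 h)
      have hyx : y (x + ((a * p : ℕ) : ℤ_[p])) = y x + 1 := by
        refine Subtype.ext ?_
        change q (x + ((a * p : ℕ) : ℤ_[p])) = q x + 1
        simp only [hq, unitsIndicator_apply, if_neg hx, if_neg hx', sub_zero, PadicInt.coe_one,
          one_mul, PadicInt.coe_add, PadicInt.coe_natCast, add_div, div_self hap0]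
      have hgy : ((a * p : ℕ) : ℤ_[p]) * y x = x := by
        refine Subtype.ext ?_
        change ((((a * p : ℕ) : ℤ_[p])) : ℚ_[p]) * q x = x
        simp only [hq, unitsIndicator_apply, if_neg hx, sub_zero, PadicInt.coe_one, one_mul,
          PadicInt.coe_natCast, mul_div_cancel₀ _ hap0]
      have h := hH (y x)
      simp only [ContinuousMap.comp_apply, ContinuousMap.coe_mk, hgy] at h
      simp only [f, ContinuousMap.comp_apply, ContinuousMap.coe_mk, ContinuousMap.mul_apply,
        ContinuousMap.sub_apply, ContinuousMap.one_apply, ContinuousMap.add_apply,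
        unitsIndicator_apply, if_neg hx, if_neg hx', hyx]
      linear_combination h
  have h := cycloMeasure_shift ha hf
  rw [hdiff, map_add, map_sub, add_eq_left, sub_eq_zero] at h
  exact h.symm

/-- The moments of the restriction to the units. -/
theorem unitsMoment_eq (k : ℕ) :
    ((amiceIntegral (cycloMeasure p a) (ContinuousMap.id ℤ_[p] ^ k * unitsIndicator) : ℤ_[p]) :
      ℚ_[p]) = (((1 - (p : ℚ) ^ k) * (((a : ℚ) ^ (k + 1) - 1) * (bernoulli' (k + 1) / (k + 1))) :
        ℚ) : ℚ_[p]) := by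
  rw [amiceIntegral_mul_unitsIndicator ha, cycloMeasure_moment ha]

omit ha in
theorem norm_pow_sub_one_le {x : ℤ_[p]} (hx : IsUnit x) {N e : ℕ}
    (he : p ^ (N - 1) * (p - 1) ∣ e) (hN : 1 ≤ N) : ‖x ^ e - 1‖ ≤ (p : ℝ) ^ (-N : ℤ) := by
  rw [PadicInt.norm_le_pow_iff_mem_span_pow, ← PadicInt.ker_toZModPow, RingHom.mem_ker, map_sub,
    map_pow, map_one, sub_eq_zero]
  obtain ⟨u, hu⟩ := hx.map (PadicInt.toZModPow (p := p) N)
  obtain ⟨d, rfl⟩ := he
  rw [← hu, ← Units.val_pow_eq_pow_val, pow_mul, ← Nat.totient_prime_pow hp.out (by omega),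
    ZMod.pow_totient, one_pow, Units.val_one]

omit ha in
/-- **Congruences between the moments.** -/
theorem norm_unitsMoment_sub_le {N i e : ℕ} (hN : 1 ≤ N) (he : p ^ (N - 1) * (p - 1) ∣ e) :
    ‖amiceIntegral (cycloMeasure p a) (ContinuousMap.id ℤ_[p] ^ (i + e) * unitsIndicator) -
      amiceIntegral (cycloMeasure p a) (ContinuousMap.id ℤ_[p] ^ i * unitsIndicator)‖ ≤
        (p : ℝ) ^ (-N : ℤ) := by
  rw [← map_sub, ← sub_mul]
  refine (norm_amiceIntegral_le _ _).trans
    ((ContinuousMap.norm_le _ (zpow_nonneg (Nat.cast_nonneg p) _)).2 fun x => ?_)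
  simp only [ContinuousMap.mul_apply, ContinuousMap.sub_apply, ContinuousMap.pow_apply,
    ContinuousMap.id_apply, unitsIndicator_apply]
  split_ifs with hx
  · rw [mul_one, pow_add, ← mul_sub_one, norm_mul]
    exact (mul_le_of_le_one_left (norm_nonneg _) (PadicInt.norm_le_one _)).trans
      (norm_pow_sub_one_le hx he hN)
  · simp

omit ha in
/-- **The branches of the measure.** -/
theorem exists_continuous_moments (i : ℕ) : ∃ G : C(ℤ_[p], ℤ_[p]), ∀ t : ℕ,
    G (t : ℤ_[p]) = amiceIntegral (cycloMeasure p a)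
      (ContinuousMap.id ℤ_[p] ^ (i + (p - 1) * t) * unitsIndicator) := by
  set μ := amiceIntegral (cycloMeasure p a)
  set w : C(ℤ_[p], ℤ_[p]) := ContinuousMap.id ℤ_[p] ^ (p - 1) - 1
  set b : ℕ → ℤ_[p] := fun n => μ (ContinuousMap.id ℤ_[p] ^ i * w ^ n * unitsIndicator)
  have hb : Tendsto b atTop (𝓝 0) := by
    refine squeeze_zero_norm (a := fun n : ℕ => ((p : ℝ)⁻¹) ^ n) (fun n => ?_)
      (tendsto_pow_atTop_nhds_zero_of_lt_one (by positivity)
        (inv_lt_one_of_one_lt₀ (by exact_mod_cast hp.out.one_lt)))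
    refine (norm_amiceIntegral_le _ _).trans
      ((ContinuousMap.norm_le _ (by positivity)).2 fun x => ?_)
    simp only [ContinuousMap.mul_apply, ContinuousMap.pow_apply, ContinuousMap.id_apply,
      unitsIndicator_apply]
    split_ifs with hx
    · rw [mul_one, norm_mul, norm_pow (w x)]
      refine (mul_le_of_le_one_left (by positivity) (PadicInt.norm_le_one _)).trans
        (pow_le_pow_left₀ (norm_nonneg _) ?_ n)
      have h := norm_pow_sub_one_le hx (N := 1) (e := p - 1) (by simp) le_rfl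
      simpa [w, zpow_neg] using h
    · simp only [mul_zero, norm_zero]
      positivity
  refine ⟨PadicInt.mahlerSeries b, fun t => ?_⟩
  rw [PadicInt.mahlerSeries_apply_nat hb le_rfl]
  simp only [b, ← map_nsmul, ← map_sum]
  congr 1
  rw [pow_add, pow_mul, show (ContinuousMap.id ℤ_[p] ^ (p - 1)) = w + 1 from
    (sub_add_cancel _ _).symm, add_pow, Finset.mul_sum, Finset.sum_mul]
  refine Finset.sum_congr rfl fun j _ => ?_
  rw [one_pow, mul_one, nsmul_eq_mul]
  ring

omit ha in
/-- The continuous power `t ↦ a ^ ((p - 1) t)`. -/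
theorem exists_continuous_pow (ha : ¬ p ∣ a) : ∃ U : C(ℤ_[p], ℤ_[p]), ∀ t : ℕ,
    U (t : ℤ_[p]) = (a : ℤ_[p]) ^ ((p - 1) * t) := by
  have hu : IsUnit (a : ℤ_[p]) := PadicInt.isUnit_iff.2
    (PadicInt.norm_natCast_eq_one_iff.2 ((Nat.Prime.coprime_iff_not_dvd hp.out).2 ha))
  set c : ℤ_[p] := (a : ℤ_[p]) ^ (p - 1) - 1
  have hc : ‖c‖ < 1 := by
    have h := norm_pow_sub_one_le hu (N := 1) (e := p - 1) (by simp) le_rfl
    refine h.trans_lt ?_
    simpa [zpow_neg] using inv_lt_one_of_one_lt₀ (by exact_mod_cast hp.out.one_lt : (1 : ℝ) < p)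
  have hb : Tendsto (fun n => c ^ n) atTop (𝓝 0) :=
    squeeze_zero_norm (fun n => (norm_pow c n).le)
      (tendsto_pow_atTop_nhds_zero_of_lt_one (norm_nonneg _) hc)
  refine ⟨PadicInt.mahlerSeries fun n => c ^ n, fun t => ?_⟩
  rw [PadicInt.mahlerSeries_apply_nat hb le_rfl, pow_mul,
    show (a : ℤ_[p]) ^ (p - 1) = c + 1 from (sub_add_cancel _ _).symm, add_pow]
  refine Finset.sum_congr rfl fun j _ => ?_
  rw [one_pow, mul_one, nsmul_eq_mul]
  ring

end Fermat.Agent.LubinTate
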