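import Fermat.Agent.LubinTate.Coleman.LogDerivative
import Fermat.Agent.LubinTate.Coleman.ZetaMeasure
import Mathlib.RingTheory.PowerSeries.Binomial
import Mathlib.NumberTheory.Multiplicity

/-!
# The map of Coleman and its exact sequence

`colemanMapFun g = D log g - φ (D log g)`, `D = (1 + X) d/dX`, is the Amice transform of a measure
on the units. On the units fixed by the norm it has as image the measures of total mass zero and as
kernel the `c (1 + X) ^ a`, one `c` for each `a` in `ℤ_p` up to the roots of unity of order `p - 1`.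
-/

set_option autoImplicit false

noncomputable section

open Finset
open scoped fwdDiff

namespace Fermat.Agent.LubinTate

variable (p : ℕ) [hp : Fact p.Prime]

local notation "Λ" => PowerSeries ℤ_[p]
local notation "T₁" => (1 + PowerSeries.X : PowerSeries ℤ_[p])
local notation "Cp" => PowerSeries.C (p : ℤ_[p])

/-- **The map of Coleman**, as an Amice transform. -/
def colemanMapFun (g : Λ) : Λ := logDeriv' p g - frobSubst p (logDeriv' p g)

theorem colemanMapFun_mul {a b : Λ} (ha : IsUnit a) (hb : IsUnit b) :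
    colemanMapFun p (a * b) = colemanMapFun p a + colemanMapFun p b := by
  rw [colemanMapFun, colemanMapFun, colemanMapFun, logDeriv'_mul p ha hb, map_add]
  ring

theorem colemanMapFun_cycloSeries (a : ℕ) :
    colemanMapFun p (cycloSeries ℤ_[p] a) = cycloMeasure p a :=
  rfl

/-- Its values are killed by `ψ`. -/
theorem colemanPsi_colemanMapFun {g : Λˣ} (hg : g ∈ normFixed p) :
    colemanPsi p (colemanMapFun p g) = 0 := by
  rw [colemanMapFun, map_sub, colemanPsi_frobSubst, colemanPsi_logDeriv_of_mem p hg, sub_self]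

theorem constantCoeff_frobSubst (x : Λ) : (frobSubst p x).constantCoeff = x.constantCoeff := by
  conv_lhs => rw [x.eq_X_mul_shift_add_const, map_add, map_mul, frobSubst_X, frobSubst_C]
  rw [map_add, map_mul, (isLTSeries_multiplicativeSeries p).constantCoeff_eq, zero_mul,
    PowerSeries.constantCoeff_C, zero_add]

theorem constantCoeff_colemanMapFun (g : Λ) : (colemanMapFun p g).constantCoeff = 0 := by
  rw [colemanMapFun, map_sub, constantCoeff_frobSubst, sub_self]

/-- `φ` contracts the series without constant term. -/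
theorem frobSubst_mem_closeIdeal_succ {t : ℕ} {x : Λ} (h0 : x.constantCoeff = 0)
    (hx : x ∈ closeIdeal (p : ℤ_[p]) (t + 1)) :
    frobSubst p x ∈ closeIdeal (p : ℤ_[p]) (t + 2) := by
  set y := PowerSeries.mk fun n => PowerSeries.coeff (n + 1) x with hy
  have hxy : x = PowerSeries.X * y := by
    conv_lhs => rw [x.eq_X_mul_shift_add_const]
    rw [h0, map_zero, add_zero]
  have hy' : y ∈ closeIdeal (p : ℤ_[p]) t := fun n => by
    rw [hy, PowerSeries.coeff_mk]
    simpa using hx (n + 1)
  have hm : multiplicativeSeries p ∈ closeIdeal (p : ℤ_[p]) 2 := fun n => by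
    match n with
    | 0 => rw [PowerSeries.coeff_zero_eq_constantCoeff_apply,
        (isLTSeries_multiplicativeSeries p).constantCoeff_eq]; exact dvd_zero _
    | 1 => rw [(isLTSeries_multiplicativeSeries p).coeff_one_eq]; simp
    | n + 2 => simp
  rw [hxy, map_mul, frobSubst_X, show t + 2 = 2 + t by ring]
  exact mul_mem_closeIdeal hm (frobSubst_mem_closeIdeal p hy')

theorem iterate_frobSubst_mem {x : Λ} (h0 : x.constantCoeff = 0) (t : ℕ) :
    ((frobSubst p)^[t] x).constantCoeff = 0 ∧
      (frobSubst p)^[t] x ∈ closeIdeal (p : ℤ_[p]) (t + 1) := by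
  induction t with
  | zero =>
    refine ⟨h0, fun n => ?_⟩
    rcases n with - | n
    · simp [h0]
    · simp
  | succ t ih =>
    rw [Function.iterate_succ_apply', constantCoeff_frobSubst]
    exact ⟨ih.1, frobSubst_mem_closeIdeal_succ p ih.1 ih.2⟩

/-- A series fixed by `φ` is constant. -/
theorem eq_C_of_frobSubst_eq {h : Λ} (hh : frobSubst p h = h) :
    h = PowerSeries.C h.constantCoeff := by
  set x := h - PowerSeries.C h.constantCoeff with hx
  have hfix : ∀ t, (frobSubst p)^[t] x = x := fun t =>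
    Function.iterate_fixed (by rw [hx, map_sub, hh, frobSubst_C]) t
  refine sub_eq_zero.1 (eq_of_forall_sub_mem PadicInt.irreducible_p fun t => ?_)
  rw [sub_zero, ← hx, ← hfix t]
  exact closeIdeal_antitone (Nat.le_succ t) (iterate_frobSubst_mem p (by simp [hx]) t).2

/-- `1 - φ` is onto the series without constant term killed by `ψ`. -/
theorem exists_sub_frobSubst_eq {F : Λ} (hF : colemanPsi p F = 0) (hF0 : F.constantCoeff = 0) :
    ∃ h, colemanPsi p h = h ∧ h - frobSubst p h = F := by
  obtain ⟨l, hl⟩ := exists_limit PadicInt.irreducible_p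
    (fun t => ∑ n ∈ range t, (frobSubst p)^[n] F) fun t => by
      rw [Finset.sum_range_succ, add_sub_cancel_left]
      exact closeIdeal_antitone (Nat.le_succ t) (iterate_frobSubst_mem p hF0 t).2
  have hsum : ∀ t, ∑ n ∈ range t, (frobSubst p)^[n] F -
      frobSubst p (∑ n ∈ range t, (frobSubst p)^[n] F) = F - (frobSubst p)^[t] F := fun t => by
    induction t with
    | zero => simp
    | succ t ih =>
      rw [Finset.sum_range_succ, map_add, Function.iterate_succ_apply' _ t]
      linear_combination ih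
  have heq : l - frobSubst p l = F := eq_of_forall_sub_mem PadicInt.irreducible_p fun t => by
    set x := ∑ n ∈ range t, (frobSubst p)^[n] F with hx
    rw [show l - frobSubst p l - F = (l - x) - frobSubst p (l - x) - (frobSubst p)^[t] F by
      rw [map_sub]; linear_combination hsum t]
    exact sub_mem (sub_mem (hl t) (frobSubst_mem_closeIdeal p (hl t)))
      (closeIdeal_antitone (Nat.le_succ t) (iterate_frobSubst_mem p hF0 t).2)
  refine ⟨l, ?_, heq⟩
  have h := congrArg (colemanPsi p) heq
  rwa [map_sub, colemanPsi_frobSubst, hF, sub_eq_zero] at h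

/-- **The image**: the series killed by `ψ` without constant term. -/
theorem exists_colemanMapFun_eq_iff (F : Λ) :
    (∃ g ∈ normFixed p, colemanMapFun p g = F) ↔
      colemanPsi p F = 0 ∧ F.constantCoeff = 0 := by
  constructor
  · rintro ⟨g, hg, rfl⟩
    exact ⟨colemanPsi_colemanMapFun p hg, constantCoeff_colemanMapFun p _⟩
  · rintro ⟨hF, hF0⟩
    obtain ⟨h, hh, rfl⟩ := exists_sub_frobSubst_eq p hF hF0
    obtain ⟨g, hg, rfl⟩ := exists_logDeriv_eq p hh
    exact ⟨g, hg, rfl⟩

/-- The measure of `φ h` is the image of that of `h` by `x ↦ p x`. -/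
theorem amiceIntegral_frobSubst (h : Λ) (f : C(ℤ_[p], ℤ_[p])) :
    amiceIntegral (frobSubst p h) f =
      amiceIntegral h (f.comp ⟨fun x => (p : ℤ_[p]) * x, by fun_prop⟩) := by
  let m : C(ℤ_[p], ℤ_[p]) := ⟨fun x => (p : ℤ_[p]) * x, by fun_prop⟩
  let P : C(ℤ_[p], ℤ_[p]) →L[ℤ_[p]] C(ℤ_[p], ℤ_[p]) :=
    { toFun := fun f => f.comp m
      map_add' := fun _ _ => rfl
      map_smul' := fun _ _ => rfl
      cont := ContinuousMap.continuous_precomp _ }
  refine DFunLike.congr_fun (continuousLinearMap_ext_mahler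
    (L' := (amiceIntegral h).comp P) fun n => ?_) f
  rw [ContinuousLinearMap.comp_apply, amiceIntegral_mahler]
  -- the identity on monomials
  have hpoly : ∀ j : ℕ, amiceIntegral (PowerSeries.X ^ j) (P (mahler n)) =
      PowerSeries.coeff n (frobSubst p (PowerSeries.X ^ j)) := by
    intro j
    rw [show (PowerSeries.X : Λ) = T₁ + PowerSeries.C (-1) by rw [map_neg, map_one]; ring, add_pow,
      amiceIntegral_sum, map_sum, map_sum]
    refine Finset.sum_congr rfl fun i _ => ?_
    rw [← map_pow, ← map_natCast PowerSeries.C, mul_assoc, ← map_mul, mul_comm,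
      map_mul (frobSubst p),
      frobSubst_C, map_pow (frobSubst p), frobSubst_one_add_X, ← pow_mul, amiceIntegral_smul,
      PowerSeries.coeff_C_mul, smul_apply, amiceIntegral_one_add_X_pow, smul_eq_mul,
      ← amiceIntegral_mahler, amiceIntegral_one_add_X_pow, Nat.cast_mul]
    rfl
  have hmon : ∀ j, amiceIntegral (PowerSeries.X ^ j) (P (mahler n)) = Δ_[1]^[j] (P (mahler n)) 0 :=
    fun j => by
      rw [amiceIntegral_apply, tsum_eq_single j fun i hi => by
        rw [PowerSeries.coeff_X_pow, if_neg hi, zero_mul], PowerSeries.coeff_X_pow, if_pos rfl,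
        one_mul]
  have htop : ∀ (r : Λ) j, n < j →
      PowerSeries.coeff n (frobSubst p (PowerSeries.X ^ j * r)) = 0 := by
    intro r j hj
    obtain ⟨S, hS⟩ := PowerSeries.X_dvd_iff.2 (isLTSeries_multiplicativeSeries p).constantCoeff_eq
    rw [map_mul, map_pow, frobSubst_X, hS, mul_pow, mul_assoc, PowerSeries.coeff_X_pow_mul',
      if_neg (by omega)]
  rw [amiceIntegral_apply, tsum_eq_sum (s := range (n + 1)) fun j hj => by
    rw [← hmon, hpoly, ← mul_one (PowerSeries.X ^ j), htop 1 j (by rw [mem_range] at hj; omega),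
      mul_zero]]
  simp only [← hmon, hpoly]
  conv_lhs => rw [PowerSeries.eq_X_pow_mul_shift_add_trunc (n + 1) h, map_add, map_add,
    htop _ _ (Nat.lt_succ_self n), zero_add]
  rw [Polynomial.as_sum_range' _ (n + 1) (PowerSeries.natDegree_trunc_lt h n),
    ← Polynomial.coeToPowerSeries.ringHom_apply, map_sum, map_sum, map_sum]
  refine Finset.sum_congr rfl fun j hj => ?_
  rw [mem_range] at hj
  rw [PowerSeries.coeff_trunc, if_pos hj, Polynomial.coeToPowerSeries.ringHom_apply,
    Polynomial.coe_monomial, PowerSeries.monomial_eq_C_mul_X_pow, map_mul, frobSubst_C,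
    PowerSeries.coeff_C_mul]

/-- A measure through the coordinates. -/
theorem amiceIntegral_frobExpand (c : Fin p → Λ) (f : C(ℤ_[p], ℤ_[p])) :
    amiceIntegral (frobExpand p c) f = ∑ i, amiceIntegral (c i)
      (f.comp ⟨fun x => (p : ℤ_[p]) * x + ((i : ℕ) : ℤ_[p]), by fun_prop⟩) := by
  rw [frobExpand, amiceIntegral_sum]
  refine Finset.sum_congr rfl fun i _ => ?_
  rw [mul_comm, amiceIntegral_one_add_X_pow_mul, amiceIntegral_frobSubst]
  rfl

theorem isUnit_mul_add_natCast_iff (x : ℤ_[p]) {i : ℕ} (hi : i < p) :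
    IsUnit ((p : ℤ_[p]) * x + (i : ℤ_[p])) ↔ i ≠ 0 := by
  constructor
  · rintro h rfl
    rw [Nat.cast_zero, add_zero] at h
    exact PadicInt.irreducible_p.not_isUnit (isUnit_of_mul_isUnit_left h)
  · intro h0
    refine IsLocalRing.notMem_maximalIdeal.1 fun hm => ?_
    rw [PadicInt.maximalIdeal_eq_span_p, Ideal.mem_span_singleton,
      dvd_add_right (dvd_mul_right _ _), ← PadicInt.norm_lt_one_iff_dvd] at hm
    refine hm.ne (PadicInt.norm_natCast_eq_one_iff.2 ?_)
    exact (Nat.Prime.coprime_iff_not_dvd hp.out).2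
      (Nat.not_dvd_of_pos_of_lt (Nat.pos_of_ne_zero h0) hi)

/-- Every continuous function is one on `p ℤ_p`, extended. -/
theorem exists_comp_mul_eq (g : C(ℤ_[p], ℤ_[p])) :
    ∃ f : C(ℤ_[p], ℤ_[p]), ∀ x, f ((p : ℤ_[p]) * x) = g x := by
  classical
  have hp0 : (p : ℚ_[p]) ≠ 0 := Nat.cast_ne_zero.2 hp.out.ne_zero
  set q : ℤ_[p] → ℚ_[p] := fun x =>
    ((1 - unitsIndicator x : ℤ_[p]) : ℚ_[p]) * ((x : ℚ_[p]) / (p : ℚ_[p])) with hq
  have hqn : ∀ x, ‖q x‖ ≤ 1 := by
    intro x
    by_cases hx : IsUnit x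
    · simp [hq, unitsIndicator_apply, hx]
    · simp only [hq, unitsIndicator_apply, if_neg hx, sub_zero, PadicInt.coe_one, one_mul]
      obtain ⟨c, rfl⟩ : (p : ℤ_[p]) ∣ x := by
        rw [← PadicInt.norm_lt_one_iff_dvd]
        exact lt_of_le_of_ne (PadicInt.norm_le_one x) fun h => hx (PadicInt.isUnit_iff.2 h)
      rw [PadicInt.coe_mul, PadicInt.coe_natCast, mul_div_cancel_left₀ _ hp0]
      exact c.norm_le_one
  have hqc : Continuous q := by simp only [hq]; fun_prop
  refine ⟨g.comp ⟨fun x => ⟨q x, hqn x⟩, hqc.subtype_mk _⟩, fun x => congrArg g (Subtype.ext ?_)⟩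
  have hx : ¬ IsUnit ((p : ℤ_[p]) * x) := fun h =>
    PadicInt.irreducible_p.not_isUnit (isUnit_of_mul_isUnit_left h)
  change q _ = x
  simp only [hq, unitsIndicator_apply, if_neg hx, sub_zero, PadicInt.coe_one, one_mul,
    PadicInt.coe_mul, PadicInt.coe_natCast, mul_div_cancel_left₀ _ hp0]

/-- **Killed by `ψ` means supported on the units.** -/
theorem colemanPsi_eq_zero_iff (F : Λ) : colemanPsi p F = 0 ↔
    ∀ f : C(ℤ_[p], ℤ_[p]), amiceIntegral F (f * unitsIndicator) = amiceIntegral F f := by
  classical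
  set i₀ : Fin p := ⟨0, hp.out.pos⟩
  have key : ∀ f : C(ℤ_[p], ℤ_[p]), amiceIntegral F f - amiceIntegral F (f * unitsIndicator) =
      amiceIntegral (colemanPsi p F) (f.comp ⟨fun x => (p : ℤ_[p]) * x, by fun_prop⟩) := by
    intro f
    conv_lhs => rw [← frobExpand_frobCoord p F]
    rw [amiceIntegral_frobExpand, amiceIntegral_frobExpand, ← Finset.sum_sub_distrib,
      Finset.sum_eq_single i₀]
    · rw [← map_sub]
      change amiceIntegral (colemanPsi p F) _ = _
      congr 1
      ext x
      have hu := isUnit_mul_add_natCast_iff p x (i := 0) hp.out.pos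
      simp only [Nat.cast_zero, add_zero, ne_eq, not_true_eq_false, iff_false] at hu
      simp [i₀, unitsIndicator_apply, hu]
    · intro i _ hi
      rw [← map_sub]
      convert map_zero (amiceIntegral (frobCoord p F i))
      ext x
      have hu := (isUnit_mul_add_natCast_iff p x i.2).2 fun h => hi (Fin.ext h)
      simp [unitsIndicator_apply, hu]
    · simp
  constructor
  · intro h f
    have := key f
    rw [h, amiceIntegral_zero, zero_apply, sub_eq_zero] at this
    exact this.symm
  · intro h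
    refine PowerSeries.ext fun n => ?_
    obtain ⟨f, hf⟩ := exists_comp_mul_eq p (mahler n)
    have := key f
    rw [h f, sub_self, show f.comp ⟨fun x => (p : ℤ_[p]) * x, by fun_prop⟩ = mahler n from
      ContinuousMap.ext hf, amiceIntegral_mahler] at this
    rw [map_zero, ← this]

/-- Every measure is an Amice transform. -/
theorem exists_amiceIntegral_eq (μ : C(ℤ_[p], ℤ_[p]) →L[ℤ_[p]] ℤ_[p]) :
    ∃! F : Λ, amiceIntegral F = μ :=
  ⟨PowerSeries.mk fun n => μ (mahler n), continuousLinearMap_ext_mahler fun n => by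
    rw [amiceIntegral_mahler, PowerSeries.coeff_mk],
    fun F hF => PowerSeries.ext fun n => by rw [PowerSeries.coeff_mk, ← hF, amiceIntegral_mahler]⟩

/-- **The image as measures**: supported on the units and of total mass zero. -/
theorem exists_amiceIntegral_colemanMapFun_eq_iff (μ : C(ℤ_[p], ℤ_[p]) →L[ℤ_[p]] ℤ_[p]) :
    (∃ g ∈ normFixed p, amiceIntegral (colemanMapFun p g) = μ) ↔
      (∀ f, μ (f * unitsIndicator) = μ f) ∧ μ 1 = 0 := by
  obtain ⟨F, rfl, huniq⟩ := exists_amiceIntegral_eq p μ
  constructor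
  · rintro ⟨g, hg, h⟩
    rw [← huniq _ h]
    exact ⟨(colemanPsi_eq_zero_iff p _).1 (colemanPsi_colemanMapFun p hg),
      by rw [amiceIntegral_one_apply, constantCoeff_colemanMapFun]⟩
  · rintro ⟨h1, h2⟩
    rw [amiceIntegral_one_apply] at h2
    obtain ⟨g, hg, hgF⟩ :=
      (exists_colemanMapFun_eq_iff p F).2 ⟨(colemanPsi_eq_zero_iff p F).2 h1, h2⟩
    exact ⟨g, hg, by rw [hgF]⟩

/-! ### The kernel -/

theorem amiceD_binomialSeries (a : ℤ_[p]) :
    amiceD (PowerSeries.binomialSeries ℤ_[p] a) =
      PowerSeries.C a * PowerSeries.binomialSeries ℤ_[p] a := by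
  refine PowerSeries.ext fun n => ?_
  have h := DFunLike.congr_fun (mulId_mahler (p := p) n) a
  simp only [mulId_apply, ContinuousMap.add_apply, ContinuousMap.smul_apply, mahler_apply,
    smul_eq_mul] at h
  simp only [coeff_amiceD, PowerSeries.coeff_C_mul, PowerSeries.binomialSeries_coeff, smul_eq_mul,
    mul_one, h, Nat.cast_succ]
  ring

theorem isUnit_binomialSeries (a : ℤ_[p]) : IsUnit (PowerSeries.binomialSeries ℤ_[p] a) := by
  simp [PowerSeries.isUnit_iff_constantCoeff]

theorem logDeriv'_binomialSeries (a : ℤ_[p]) :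
    logDeriv' p (PowerSeries.binomialSeries ℤ_[p] a) = PowerSeries.C a := by
  rw [logDeriv', amiceD_binomialSeries, Ring.mul_inverse_cancel_right _ _
    (isUnit_binomialSeries p a)]

/-- For every `a` some `c (1 + X) ^ a` is fixed by the norm. -/
theorem exists_kernel_element (a : ℤ_[p]) : ∃ g ∈ normFixed p, ∃ c : ℤ_[p]ˣ,
    (g : Λ) = PowerSeries.C (c : ℤ_[p]) * PowerSeries.binomialSeries ℤ_[p] a := by
  obtain ⟨r, -, hr⟩ := exists_C_mul_mem_normFixed p (g := (isUnit_binomialSeries p a).unit)
    (by rw [IsUnit.unit_spec, logDeriv'_binomialSeries, colemanPsi_C])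
  exact ⟨_, hr, r, by rw [Units.val_mul, IsUnit.unit_spec]; rfl⟩

/-- **The kernel of the map of Coleman.** -/
theorem colemanMapFun_eq_zero_iff {g : Λˣ} :
    colemanMapFun p g = 0 ↔ ∃ (a : ℤ_[p]) (c : ℤ_[p]ˣ),
      (g : Λ) = PowerSeries.C (c : ℤ_[p]) * PowerSeries.binomialSeries ℤ_[p] a := by
  constructor
  · intro h
    have hl := eq_C_of_frobSubst_eq p (sub_eq_zero.1 h).symm
    set a := (logDeriv' p (g : Λ)).constantCoeff
    obtain ⟨b, hb⟩ := (isUnit_binomialSeries p (-a)).exists_right_inv
    have hu := g.isUnit.mul (isUnit_binomialSeries p (-a))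
    have h0 : logDeriv' p ((g : Λ) * PowerSeries.binomialSeries ℤ_[p] (-a)) = 0 := by
      rw [logDeriv'_mul p g.isUnit (isUnit_binomialSeries p (-a)), logDeriv'_binomialSeries, hl,
        map_neg, add_neg_cancel]
    have hc := eq_C_of_logDeriv_eq_zero p hu h0
    refine ⟨a, (PowerSeries.isUnit_iff_constantCoeff.1 hu).unit, ?_⟩
    rw [IsUnit.unit_spec, ← hc, mul_assoc, ← PowerSeries.binomialSeries_add, neg_add_cancel,
      PowerSeries.binomialSeries_zero, mul_one]
  · rintro ⟨a, c, h⟩
    rw [colemanMapFun, h, logDeriv'_mul p (c.isUnit.map PowerSeries.C) (isUnit_binomialSeries p a),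
      logDeriv'_C, zero_add, logDeriv'_binomialSeries, frobSubst_C, sub_self]

theorem dvd_normSeries_cancel {g : Λ} (hg : IsUnit g) {r : ℤ_[p]}
    (hr : normSeries p g = PowerSeries.C r * g) : (p : ℤ_[p]) ∣ r - 1 := by
  obtain ⟨d, hd⟩ := C_dvd_normSeries_sub p g
  have h0 := congrArg PowerSeries.constantCoeff hd
  rw [hr, map_sub, map_mul, map_mul, PowerSeries.constantCoeff_C,
    PowerSeries.constantCoeff_C] at h0
  refine (IsUnit.dvd_mul_right (PowerSeries.isUnit_iff_constantCoeff.1 hg)).1
    ⟨d.constantCoeff, ?_⟩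
  rw [← h0]
  ring

theorem exists_normSeries_binomialSeries (b : ℤ_[p]) : ∃ c : ℤ_[p],
    normSeries p (PowerSeries.binomialSeries ℤ_[p] b) =
      PowerSeries.C c * PowerSeries.binomialSeries ℤ_[p] b := by
  obtain ⟨g, hg, c, hgc⟩ := exists_kernel_element p b
  obtain ⟨c', hc'⟩ := (c.isUnit.pow p).exists_right_inv
  refine ⟨c' * c, ?_⟩
  set B := PowerSeries.binomialSeries ℤ_[p] b
  have h := (mem_normFixed p).1 hg
  rw [hgc, map_mul, normSeries_C] at h
  calc normSeries p B = PowerSeries.C ((c : ℤ_[p]) ^ p * c') * normSeries p B := by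
        rw [hc', map_one, one_mul]
    _ = PowerSeries.C c' * (PowerSeries.C ((c : ℤ_[p]) ^ p) * normSeries p B) := by
        rw [map_mul]; ring
    _ = _ := by rw [h, map_mul, mul_assoc]

theorem normSeries_one_add_X (hp2 : p ≠ 2) : normSeries p T₁ = T₁ := by
  obtain ⟨c, hc⟩ := exists_normSeries_binomialSeries p ((1 : ℕ) : ℤ_[p])
  rw [PowerSeries.binomialSeries_nat, pow_one] at hc
  have hT : IsUnit T₁ := by simp [PowerSeries.isUnit_iff_constantCoeff]
  have hpow : c ^ p = 1 := by
    have h : normSeries p (frobSubst p T₁) = T₁ ^ p := by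
      change (frobMatrix p _).det = _
      rw [← mul_one (frobSubst p T₁), frobMatrix_frobSubst_mul, frobMatrix_one, Matrix.det_smul,
        Matrix.det_one, mul_one, Fintype.card_fin]
    rw [frobSubst_one_add_X, map_pow, hc, mul_pow] at h
    refine PowerSeries.C_injective ((hT.pow p).mul_left_inj.1 ?_)
    rw [map_pow, map_one, one_mul]
    exact h
  obtain ⟨b, hb⟩ := dvd_normSeries_cancel p hT hc
  rw [show c = 1 + (p : ℤ_[p]) * b from eq_add_of_sub_eq' hb] at hc hpow
  suffices hb0 : b = 0 by rw [hc, hb0, mul_zero, add_zero, map_one, one_mul]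
  obtain ⟨d, hd⟩ := odd_sq_dvd_geom_sum₂_sub (p := p) (a := (1 : ℤ_[p])) b
    (hp.out.odd_of_ne_two hp2)
  simp only [one_pow, mul_one] at hd
  have h0 := geom_sum_mul (1 + (p : ℤ_[p]) * b) p
  rw [hpow, sub_self, sub_eq_iff_eq_add.1 hd, add_sub_cancel_left] at h0
  have hp0 : (p : ℤ_[p]) ≠ 0 := Nat.cast_ne_zero.2 hp.out.ne_zero
  rcases mul_eq_zero.1 h0 with h | h
  · rw [show (p : ℤ_[p]) ^ 2 * d + p = p * (p * d + 1) by ring, mul_eq_zero,
      or_iff_right hp0] at h
    exact absurd (isUnit_of_dvd_one ⟨-d, by linear_combination h⟩)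
      PadicInt.irreducible_p.not_isUnit
  · exact (mul_eq_zero.1 h).resolve_left hp0

/-- A homomorphism of `ℤ_p` into the units congruent to one, trivial at one, is trivial. -/
theorem eq_one_of_map_add {f : ℤ_[p] → ℤ_[p]} (hadd : ∀ x y, f (x + y) = f x * f y)
    (hone : f 1 = 1) (hf : ∀ x, (p : ℤ_[p]) ∣ f x - 1) (a : ℤ_[p]) : f a = 1 := by
  have h0 : f 0 = 1 := by
    have h := hadd 1 0
    rwa [add_zero, hone, one_mul, eq_comm] at h
  have hnsmul : ∀ (n : ℕ) b, f (n * b) = f b ^ n := fun n b => by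
    induction n with
    | zero => rw [Nat.cast_zero, zero_mul, pow_zero, h0]
    | succ n ih => rw [Nat.cast_succ, add_mul, one_mul, hadd, ih, pow_succ]
  have hnat : ∀ n : ℕ, f n = 1 := fun n => by
    rw [← mul_one (n : ℤ_[p]), hnsmul, hone, one_pow]
  have hclose : ∀ (k : ℕ) b, (p : ℤ_[p]) ^ (k + 1) ∣ f b - 1 := by
    intro k
    induction k with
    | zero => exact fun b => by rw [pow_one]; exact hf b
    | succ k ih =>
      intro b
      set n := (PadicInt.toZMod (p := p) b).val
      obtain ⟨d, hd⟩ : (p : ℤ_[p]) ∣ b - n := by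
        rw [← Ideal.mem_span_singleton, ← PadicInt.maximalIdeal_eq_span_p, ← PadicInt.ker_toZMod,
          RingHom.mem_ker, map_sub, map_natCast, ZMod.natCast_zmod_val, sub_self]
      rw [show b = n + (p : ℕ) * d by rw [← hd]; ring, hadd, hnat, one_mul, hnsmul,
        ← geom_sum_mul, pow_succ' _ (k + 1)]
      refine mul_dvd_mul ?_ (ih d)
      have h1 : ∀ i ∈ range p, (p : ℤ_[p]) ∣ f d ^ i - 1 := fun i _ =>
        ((dvd_pow_self _ k.succ_ne_zero).trans (ih d)).trans (sub_one_dvd_pow_sub_one _ i)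
      have h2 := Finset.dvd_sum h1
      rwa [Finset.sum_sub_distrib, Finset.sum_const, Finset.card_range, nsmul_one,
        dvd_sub_left dvd_rfl] at h2
  exact sub_eq_zero.1 (eq_zero_of_forall_pow_dvd PadicInt.irreducible_p
    fun t => (pow_dvd_pow _ (Nat.le_succ t)).trans (hclose t a))

/-- `((-1) ^ (p - 1)) ^ a`: a sign for `p = 2`, one for odd `p`. -/
def binomSign (a : ℤ_[p]) : ℤ_[p] :=
  ((-1) ^ (p - 1)) ^ (PadicInt.toZMod (p := p) a).val

theorem binomSign_eq {a : ℤ_[p]} {n : ℕ} (h : PadicInt.toZMod a = (n : ZMod p)) :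
    binomSign p a = ((-1) ^ (p - 1)) ^ n := by
  have he : ((-1 : ℤ_[p]) ^ (p - 1)) ^ p = 1 := by
    rw [← pow_mul, mul_comm, Even.neg_one_pow (Nat.even_mul_pred_self p)]
  rw [binomSign, h, ZMod.val_natCast]
  conv_rhs => rw [← Nat.mod_add_div n p, pow_add, pow_mul, he, one_pow, mul_one]

theorem binomSign_add (a b : ℤ_[p]) : binomSign p (a + b) = binomSign p a * binomSign p b := by
  rw [binomSign_eq p (n := (PadicInt.toZMod (p := p) a).val + (PadicInt.toZMod (p := p) b).val)
    (by rw [map_add, Nat.cast_add, ZMod.natCast_zmod_val, ZMod.natCast_zmod_val]), pow_add,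
    binomSign, binomSign]

theorem binomSign_mul_self (a : ℤ_[p]) : binomSign p a * binomSign p a = 1 := by
  rw [binomSign, ← mul_pow, ← pow_add, Even.neg_one_pow ⟨_, rfl⟩, one_pow]

theorem isUnit_binomSign (a : ℤ_[p]) : IsUnit (binomSign p a) :=
  IsUnit.of_mul_eq_one _ (binomSign_mul_self p a)

omit hp in
theorem normSeries_two_one_add_X [Fact (Nat.Prime 2)] :
    normSeries 2 (1 + PowerSeries.X) =
      PowerSeries.C ((-1 : ℤ_[2]) ^ (2 - 1)) * (1 + PowerSeries.X) := by
  change (frobMatrix 2 _).det = _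
  have h0 : frobCoord 2 ((1 + PowerSeries.X : PowerSeries ℤ_[2]) *
      (1 + PowerSeries.X) ^ ((0 : Fin 2) : ℕ)) = Pi.single 1 1 := by
    rw [← frobCoord_one_add_X_pow]
    simp
  have h1 : frobCoord 2 ((1 + PowerSeries.X : PowerSeries ℤ_[2]) *
      (1 + PowerSeries.X) ^ ((1 : Fin 2) : ℕ)) =
        (1 + PowerSeries.X : PowerSeries ℤ_[2]) • Pi.single 0 1 := by
    rw [← frobCoord_one_add_X_pow, ← frobCoord_frobSubst_mul, frobSubst_one_add_X]
    congr 1
    simp [pow_two]
  rw [Matrix.det_fin_two, frobMatrix_apply, frobMatrix_apply, frobMatrix_apply, frobMatrix_apply,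
    h0, h1]
  simp

theorem normSeries_one_add_X_sign :
    normSeries p T₁ = PowerSeries.C ((-1) ^ (p - 1)) * T₁ := by
  rcases eq_or_ne p 2 with h2 | h2
  · subst h2
    exact normSeries_two_one_add_X
  · rw [normSeries_one_add_X p h2, Even.neg_one_pow (hp.out.even_sub_one h2), map_one, one_mul]

/-- **The norm of the binomial series.** -/
theorem normSeries_binomialSeries (a : ℤ_[p]) :
    normSeries p (PowerSeries.binomialSeries ℤ_[p] a) =
      PowerSeries.C (binomSign p a) * PowerSeries.binomialSeries ℤ_[p] a := by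
  set B := PowerSeries.binomialSeries ℤ_[p] (R := ℤ_[p])
  have hc : ∀ b, ∃ c : ℤ_[p], normSeries p (B b) = PowerSeries.C c * B b :=
    exists_normSeries_binomialSeries p
  choose c hc using hc
  have hmul : ∀ x y, c (x + y) = c x * c y := fun x y => by
    have h := hc (x + y)
    rw [show B (x + y) = B x * B y from PowerSeries.binomialSeries_add x y, map_mul, hc, hc,
      show PowerSeries.C (c x) * B x * (PowerSeries.C (c y) * B y) =
        PowerSeries.C (c x * c y) * (B x * B y) by rw [map_mul]; ring] at h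
    exact (PowerSeries.C_injective (((isUnit_binomialSeries p x).mul
      (isUnit_binomialSeries p y)).mul_left_inj.1 h)).symm
  have h1 : c 1 * binomSign p 1 = 1 := by
    have h := hc ((1 : ℕ) : ℤ_[p])
    rw [show B ((1 : ℕ) : ℤ_[p]) = T₁ ^ 1 from PowerSeries.binomialSeries_nat 1, pow_one,
      normSeries_one_add_X_sign, Nat.cast_one] at h
    rw [← PowerSeries.C_injective ((show IsUnit T₁ by
      simp [PowerSeries.isUnit_iff_constantCoeff]).mul_left_inj.1 h),
      binomSign_eq p (n := 1) (by simp), pow_one, ← pow_add, Even.neg_one_pow ⟨_, rfl⟩]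
  have h := eq_one_of_map_add p (f := fun b => c b * binomSign p b)
    (fun x y => by simp only [hmul, binomSign_add]; ring) h1 (fun x => by
      rw [show c x * binomSign p x - 1 =
        (c x - 1) * binomSign p x + (binomSign p x - 1) by ring]
      refine dvd_add ((dvd_normSeries_cancel p (isUnit_binomialSeries p x) (hc x)).mul_right _) ?_
      rw [binomSign]
      refine (dvd_trans ?_ (sub_one_dvd_pow_sub_one _ _))
      rcases eq_or_ne p 2 with h2 | h2
      · subst h2
        exact ⟨-1, by norm_num⟩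
      · rw [Even.neg_one_pow (hp.out.even_sub_one h2), sub_self]
        exact dvd_zero _) a
  rw [hc, show c a = binomSign p a from
    (isUnit_binomSign p a).mul_left_inj.1 (h.trans (binomSign_mul_self p a).symm)]

/-- **The binomial series with their signs are fixed by the norm.** -/
theorem normSeries_kernelSeries (a : ℤ_[p]) :
    normSeries p (PowerSeries.C (binomSign p a) * PowerSeries.binomialSeries ℤ_[p] a) =
      PowerSeries.C (binomSign p a) * PowerSeries.binomialSeries ℤ_[p] a := by
  rw [map_mul, normSeries_C, normSeries_binomialSeries, ← mul_assoc, ← map_mul]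
  congr 2
  rw [← pow_succ, binomSign, ← pow_mul, ← pow_mul, ← pow_mul]
  rcases eq_or_ne p 2 with h2 | h2
  · subst h2
    set n := (PadicInt.toZMod (p := 2) a).val
    rw [show (2 - 1) * (n * (2 + 1)) = (2 - 1) * n + 2 * n by ring, pow_add,
      Even.neg_one_pow (even_two_mul n), mul_one]
  · rw [Even.neg_one_pow ((hp.out.even_sub_one h2).mul_right _),
      Even.neg_one_pow ((hp.out.even_sub_one h2).mul_right _)]

end Fermat.Agent.LubinTate
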