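import Mathlib.NumberTheory.Padics.MahlerBasis
import Mathlib.RingTheory.PowerSeries.Derivative
import Mathlib.Topology.Algebra.InfiniteSum.Nonarchimedean

/-!
# Measures on the `p`-adic integers as power series

The series `F` gives the functional sending `f` to the sum of `F_n` times the `n`th Mahler
coefficient of `f`: the measure of Amice transform `F`. Multiplication of the integrand by `x` is
`(1 + X) d/dX` and translation by one is multiplication by `1 + X`.
-/

set_option autoImplicit false

noncomputable section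

open Filter
open scoped fwdDiff Topology

namespace Fermat.Agent.LubinTate

variable {p : ℕ} [hp : Fact p.Prime]

theorem summable_amice (F : PowerSeries ℤ_[p]) (f : C(ℤ_[p], ℤ_[p])) :
    Summable fun n => PowerSeries.coeff n F * Δ_[1]^[n] f 0 := by
  refine NonarchimedeanAddGroup.summable_of_tendsto_cofinite_zero ?_
  rw [Nat.cofinite_eq_atTop]
  refine squeeze_zero_norm (fun n => ?_) (tendsto_norm_zero.comp
    (PadicInt.fwdDiff_tendsto_zero f))
  rw [Function.comp_apply, norm_mul]
  exact mul_le_of_le_one_left (norm_nonneg _) (PadicInt.norm_le_one _)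

/-- **The measure with Amice transform `F`.** -/
def amiceIntegral (F : PowerSeries ℤ_[p]) : C(ℤ_[p], ℤ_[p]) →L[ℤ_[p]] ℤ_[p] where
  toFun f := ∑' n, PowerSeries.coeff n F * Δ_[1]^[n] f 0
  map_add' f g := by
    rw [← (summable_amice F f).tsum_add (summable_amice F g)]
    exact tsum_congr fun n => by simp [fwdDiff_iter_add, mul_add]
  map_smul' r f := by
    rw [RingHom.id_apply, smul_eq_mul, ← (summable_amice F f).tsum_mul_left]
    refine tsum_congr fun n => ?_
    simp [fwdDiff_iter_const_smul, mul_left_comm]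
  cont := by
    refine LipschitzWith.continuous (K := 1) (LipschitzWith.of_dist_le_mul fun f g => ?_)
    rw [NNReal.coe_one, one_mul, dist_eq_norm, dist_eq_norm,
      ← (summable_amice F f).tsum_sub (summable_amice F g)]
    refine IsUltrametricDist.norm_tsum_le_of_forall_le_of_nonneg (norm_nonneg _) fun n => ?_
    rw [← mul_sub, norm_mul]
    refine (mul_le_of_le_one_left (norm_nonneg _) (PadicInt.norm_le_one _)).trans ?_
    have hfg : Δ_[1]^[n] f 0 - Δ_[1]^[n] g 0 = Δ_[1]^[n] (f - g : C(ℤ_[p], ℤ_[p])) 0 := by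
      rw [sub_eq_iff_eq_add, ← Pi.add_apply, ← fwdDiff_iter_add, ← ContinuousMap.coe_add,
        sub_add_cancel]
    rw [hfg]
    exact IsUltrametricDist.norm_fwdDiff_iter_apply_le 1 (f - g) 0 n

theorem amiceIntegral_apply (F : PowerSeries ℤ_[p]) (f : C(ℤ_[p], ℤ_[p])) :
    amiceIntegral F f = ∑' n, PowerSeries.coeff n F * Δ_[1]^[n] f 0 :=
  rfl

/-- Two measures agreeing on the Mahler basis are equal. -/
theorem continuousLinearMap_ext_mahler {L L' : C(ℤ_[p], ℤ_[p]) →L[ℤ_[p]] ℤ_[p]}
    (h : ∀ n, L (mahler n) = L' (mahler n)) : L = L' := by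
  refine ContinuousLinearMap.ext fun f => ?_
  have hterm : ∀ n, PadicInt.mahlerTerm (Δ_[1]^[n] f (0 : ℤ_[p])) n =
      (Δ_[1]^[n] f (0 : ℤ_[p])) • (mahler n : C(ℤ_[p], ℤ_[p])) := fun n => by
    ext x
    simp [PadicInt.mahlerTerm_apply, mul_comm]
  have h1 := (PadicInt.hasSum_mahler f).map L L.continuous
  have h2 := (PadicInt.hasSum_mahler f).map L' L'.continuous
  simp only [Function.comp_def, hterm, map_smul, h] at h1 h2
  exact h1.unique h2

/-- The Mahler coefficients of the Mahler basis. -/
theorem fwdDiff_mahler (m n : ℕ) :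
    Δ_[1]^[m] (mahler n : C(ℤ_[p], ℤ_[p])) 0 = if m = n then 1 else 0 := by
  have h : Δ_[1]^[m] (mahler n : C(ℤ_[p], ℤ_[p])) 0 =
      ((Δ_[1]^[m] (fun k : ℕ => (k.choose n : ℤ)) 0 : ℤ) : ℤ_[p]) := by
    simp only [fwdDiff_iter_eq_sum_shift, zero_add, nsmul_one, Int.cast_sum]
    refine Finset.sum_congr rfl fun i _ => ?_
    simp [mahler_natCast_eq, zsmul_eq_mul]
  rw [h, fwdDiff_iter_choose_zero]
  rcases eq_or_ne m n with h' | h'
  · simp [h']
  · simp [h']

theorem amiceIntegral_mahler (F : PowerSeries ℤ_[p]) (n : ℕ) :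
    amiceIntegral F (mahler n) = PowerSeries.coeff n F := by
  rw [amiceIntegral_apply, tsum_eq_single n fun m hm => by rw [fwdDiff_mahler, if_neg hm, mul_zero],
    fwdDiff_mahler, if_pos rfl, mul_one]

theorem mahler_zero_eq_one : (mahler 0 : C(ℤ_[p], ℤ_[p])) = 1 := by
  ext x
  simp [mahler_apply]

theorem amiceIntegral_one_apply (F : PowerSeries ℤ_[p]) :
    amiceIntegral F 1 = F.constantCoeff := by
  rw [← mahler_zero_eq_one, amiceIntegral_mahler, PowerSeries.coeff_zero_eq_constantCoeff_apply]

/-- The measure of the series one is the Dirac measure at zero. -/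
theorem amiceIntegral_one (f : C(ℤ_[p], ℤ_[p])) : amiceIntegral 1 f = f 0 := by
  rw [amiceIntegral_apply, tsum_eq_single 0 fun m hm => by
    rw [PowerSeries.coeff_one, if_neg hm, zero_mul]]
  simp

theorem amiceIntegral_add (F G : PowerSeries ℤ_[p]) :
    amiceIntegral (F + G) = amiceIntegral F + amiceIntegral G :=
  continuousLinearMap_ext_mahler fun n => by simp [amiceIntegral_mahler]

theorem amiceIntegral_sub (F G : PowerSeries ℤ_[p]) :
    amiceIntegral (F - G) = amiceIntegral F - amiceIntegral G :=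
  continuousLinearMap_ext_mahler fun n => by simp [amiceIntegral_mahler]

theorem amiceIntegral_smul (c : ℤ_[p]) (F : PowerSeries ℤ_[p]) :
    amiceIntegral (PowerSeries.C c * F) = c • amiceIntegral F :=
  continuousLinearMap_ext_mahler fun n => by
    simp [amiceIntegral_mahler, PowerSeries.coeff_C_mul]

theorem amiceIntegral_zero : amiceIntegral (0 : PowerSeries ℤ_[p]) = 0 :=
  continuousLinearMap_ext_mahler fun n => by simp [amiceIntegral_mahler]

theorem amiceIntegral_sum {ι : Type*} (s : Finset ι) (F : ι → PowerSeries ℤ_[p])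
    (f : C(ℤ_[p], ℤ_[p])) : amiceIntegral (∑ i ∈ s, F i) f = ∑ i ∈ s, amiceIntegral (F i) f := by
  classical
  induction s using Finset.induction_on with
  | empty => simp [amiceIntegral_zero]
  | insert i s hi ih => simp [Finset.sum_insert hi, amiceIntegral_add, ih]

/-- Translation by one. -/
def shiftOne : C(ℤ_[p], ℤ_[p]) →L[ℤ_[p]] C(ℤ_[p], ℤ_[p]) where
  toFun f := f.comp ⟨fun x => x + 1, by fun_prop⟩
  map_add' _ _ := rfl
  map_smul' _ _ := rfl
  cont := ContinuousMap.continuous_precomp _

theorem shiftOne_apply (f : C(ℤ_[p], ℤ_[p])) (x : ℤ_[p]) : shiftOne f x = f (x + 1) := rfl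

/-- Multiplication by the identity. -/
def mulId : C(ℤ_[p], ℤ_[p]) →L[ℤ_[p]] C(ℤ_[p], ℤ_[p]) where
  toFun f := ContinuousMap.id ℤ_[p] * f
  map_add' f g := mul_add _ f g
  map_smul' r f := by ext x; simp
  cont := continuous_const.mul continuous_id

theorem mulId_apply (f : C(ℤ_[p], ℤ_[p])) (x : ℤ_[p]) : mulId f x = x * f x := rfl

/-- The derivation `(1 + X) d/dX`. -/
def amiceD {R : Type*} [CommRing R] (F : PowerSeries R) : PowerSeries R :=
  (1 + PowerSeries.X) * PowerSeries.derivative R F

theorem coeff_amiceD {R : Type*} [CommRing R] (F : PowerSeries R) (n : ℕ) :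
    PowerSeries.coeff n (amiceD F) =
      (n + 1) * PowerSeries.coeff (n + 1) F + n * PowerSeries.coeff n F := by
  rw [amiceD, add_mul, one_mul, map_add, PowerSeries.coeff_derivative]
  rcases n with - | n
  · simp [PowerSeries.coeff_zero_X_mul, mul_comm]
  · rw [PowerSeries.coeff_succ_X_mul, PowerSeries.coeff_derivative]
    push_cast
    ring

theorem mulId_mahler (n : ℕ) : mulId (mahler n : C(ℤ_[p], ℤ_[p])) =
    (n : ℤ_[p]) • mahler n + ((n + 1 : ℕ) : ℤ_[p]) • mahler (n + 1) := by
  refine ContinuousMap.coe_injective (PadicInt.denseRange_natCast.equalizer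
    (map_continuous _) (map_continuous _) (funext fun k => ?_))
  simp only [Function.comp_apply, mulId_apply, ContinuousMap.add_apply, ContinuousMap.smul_apply,
    mahler_natCast_eq, smul_eq_mul]
  norm_cast
  rcases lt_or_ge k n with h | h
  · simp [Nat.choose_eq_zero_of_lt h, Nat.choose_eq_zero_of_lt (Nat.lt_succ_of_lt h)]
  · have h' := Nat.choose_succ_right_eq k n
    calc k * k.choose n = (n + (k - n)) * k.choose n := by rw [Nat.add_sub_cancel' h]
      _ = _ := by rw [mul_comm (n + 1), h']; ring

/-- **Integrating `x f (x)`.** -/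
theorem amiceIntegral_mulId (F : PowerSeries ℤ_[p]) (f : C(ℤ_[p], ℤ_[p])) :
    amiceIntegral F (mulId f) = amiceIntegral (amiceD F) f := by
  refine DFunLike.congr_fun (continuousLinearMap_ext_mahler
    (L := (amiceIntegral F).comp mulId) fun n => ?_) f
  rw [ContinuousLinearMap.comp_apply, mulId_mahler, map_add, map_smul, map_smul,
    amiceIntegral_mahler, amiceIntegral_mahler, amiceIntegral_mahler, coeff_amiceD]
  push_cast
  simp only [smul_eq_mul]
  ring

theorem shiftOne_mahler_zero : shiftOne (mahler 0 : C(ℤ_[p], ℤ_[p])) = mahler 0 := by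
  ext x
  simp [shiftOne_apply, mahler_apply]

theorem shiftOne_mahler_succ (n : ℕ) :
    shiftOne (mahler (n + 1) : C(ℤ_[p], ℤ_[p])) = mahler (n + 1) + mahler n := by
  refine ContinuousMap.coe_injective (PadicInt.denseRange_natCast.equalizer
    (map_continuous _) (map_continuous _) (funext fun k => ?_))
  simp only [Function.comp_apply, shiftOne_apply, ContinuousMap.add_apply, mahler_natCast_eq]
  rw [← Nat.cast_add_one, mahler_natCast_eq, Nat.choose_succ_succ, Nat.cast_add, add_comm]

/-- **Multiplication by `1 + X` translates.** -/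
theorem amiceIntegral_one_add_X_mul (F : PowerSeries ℤ_[p]) (f : C(ℤ_[p], ℤ_[p])) :
    amiceIntegral ((1 + PowerSeries.X) * F) f = amiceIntegral F (shiftOne f) := by
  refine DFunLike.congr_fun (continuousLinearMap_ext_mahler
    (L' := (amiceIntegral F).comp shiftOne) fun n => ?_) f
  rw [ContinuousLinearMap.comp_apply, amiceIntegral_mahler, add_mul, one_mul, map_add]
  rcases n with - | n
  · rw [shiftOne_mahler_zero, amiceIntegral_mahler]
    simp [PowerSeries.coeff_zero_X_mul]
  · rw [shiftOne_mahler_succ, map_add, amiceIntegral_mahler, amiceIntegral_mahler,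
      PowerSeries.coeff_succ_X_mul]

/-- Translation by a natural number. -/
theorem amiceIntegral_one_add_X_pow_mul (j : ℕ) : ∀ (F : PowerSeries ℤ_[p])
    (f : C(ℤ_[p], ℤ_[p])), amiceIntegral ((1 + PowerSeries.X) ^ j * F) f =
      amiceIntegral F (f.comp ⟨fun x => x + (j : ℤ_[p]), by fun_prop⟩) := by
  induction j with
  | zero =>
    intro F f
    rw [pow_zero, one_mul]
    congr 1
    ext x
    simp
  | succ j ih =>
    intro F f
    rw [pow_succ, mul_assoc, ih, amiceIntegral_one_add_X_mul]
    congr 1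
    ext x
    simp [shiftOne_apply]
    ring_nf

/-- The measure of `(1 + X) ^ j` is the Dirac measure at `j`. -/
theorem amiceIntegral_one_add_X_pow (j : ℕ) (f : C(ℤ_[p], ℤ_[p])) :
    amiceIntegral ((1 + PowerSeries.X) ^ j) f = f j := by
  rw [← mul_one ((1 + PowerSeries.X : PowerSeries ℤ_[p]) ^ j), amiceIntegral_one_add_X_pow_mul,
    amiceIntegral_one]
  simp

/-- **Moments.** -/
theorem amiceIntegral_pow (k : ℕ) : ∀ F : PowerSeries ℤ_[p],
    amiceIntegral F (ContinuousMap.id ℤ_[p] ^ k) = (amiceD^[k] F).constantCoeff := by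
  induction k with
  | zero => intro F; rw [pow_zero, amiceIntegral_one_apply]; rfl
  | succ k ih =>
    intro F
    rw [pow_succ', Function.iterate_succ_apply, ← ih (amiceD F), ← amiceIntegral_mulId]
    rfl

end Fermat.Agent.LubinTate
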