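import Fermat.Agent.LubinTate.NormOperator.Norms

/-!
# Closeness of power series

`closeIdeal π t` consists of the series whose coefficient of index `n` is divisible by
`π ^ (t - n)`: it is the `t`th power of `(π, X)`. The ideals `(π ^ i, g j)` are cofinal with these,
`g j` the `j`th iterate of `π X + X ^ q`.
-/

set_option autoImplicit false

noncomputable section

open Polynomial IsLocalRing

namespace Fermat.Agent.LubinTate

variable {O : Type*} [CommRing O]

/-- The series with `n`th coefficient divisible by `π ^ (t - n)`. -/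
def closeIdeal (π : O) (t : ℕ) : Ideal (PowerSeries O) where
  carrier := {x | ∀ n, π ^ (t - n) ∣ PowerSeries.coeff n x}
  zero_mem' n := by simp
  add_mem' hx hy n := by rw [map_add]; exact dvd_add (hx n) (hy n)
  smul_mem' c x hx n := by
    rw [smul_eq_mul, PowerSeries.coeff_mul]
    refine Finset.dvd_sum fun ab hab => Dvd.dvd.mul_left ?_ _
    rw [Finset.HasAntidiagonal.mem_antidiagonal] at hab
    exact (pow_dvd_pow π (by omega)).trans (hx ab.2)

/-- The ideal `(π ^ i, g j)` of polynomials. -/
def levelSpan (π : O) (q i j : ℕ) : Ideal O[X] := Ideal.span {C π ^ i, iterPoly π q j}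

/-- The ideal `(π ^ i, g j)` of series. -/
def levelSeries (π : O) (q i j : ℕ) : Ideal (PowerSeries O) :=
  Ideal.span {(PowerSeries.C π) ^ i, (iterPoly π q j : PowerSeries O)}

variable {π : O} {q : ℕ}

theorem mem_closeIdeal {t : ℕ} {x : PowerSeries O} :
    x ∈ closeIdeal π t ↔ ∀ n, π ^ (t - n) ∣ PowerSeries.coeff n x :=
  Iff.rfl

theorem closeIdeal_antitone {s t : ℕ} (h : s ≤ t) : closeIdeal π t ≤ closeIdeal π s :=
  fun x hx n => (pow_dvd_pow π (by omega)).trans (hx n)

theorem levelSeries_mono {i i' j j' : ℕ} (hq : 1 ≤ q) (hi : i ≤ i') (hj : j ≤ j') :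
    levelSeries π q i' j' ≤ levelSeries π q i j := by
  rw [levelSeries, Ideal.span_le, Set.insert_subset_iff, Set.singleton_subset_iff]
  refine ⟨?_, ?_⟩
  · rw [show i' = i' - i + i by omega, pow_add]
    exact Ideal.mul_mem_left _ _ (Ideal.subset_span (Set.mem_insert _ _))
  · obtain ⟨c, hc⟩ := iterPoly_dvd (π := π) hq hj
    rw [hc, Polynomial.coe_mul]
    exact Ideal.mul_mem_right _ _ (Ideal.subset_span (Set.mem_insert_of_mem _ rfl))

theorem coe_mem_levelSeries {i j : ℕ} {a : O[X]} (h : a ∈ levelSpan π q i j) :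
    (a : PowerSeries O) ∈ levelSeries π q i j := by
  obtain ⟨x, y, rfl⟩ := Ideal.mem_span_pair.1 h
  rw [Polynomial.coe_add, Polynomial.coe_mul, Polynomial.coe_mul, Polynomial.coe_pow,
    Polynomial.coe_C]
  exact Ideal.mem_span_pair.2 ⟨_, _, rfl⟩

/-- The iterates lie in high powers of `(π, X)`. -/
theorem iterPoly_mem_closeIdeal (hq : 2 ≤ q) (j : ℕ) :
    (iterPoly π q j : PowerSeries O) ∈ closeIdeal π j := by
  induction j with
  | zero => intro n; simp
  | succ j ih =>
    intro n
    rw [iterPoly_succ (by omega), Polynomial.coe_mul, PowerSeries.coeff_mul]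
    refine Finset.dvd_sum fun ab hab => ?_
    rw [Finset.HasAntidiagonal.mem_antidiagonal] at hab
    rcases eq_or_ne ab.2 0 with hb | hb
    · have hc : PowerSeries.coeff 0 (levelPoly π q j : PowerSeries O) = π := by
        rw [Polynomial.coeff_coe, levelPoly, coeff_add, coeff_C_zero, coeff_zero_eq_eval_zero,
          eval_pow, ← coeff_zero_eq_eval_zero, (monic_iterPoly hq j).2.2.1,
          zero_pow (by omega), zero_add]
      rw [hb, hc]
      calc π ^ (j + 1 - n) ∣ π ^ (j - ab.1) * π := by
            rw [← pow_succ]; exact pow_dvd_pow π (by omega)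
        _ ∣ _ := mul_dvd_mul (ih ab.1) dvd_rfl
    · exact ((pow_dvd_pow π (by omega)).trans (ih ab.1)).mul_right _

theorem levelSeries_le_closeIdeal (hq : 2 ≤ q) (i j : ℕ) :
    levelSeries π q i j ≤ closeIdeal π (min i j) := by
  rw [levelSeries, Ideal.span_le, Set.insert_subset_iff, Set.singleton_subset_iff]
  refine ⟨?_, closeIdeal_antitone (min_le_right i j) (iterPoly_mem_closeIdeal hq j)⟩
  intro n
  rw [← map_pow, PowerSeries.coeff_C]
  split_ifs with h
  · exact pow_dvd_pow π (by omega)
  · exact dvd_zero _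

/-- A high power of `X` is in `(π ^ i, g j)`. -/
theorem X_pow_mem_levelSpan (hq : 2 ≤ q) (i j : ℕ) :
    (X : O[X]) ^ (q ^ j * i) ∈ levelSpan π q i j := by
  obtain ⟨z, hz⟩ : C π ∣ iterPoly π q j - X ^ q ^ j := by
    rw [C_dvd_iff_dvd_coeff]
    intro t
    rw [← Ideal.mem_span_singleton, ← Ideal.Quotient.eq_zero_iff_mem, ← coeff_map,
      Polynomial.map_sub, Polynomial.map_pow, map_X, (monic_iterPoly hq j).2.1, sub_self,
      coeff_zero]
  obtain ⟨c, hc⟩ := sub_dvd_pow_sub_pow ((X : O[X]) ^ q ^ j) (C π * -z) i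
  rw [pow_mul, ← sub_add_cancel (((X : O[X]) ^ q ^ j) ^ i) ((C π * -z) ^ i), hc]
  refine add_mem (Ideal.mul_mem_right _ _ ?_) ?_
  · rw [show X ^ q ^ j - C π * -z = iterPoly π q j by linear_combination -hz]
    exact Ideal.subset_span (Set.mem_insert_of_mem _ rfl)
  · rw [mul_pow]
    exact Ideal.mul_mem_right _ _ (Ideal.subset_span (Set.mem_insert _ _))

theorem closeIdeal_le_levelSeries (hq : 2 ≤ q) (i j : ℕ) :
    closeIdeal π (i + q ^ j * i) ≤ levelSeries π q i j := by
  intro x hx
  have hX : (PowerSeries.X : PowerSeries O) ^ (q ^ j * i) ∈ levelSeries π q i j := by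
    rw [← Polynomial.coe_X, ← Polynomial.coe_pow]
    exact coe_mem_levelSeries (X_pow_mem_levelSpan hq i j)
  rw [PowerSeries.eq_X_pow_mul_shift_add_trunc (q ^ j * i) x]
  refine add_mem (Ideal.mul_mem_right _ _ hX) (coe_mem_levelSeries ?_)
  obtain ⟨c, hc⟩ : C (π ^ i) ∣ PowerSeries.trunc (q ^ j * i) x := by
    rw [C_dvd_iff_dvd_coeff]
    intro n
    rw [PowerSeries.coeff_trunc]
    split_ifs with h
    · exact (pow_dvd_pow π (by omega)).trans (hx n)
    · exact dvd_zero _
  rw [hc, map_pow]
  exact Ideal.mul_mem_right _ _ (Ideal.subset_span (Set.mem_insert _ _))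

/-- Series and polynomials have the same congruences. -/
theorem mem_levelSpan_of_coe (hq : 2 ≤ q) {i j : ℕ} {a : O[X]}
    (h : (a : PowerSeries O) ∈ levelSeries π q i j) : a ∈ levelSpan π q i j := by
  obtain ⟨x, y, hxy⟩ := Ideal.mem_span_pair.1 h
  set m := q ^ j * i
  set b := a - PowerSeries.trunc m x * C π ^ i - PowerSeries.trunc m y * iterPoly π q j with hb
  have hdvd : (X : O[X]) ^ m ∣ b := by
    have hS : (PowerSeries.X : PowerSeries O) ^ m ∣ (b : PowerSeries O) := by
      refine ⟨(PowerSeries.mk fun t => PowerSeries.coeff (t + m) x) * (PowerSeries.C π) ^ i +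
        (PowerSeries.mk fun t => PowerSeries.coeff (t + m) y) * (iterPoly π q j : PowerSeries O),
        ?_⟩
      rw [hb]
      simp only [Polynomial.coe_sub, Polynomial.coe_mul, Polynomial.coe_pow, Polynomial.coe_C]
      rw [← hxy]
      conv_lhs =>
        arg 1; arg 1
        rw [PowerSeries.eq_X_pow_mul_shift_add_trunc m x,
          PowerSeries.eq_X_pow_mul_shift_add_trunc m y]
      ring
    rw [X_pow_dvd_iff]
    intro d hd
    rw [← Polynomial.coeff_coe]
    exact PowerSeries.X_pow_dvd_iff.1 hS d hd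
  obtain ⟨c, hc⟩ := hdvd
  rw [show a = X ^ m * c + PowerSeries.trunc m x * C π ^ i +
    PowerSeries.trunc m y * iterPoly π q j by rw [← hc, hb]; ring]
  exact add_mem (add_mem (Ideal.mul_mem_right _ _ (X_pow_mem_levelSpan hq i j))
    (Ideal.mul_mem_left _ _ (Ideal.subset_span (Set.mem_insert _ _))))
    (Ideal.mul_mem_left _ _ (Ideal.subset_span (Set.mem_insert_of_mem _ rfl)))

/-- A series agrees with its truncations. -/
theorem sub_trunc_mem (t : ℕ) (x : PowerSeries O) :
    x - (PowerSeries.trunc t x : PowerSeries O) ∈ closeIdeal π t := by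
  intro n
  rw [map_sub, Polynomial.coeff_coe, PowerSeries.coeff_trunc]
  split_ifs with h
  · simp
  · rw [show t - n = 0 by omega, pow_zero]; exact one_dvd _

section Complete

variable [IsDomain O] [IsDiscreteValuationRing O] [IsAdicComplete (maximalIdeal O) O]
  (hπ : Irreducible π)
include hπ

omit [IsAdicComplete (maximalIdeal O) O] in
theorem eq_zero_of_forall_pow_dvd {a : O} (h : ∀ t, π ^ t ∣ a) : a = 0 := by
  by_contra ha
  obtain ⟨m, u, rfl⟩ := IsDiscreteValuationRing.eq_unit_mul_pow_irreducible ha hπ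
  have h1 := (Units.dvd_mul_left.1 (h (m + 1)))
  rw [pow_succ] at h1
  exact hπ.not_isUnit (isUnit_of_dvd_one
    ((mul_dvd_mul_iff_left (pow_ne_zero m hπ.ne_zero)).1 (by rwa [mul_one])))

omit [IsAdicComplete (maximalIdeal O) O] in
theorem eq_of_forall_sub_mem {x y : PowerSeries O} (h : ∀ t, x - y ∈ closeIdeal π t) :
    x = y := by
  refine PowerSeries.ext fun n => sub_eq_zero.1 ?_
  rw [← map_sub]
  exact eq_zero_of_forall_pow_dvd hπ fun t => by simpa using h (t + n) n

/-- Cauchy sequences have limits. -/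
theorem exists_limit (x : ℕ → PowerSeries O) (hx : ∀ t, x (t + 1) - x t ∈ closeIdeal π t) :
    ∃ l, ∀ t, l - x t ∈ closeIdeal π t := by
  have hle : ∀ s t, s ≤ t → x t - x s ∈ closeIdeal π s := by
    intro s t hst
    induction t, hst using Nat.le_induction with
    | base => simp
    | succ t hst ih =>
      rw [← sub_add_sub_cancel _ (x t)]
      exact add_mem (closeIdeal_antitone hst (hx t)) ih
  have key : ∀ n, ∃ l : O, ∀ t, π ^ t ∣ l - PowerSeries.coeff n (x (t + n)) := by
    intro n
    obtain ⟨l, hl⟩ := IsPrecomplete.prec' (I := maximalIdeal O) (M := O)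
      (fun t => PowerSeries.coeff n (x (t + n))) (fun {a b} hab => by
        rw [SModEq.comm, SModEq.sub_mem, smul_eq_mul, Ideal.mul_top, hπ.maximalIdeal_eq,
          Ideal.span_singleton_pow, Ideal.mem_span_singleton, ← map_sub]
        simpa using hle (a + n) (b + n) (by omega) n)
    refine ⟨l, fun t => ?_⟩
    have := hl t
    rwa [SModEq.comm, SModEq.sub_mem, smul_eq_mul, Ideal.mul_top, hπ.maximalIdeal_eq,
      Ideal.span_singleton_pow, Ideal.mem_span_singleton] at this
  choose l hl using key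
  refine ⟨PowerSeries.mk l, fun t n => ?_⟩
  rw [map_sub, PowerSeries.coeff_mk]
  rcases le_or_gt t n with h | h
  · rw [show t - n = 0 by omega, pow_zero]; exact one_dvd _
  · simpa [show t - n + n = t by omega] using hl n (t - n)

end Complete

end Fermat.Agent.LubinTate
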