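import Fermat.Agent.LubinTate.Coleman.Amice
import Fermat.Agent.LubinTate.Example
import Mathlib.NumberTheory.Bernoulli
import Mathlib.RingTheory.PowerSeries.Exp

/-!
# The measure of the cyclotomic units

`cycloSeries a` is `((1 + X) ^ a - 1) / X`, `cycloLog a` its logarithmic derivative for
`(1 + X) d/dX` and `cycloMeasure a = cycloLog a - φ (cycloLog a)`, `φ` the substitution of
`(1 + X) ^ p - 1`. The measure is supported on the units and its moments are the values at negative
integers of the zeta function without its Euler factor at `p`, times `1 - a ^ (k + 1)`.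
-/

set_option autoImplicit false

noncomputable section

open Finset

namespace Fermat.Agent.LubinTate

section Formal

variable {R : Type*} [CommRing R]

/-- The series `((1 + X) ^ a - 1) / X`. -/
def cycloSeries (R : Type*) [CommRing R] (a : ℕ) : PowerSeries R :=
  ∑ i ∈ range a, (1 + PowerSeries.X) ^ i

theorem X_mul_cycloSeries (a : ℕ) :
    PowerSeries.X * cycloSeries R a = (1 + PowerSeries.X) ^ a - 1 := by
  rw [← geom_sum_mul, add_sub_cancel_left, mul_comm]
  rfl

theorem constantCoeff_cycloSeries (a : ℕ) : (cycloSeries R a).constantCoeff = a := by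
  simp [cycloSeries]

theorem map_cycloSeries {S : Type*} [CommRing S] (f : R →+* S) (a : ℕ) :
    PowerSeries.map f (cycloSeries R a) = cycloSeries S a := by
  simp [cycloSeries, map_sum]

theorem amiceD_mul (x y : PowerSeries R) : amiceD (x * y) = amiceD x * y + x * amiceD y := by
  simp only [amiceD, Derivation.leibniz, smul_eq_mul]
  ring

theorem amiceD_X : amiceD (PowerSeries.X : PowerSeries R) = 1 + PowerSeries.X := by
  simp [amiceD]

theorem amiceD_one_add_X_pow (a : ℕ) :
    amiceD ((1 + PowerSeries.X : PowerSeries R) ^ a) =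
      (a : PowerSeries R) * (1 + PowerSeries.X) ^ a := by
  rw [amiceD, Derivation.leibniz_pow, map_add, Derivation.map_one_eq_zero, zero_add,
    PowerSeries.derivative_X, smul_eq_mul, mul_one, nsmul_eq_mul]
  rcases a with - | a
  · simp
  · rw [Nat.add_sub_cancel, pow_succ]
    push_cast
    ring

theorem amiceD_one : amiceD (1 : PowerSeries R) = 0 := by
  simp [amiceD]

theorem amiceD_sub (x y : PowerSeries R) : amiceD (x - y) = amiceD x - amiceD y := by
  simp [amiceD, mul_sub]

theorem X_mul_amiceD_cycloSeries (a : ℕ) :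
    PowerSeries.X * amiceD (cycloSeries R a) =
      (a : PowerSeries R) * (1 + PowerSeries.X) ^ a - (1 + PowerSeries.X) * cycloSeries R a := by
  have h := congrArg amiceD (X_mul_cycloSeries (R := R) a)
  rw [amiceD_mul, amiceD_X, amiceD_sub, amiceD_one_add_X_pow, amiceD_one, sub_zero] at h
  rw [← h]
  ring

end Formal

variable (p : ℕ) [hp : Fact p.Prime]

/-- The logarithmic derivative of `cycloSeries a`. -/
def cycloLog (a : ℕ) : PowerSeries ℤ_[p] :=
  amiceD (cycloSeries ℤ_[p] a) * Ring.inverse (cycloSeries ℤ_[p] a)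

theorem hasSubst_multiplicativeSeries : PowerSeries.HasSubst (multiplicativeSeries p) :=
  PowerSeries.HasSubst.of_constantCoeff_zero (isLTSeries_multiplicativeSeries p).constantCoeff_eq

/-- The substitution of `(1 + X) ^ p - 1`. -/
def frobSubst : PowerSeries ℤ_[p] →ₐ[ℤ_[p]] PowerSeries ℤ_[p] :=
  PowerSeries.substAlgHom (hasSubst_multiplicativeSeries p)

theorem frobSubst_apply (x : PowerSeries ℤ_[p]) :
    frobSubst p x = PowerSeries.subst (multiplicativeSeries p) x := by
  rw [frobSubst, PowerSeries.coe_substAlgHom]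

theorem frobSubst_X : frobSubst p PowerSeries.X = multiplicativeSeries p :=
  PowerSeries.substAlgHom_X _

theorem frobSubst_one_add_X :
    frobSubst p (1 + PowerSeries.X) = (1 + PowerSeries.X) ^ p := by
  rw [map_add, map_one, frobSubst_X, multiplicativeSeries, add_sub_cancel]

/-- **The measure of the cyclotomic units.** -/
def cycloMeasure (a : ℕ) : PowerSeries ℤ_[p] := cycloLog p a - frobSubst p (cycloLog p a)

variable {p} {a : ℕ} (ha : ¬ p ∣ a)
include ha

theorem isUnit_cycloSeries : IsUnit (cycloSeries ℤ_[p] a) := by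
  rw [PowerSeries.isUnit_iff_constantCoeff, constantCoeff_cycloSeries, PadicInt.isUnit_iff]
  exact PadicInt.norm_natCast_eq_one_iff.2 ((Nat.Prime.coprime_iff_not_dvd hp.out).2 ha)

theorem cycloLog_mul : cycloLog p a * cycloSeries ℤ_[p] a = amiceD (cycloSeries ℤ_[p] a) :=
  Ring.inverse_mul_cancel_right _ _ (isUnit_cycloSeries ha)

theorem cycloLog_mul_pow_sub_one :
    cycloLog p a * ((1 + PowerSeries.X) ^ a - 1) =
      (a : PowerSeries ℤ_[p]) * (1 + PowerSeries.X) ^ a -
        (1 + PowerSeries.X) * cycloSeries ℤ_[p] a := by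
  rw [← X_mul_cycloSeries, mul_left_comm, cycloLog_mul ha, X_mul_amiceD_cycloSeries]

/-- The measure times the difference of two point masses is a finite sum of point masses. -/
theorem cycloMeasure_mul :
    cycloMeasure p a * ((1 + PowerSeries.X) ^ (a * p) - 1) =
      (a : PowerSeries ℤ_[p]) * ∑ j ∈ range (p - 1), (1 + PowerSeries.X) ^ (a * (j + 1)) -
        (∑ i ∈ range (a * p), (1 + PowerSeries.X) ^ (i + 1) -
          ∑ i ∈ range a, (1 + PowerSeries.X) ^ (p * (i + 1))) := by
  set T : PowerSeries ℤ_[p] := 1 + PowerSeries.X with hT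
  set g := cycloSeries ℤ_[p] a with hg
  set A := ∑ j ∈ range p, T ^ (a * j)
  have hA : (T ^ a - 1) * A = T ^ (a * p) - 1 := by
    simp only [A, pow_mul, mul_comm (T ^ a - 1)]
    exact geom_sum_mul (T ^ a) p
  have hgA : g * A = ∑ i ∈ range (a * p), T ^ i := by
    refine mul_left_cancel₀ (PowerSeries.X_ne_zero) ?_
    rw [← mul_assoc, hg, X_mul_cycloSeries, hA, ← geom_sum_mul, hT, add_sub_cancel_left, mul_comm]
  have key := cycloLog_mul_pow_sub_one ha
  rw [← hT, ← hg] at key
  have h1 : cycloLog p a * (T ^ (a * p) - 1) =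
      (a : PowerSeries ℤ_[p]) * ∑ j ∈ range p, T ^ (a * (j + 1)) -
        ∑ i ∈ range (a * p), T ^ (i + 1) := by
    rw [← hA, ← mul_assoc, key, sub_mul, mul_assoc T, hgA, mul_assoc]
    simp only [A, mul_sum, ← pow_add, ← pow_succ', Nat.mul_succ, add_comm a]
  have hφT : frobSubst p T = T ^ p := frobSubst_one_add_X p
  have h2 : frobSubst p (cycloLog p a) * (T ^ (a * p) - 1) =
      (a : PowerSeries ℤ_[p]) * T ^ (a * p) - ∑ i ∈ range a, T ^ (p * (i + 1)) := by
    have h := congrArg (frobSubst p) key
    simp only [map_mul, map_sub, map_pow, map_one, map_natCast, hg, cycloSeries, map_sum, ← hT,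
      hφT, ← pow_mul, mul_sum, ← pow_add] at h
    rw [mul_comm a p, h]
    refine congrArg₂ _ rfl (sum_congr rfl fun i _ => ?_)
    ring
  rw [cycloMeasure, sub_mul, h1, h2]
  have hsplit : ∑ j ∈ range p, T ^ (a * (j + 1)) =
      (∑ j ∈ range (p - 1), T ^ (a * (j + 1))) + T ^ (a * p) := by
    have hp1 : p - 1 + 1 = p := Nat.sub_add_cancel hp.out.one_lt.le
    have h := sum_range_succ (fun j => T ^ (a * (j + 1))) (p - 1)
    simpa only [hp1] using h
  rw [hsplit]
  ring

omit hp ha in
/-- A map commutes with `(1 + X) d/dX`. -/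
theorem map_amiceD {R S : Type*} [CommRing R] [CommRing S] (f : R →+* S) (u : PowerSeries R) :
    PowerSeries.map f (amiceD u) = amiceD (PowerSeries.map f u) :=
  PowerSeries.ext fun n => by simp [coeff_amiceD]

omit ha in
/-- Moments through the substitution of `exp - 1`. -/
theorem constantCoeff_iterate_amiceD (k : ℕ) : ∀ u : PowerSeries ℚ_[p],
    (amiceD^[k] u).constantCoeff = (k.factorial : ℚ_[p]) *
      PowerSeries.coeff k (PowerSeries.subst (PowerSeries.exp ℚ_[p] - 1) u) := by
  have hE : PowerSeries.HasSubst (PowerSeries.exp ℚ_[p] - 1) :=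
    PowerSeries.HasSubst.of_constantCoeff_zero' (by simp)
  induction k with
  | zero =>
    intro u
    rw [Nat.factorial_zero, Nat.cast_one, one_mul, Function.iterate_zero, id_eq,
      PowerSeries.coeff_zero_eq_constantCoeff_apply, PowerSeries.constantCoeff,
      PowerSeries.constantCoeff_subst hE, finsum_eq_single _ 0]
    · simp [PowerSeries.coeff_zero_eq_constantCoeff_apply]
      rfl
    · intro d hd
      rw [map_pow, show MvPowerSeries.constantCoeff (PowerSeries.exp ℚ_[p] - 1) = 0 by
        change PowerSeries.constantCoeff (PowerSeries.exp ℚ_[p] - 1) = 0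
        simp, zero_pow hd, smul_zero]
  | succ k ih =>
    intro u
    have hd : PowerSeries.subst (PowerSeries.exp ℚ_[p] - 1) (amiceD u) =
        PowerSeries.derivative ℚ_[p] (PowerSeries.subst (PowerSeries.exp ℚ_[p] - 1) u) := by
      rw [PowerSeries.derivative_subst hE, amiceD, ← PowerSeries.coe_substAlgHom hE, map_mul,
        map_add, map_one, PowerSeries.substAlgHom_X, add_sub_cancel, map_sub,
        PowerSeries.derivative_exp, Derivation.map_one_eq_zero, sub_zero, mul_comm]
    rw [Function.iterate_succ_apply, ih, hd, PowerSeries.coeff_derivative, Nat.factorial_succ]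
    push_cast
    ring

/-- **The moments.** -/
theorem cycloMeasure_moment (k : ℕ) :
    ((amiceIntegral (cycloMeasure p a) (ContinuousMap.id ℤ_[p] ^ k) : ℤ_[p]) : ℚ_[p]) =
      (((1 - (p : ℚ) ^ k) * (((a : ℚ) ^ (k + 1) - 1) * (bernoulli' (k + 1) / (k + 1))) : ℚ) :
        ℚ_[p]) := by
  have ha0 : (a : ℚ_[p]) ≠ 0 := Nat.cast_ne_zero.2 (by rintro rfl; exact ha (dvd_zero p))
  set ρ := PowerSeries.map (PadicInt.Coe.ringHom (p := p)) with hρ
  set e := PowerSeries.exp ℚ_[p] with he
  set E := e - 1 with hEdef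
  have hE : PowerSeries.HasSubst E :=
    PowerSeries.HasSubst.of_constantCoeff_zero' (by simp [hEdef, he])
  set σ := PowerSeries.substAlgHom (R := ℚ_[p]) hE with hσ
  set H := σ (ρ (cycloLog p a))
  set G := σ (ρ (cycloSeries ℤ_[p] a))
  set ea := PowerSeries.rescale (a : ℚ_[p]) e with hea
  have hσT : σ (ρ (1 + PowerSeries.X)) = e := by
    simp [hσ, hρ, PowerSeries.substAlgHom_X, hEdef]
  have hσTa : σ (ρ ((1 + PowerSeries.X) ^ a)) = ea := by
    rw [map_pow, map_pow, hσT, hea, he, PowerSeries.exp_pow_eq_rescale_exp]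
  -- the geometric series
  have hG : G * E = ea - 1 := by
    have h := congrArg (fun x => σ (ρ x)) (X_mul_cycloSeries (R := ℤ_[p]) a)
    simp only [map_mul, map_sub, hσTa, map_one] at h
    rw [show σ (ρ PowerSeries.X) = E by simp [hσ, hρ, PowerSeries.substAlgHom_X]] at h
    rw [← h]
    ring
  -- the logarithmic derivative
  have hH : H * (ea - 1) * E = (a : PowerSeries ℚ_[p]) * ea * E - e * (ea - 1) := by
    have h := congrArg (fun x => σ (ρ x)) (cycloLog_mul_pow_sub_one ha)
    simp only [map_mul, map_sub, map_natCast, hσT, hσTa, map_one] at h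
    rw [h, ← hG]
    ring
  set B := bernoulli'PowerSeries ℚ_[p] with hB
  have hBe : B * E = PowerSeries.X * e := bernoulli'PowerSeries_mul_exp_sub_one _
  have hBa : PowerSeries.rescale (a : ℚ_[p]) B * (ea - 1) =
      (a : PowerSeries ℚ_[p]) * PowerSeries.X * ea := by
    have h := congrArg (PowerSeries.rescale (a : ℚ_[p])) hBe
    rwa [map_mul, map_mul, hEdef, map_sub, map_one, PowerSeries.rescale_X, ← hea,
      map_natCast] at h
  have hea0 : ea - 1 ≠ 0 := fun h => by
    have h' := congrArg (PowerSeries.coeff 1) h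
    simp [hea, he, PowerSeries.coeff_rescale, ha0] at h'
  have hE0 : E ≠ 0 := fun h => by
    have h' := congrArg (PowerSeries.coeff 1) h
    simp [hEdef, he] at h'
  have hXH : PowerSeries.X * H = PowerSeries.rescale (a : ℚ_[p]) B - B := by
    refine mul_right_cancel₀ (mul_ne_zero hea0 hE0) ?_
    calc PowerSeries.X * H * ((ea - 1) * E) = PowerSeries.X * (H * (ea - 1) * E) := by ring
      _ = (PowerSeries.rescale (a : ℚ_[p]) B * (ea - 1)) * E - (B * E) * (ea - 1) := by
        rw [hH, hBa, hBe]; ring
      _ = _ := by ring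
  have hcoeff : PowerSeries.coeff k H =
      ((a : ℚ_[p]) ^ (k + 1) - 1) * ((bernoulli' (k + 1) / (k + 1).factorial : ℚ) : ℚ_[p]) := by
    have h := congrArg (PowerSeries.coeff (k + 1)) hXH
    rw [PowerSeries.coeff_succ_X_mul, map_sub, PowerSeries.coeff_rescale, hB, bernoulli'PowerSeries,
      PowerSeries.coeff_mk, eq_ratCast] at h
    rw [h, sub_mul, one_mul]
  -- the Frobenius rescales
  have hφ : σ (ρ (frobSubst p (cycloLog p a))) = PowerSeries.rescale (p : ℚ_[p]) H := by
    have hm : PowerSeries.HasSubst (ρ (multiplicativeSeries p)) :=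
      PowerSeries.HasSubst.of_constantCoeff_zero' (by
        rw [hρ, ← PowerSeries.coeff_zero_eq_constantCoeff_apply, PowerSeries.coeff_map,
          PowerSeries.coeff_zero_eq_constantCoeff_apply,
          (isLTSeries_multiplicativeSeries p).constantCoeff_eq, map_zero])
    have hX : PowerSeries.HasSubst ((p : ℚ_[p]) • (PowerSeries.X : PowerSeries ℚ_[p])) :=
      PowerSeries.HasSubst.of_constantCoeff_zero' (by simp [PowerSeries.smul_eq_C_mul])
    have hEp : PowerSeries.subst E (ρ (multiplicativeSeries p)) =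
        PowerSeries.subst ((p : ℚ_[p]) • (PowerSeries.X : PowerSeries ℚ_[p])) E := by
      rw [← PowerSeries.rescale_eq_subst, ← PowerSeries.coe_substAlgHom hE, ← hσ,
        multiplicativeSeries, map_sub, map_sub, map_pow, map_pow, hσT, map_one, map_one, hEdef,
        map_sub, map_one, he, PowerSeries.exp_pow_eq_rescale_exp]
    simp only [H, hσ, hρ, PowerSeries.coe_substAlgHom, frobSubst_apply]
    rw [PowerSeries.rescale_eq_subst]
    change PowerSeries.subst E ((PowerSeries.subst (multiplicativeSeries p) (cycloLog p a)).map _) =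
      _
    rw [PowerSeries.map_subst (hasSubst_multiplicativeSeries p)]
    refine (PowerSeries.subst_comp_subst_apply hm hE (ρ (cycloLog p a))).trans
      (Eq.trans ?_ (PowerSeries.subst_comp_subst_apply hE hX (ρ (cycloLog p a))).symm)
    exact congrArg (fun t => PowerSeries.subst t (ρ (cycloLog p a))) hEp
  have hcast : ((amiceIntegral (cycloMeasure p a) (ContinuousMap.id ℤ_[p] ^ k) : ℤ_[p]) : ℚ_[p]) =
      (amiceD^[k] (ρ (cycloMeasure p a))).constantCoeff := by
    have hit : ∀ (j : ℕ) (u : PowerSeries ℤ_[p]), ρ (amiceD^[j] u) = amiceD^[j] (ρ u) := by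
      intro j
      induction j with
      | zero => exact fun u => rfl
      | succ j ih =>
        intro u
        rw [Function.iterate_succ_apply, Function.iterate_succ_apply, ih, hρ, map_amiceD]
    rw [amiceIntegral_pow, ← hit, hρ, ← PowerSeries.coeff_zero_eq_constantCoeff_apply,
      ← PowerSeries.coeff_zero_eq_constantCoeff_apply, PowerSeries.coeff_map]
    rfl
  rw [hcast, constantCoeff_iterate_amiceD, ← hEdef, ← PowerSeries.coe_substAlgHom hE, ← hσ,
    cycloMeasure, map_sub, map_sub, hφ, map_sub, PowerSeries.coeff_rescale,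
    show σ (ρ (cycloLog p a)) = H from rfl, hcoeff, Nat.factorial_succ]
  have : ((k.factorial : ℚ_[p])) ≠ 0 := Nat.cast_ne_zero.2 k.factorial_ne_zero
  have : ((k : ℚ_[p]) + 1) ≠ 0 := by exact_mod_cast Nat.succ_ne_zero k
  push_cast
  field_simp

end Fermat.Agent.LubinTate
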