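import Fermat.Agent.LubinTate.Coleman.Interpolation
import Fermat.Agent.LubinTate.Coleman.CycloMeasure
import Mathlib.NumberTheory.Padics.RingHoms
import Mathlib.RingTheory.RootsOfUnity.PrimitiveRoots

/-!
# The cyclotomic units over `ℚ_p`

Through the isomorphism of the group of `p X + X ^ p` with the multiplicative group a tower of
torsion points gives a compatible system of roots of unity `ζ k` of order `p ^ (k + 1)`, and the
series of Coleman of the units `(ζ k ^ a - 1) / (ζ k - 1)` is `((1 + X) ^ a - 1) / X`.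
-/

set_option autoImplicit false

noncomputable section

open IsLocalRing IntermediateField

namespace Fermat.Agent.LubinTate

/-- The norm of `w - 1` for a root `w` of a radical equation of prime degree. -/
theorem norm_sub_one_of_pow_eq {L L' : Type*} [Field L] [Field L'] [Algebra L L']
    [FiniteDimensional L L'] {p : ℕ} (hp : p.Prime) (hrank : Module.finrank L L' = p) {w : L'}
    {c : L} (hw : w ^ p = algebraMap L L' c) (hmem : w ∉ (algebraMap L L').range) :
    Algebra.norm L (w - 1) = (-1) ^ p * (1 - c) := by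
  have hint : IsIntegral L (w - 1) := Algebra.IsIntegral.isIntegral _
  have hdeg : (minpoly L (w - 1)).natDegree = p := by
    have hdvd : (minpoly L (w - 1)).natDegree ∣ p := hrank ▸ minpoly.degree_dvd hint
    refine ((Nat.dvd_prime hp).1 hdvd).resolve_left fun h1 => hmem ?_
    obtain ⟨d, hd⟩ := minpoly.natDegree_eq_one_iff.1 h1
    exact ⟨d + 1, by rw [map_add, map_one, hd, sub_add_cancel]⟩
  have hP : minpoly L (w - 1) = (Polynomial.X + 1) ^ p - Polynomial.C c := by
    have hm : ((Polynomial.X + 1 : Polynomial L) ^ p).Monic :=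
      (Polynomial.monic_X_add_C (1 : L)).pow p
    have hd : ((Polynomial.X + 1 : Polynomial L) ^ p).natDegree = p := by
      rw [Polynomial.natDegree_pow, ← Polynomial.C_1, Polynomial.natDegree_X_add_C, mul_one]
    have hlt : (Polynomial.C c).degree < ((Polynomial.X + 1 : Polynomial L) ^ p).degree := by
      refine Polynomial.degree_lt_degree ?_
      rw [Polynomial.natDegree_C, hd]
      exact hp.pos
    refine (Polynomial.eq_of_monic_of_dvd_of_natDegree_le (minpoly.monic hint)
      (hm.sub_of_left hlt) ?_ ?_).symm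
    · refine minpoly.dvd L _ ?_
      simp [hw]
    · rw [hdeg, Polynomial.natDegree_sub_C, hd]
  have htop : Algebra.adjoin L {w - 1} = ⊤ := by
    rw [← adjoin_simple_toSubalgebra_of_isAlgebraic hint.isAlgebraic, ← top_toSubalgebra]
    congr 1
    refine eq_of_le_of_finrank_le le_top ?_
    rw [IntermediateField.finrank_top', adjoin.finrank hint, hdeg, hrank]
  set pb := (Algebra.adjoin.powerBasis hint).map
    ((Subalgebra.equivOfEq _ _ htop).trans Subalgebra.topEquiv)
  have h := Algebra.PowerBasis.norm_gen_eq_coeff_zero_minpoly pb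
  rw [show pb.dim = p from pb.finrank ▸ hrank] at h
  refine h.trans ?_
  change _ * (minpoly L (w - 1)).coeff 0 = _
  rw [hP]
  simp [Polynomial.coeff_zero_eq_eval_zero]

variable (p : ℕ) [hp : Fact p.Prime]

theorem residueCard_padicInt : residueCard ℤ_[p] = p := by
  rw [residueCard, Nat.card_congr (PadicInt.residueField (p := p)).toEquiv, Nat.card_zmod]

instance : Finite (ResidueField ℤ_[p]) :=
  Finite.of_equiv _ (PadicInt.residueField (p := p)).toEquiv.symm

theorem isLTSeries_basicPadic : IsLTSeries (p : ℤ_[p]) p (basicPoly (p : ℤ_[p]) p) :=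
  isLTSeries_basicPoly (isLubinTateBase_padicInt p)

/-- The isomorphism of the group of `p X + X ^ p` with the multiplicative group. -/
def cycloCoord : PowerSeries ℤ_[p] :=
  scalarHom (isLubinTateBase_padicInt p) (isLTSeries_multiplicativeSeries p)
    (isLTSeries_basicPadic p) 1

/-- Its inverse. -/
def cycloCoordInv : PowerSeries ℤ_[p] :=
  scalarHom (isLubinTateBase_padicInt p) (isLTSeries_basicPadic p)
    (isLTSeries_multiplicativeSeries p) 1

theorem hasSubst_cycloCoord : PowerSeries.HasSubst (cycloCoord p) :=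
  PowerSeries.HasSubst.of_constantCoeff_zero (constantCoeff_scalarHom _ _ _ _)

theorem hasSubst_cycloCoordInv : PowerSeries.HasSubst (cycloCoordInv p) :=
  PowerSeries.HasSubst.of_constantCoeff_zero (constantCoeff_scalarHom _ _ _ _)

theorem subst_cycloCoordInv_cycloCoord :
    PowerSeries.subst (cycloCoordInv p) (cycloCoord p) = PowerSeries.X := by
  rw [cycloCoord, cycloCoordInv, ← scalarHom_mul, mul_one, scalarHom_one]

/-- The substitution of the coordinate. -/
def cycloSubst : PowerSeries ℤ_[p] →ₐ[ℤ_[p]] PowerSeries ℤ_[p] :=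
  PowerSeries.substAlgHom (hasSubst_cycloCoord p)

theorem cycloSubst_apply (x : PowerSeries ℤ_[p]) :
    cycloSubst p x = PowerSeries.subst (cycloCoord p) x := by
  rw [cycloSubst, PowerSeries.coe_substAlgHom]

theorem cycloSubst_injective : Function.Injective (cycloSubst p) := fun x y h => by
  rw [cycloSubst_apply, cycloSubst_apply] at h
  have h' := congrArg (PowerSeries.subst (cycloCoordInv p)) h
  rwa [PowerSeries.subst_comp_subst_apply (hasSubst_cycloCoord p) (hasSubst_cycloCoordInv p),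
    PowerSeries.subst_comp_subst_apply (hasSubst_cycloCoord p) (hasSubst_cycloCoordInv p),
    subst_cycloCoordInv_cycloCoord, PowerSeries.X_subst, PowerSeries.X_subst] at h'

/-- The coordinate is a unit times the variable. -/
theorem exists_cycloCoord_eq :
    ∃ S : PowerSeries ℤ_[p], IsUnit S ∧ cycloCoord p = PowerSeries.X * S := by
  refine ⟨PowerSeries.mk fun n => (cycloCoord p).coeff (n + 1), ?_, ?_⟩
  · rw [PowerSeries.isUnit_iff_constantCoeff, ← PowerSeries.coeff_zero_eq_constantCoeff_apply,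
      PowerSeries.coeff_mk, cycloCoord, coeff_one_scalarHom]
    exact isUnit_one
  · conv_lhs => rw [(cycloCoord p).eq_X_mul_shift_add_const]
    rw [show (cycloCoord p).constantCoeff = 0 from constantCoeff_scalarHom _ _ _ _, map_zero,
      add_zero]

theorem cycloSubst_multiplicativeSeries :
    (1 + cycloCoord p) ^ p - 1 =
      PowerSeries.subst (basicPoly (p : ℤ_[p]) p : PowerSeries ℤ_[p]) (cycloCoord p) := by
  rw [cycloCoord, ← scalarHom_comm (isLubinTateBase_padicInt p), ← cycloCoord, ← cycloSubst_apply,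
    multiplicativeSeries, map_sub, map_pow, map_add, map_one, cycloSubst,
    PowerSeries.substAlgHom_X]

variable {p} {Ω : Type*} [Field Ω] [Algebra ℚ_[p] Ω] [Algebra ℤ_[p] Ω]
  [IsScalarTower ℤ_[p] ℚ_[p] Ω] {lam : ℕ → Ω} (hlam : IsTorsionTower (p : ℤ_[p]) lam)

/-- The value at a torsion point, in the big field. -/
def torsionValue (k : ℕ) : PowerSeries ℤ_[p] →ₐ[ℤ_[p]] Ω :=
  ((lev ℚ_[p] lam k).val.restrictScalars ℤ_[p]).comp
    (evalLev (K := ℚ_[p]) PadicInt.irreducible_p hlam k)

theorem coe_evalLev (k : ℕ) (u : PowerSeries ℤ_[p]) :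
    ((evalLev (K := ℚ_[p]) PadicInt.irreducible_p hlam k u : lev ℚ_[p] lam k) : Ω) =
      torsionValue hlam k u :=
  rfl

/-- **The roots of unity of the tower.** -/
def cycloZeta (k : ℕ) : Ω := 1 + torsionValue hlam k (cycloCoord p)

theorem torsionValue_coe (k : ℕ) (P : Polynomial ℤ_[p]) :
    torsionValue hlam k (P : PowerSeries ℤ_[p]) = Polynomial.aeval (lam k) P := by
  rw [torsionValue, AlgHom.comp_apply, evalLev_coe, ← Polynomial.aeval_algHom_apply]
  rfl

theorem basicPoly_subst_coe (P : Polynomial ℤ_[p]) :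
    PowerSeries.subst (basicPoly (p : ℤ_[p]) p : PowerSeries ℤ_[p]) (P : PowerSeries ℤ_[p]) =
      (P.comp (basicPoly (p : ℤ_[p]) p) : PowerSeries ℤ_[p]) := by
  rw [PowerSeries.subst_coe (PowerSeries.HasSubst.of_constantCoeff_zero
      (isLTSeries_basicPadic p).constantCoeff_eq),
    show ((P.comp (basicPoly (p : ℤ_[p]) p) : Polynomial ℤ_[p]) : PowerSeries ℤ_[p]) =
      Polynomial.coeToPowerSeries.algHom ℤ_[p] (P.comp (basicPoly (p : ℤ_[p]) p)) by simp,
    Polynomial.comp_eq_aeval, ← Polynomial.aeval_algHom_apply]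
  simp

/-- Substituting `p X + X ^ p` goes down one level. -/
theorem torsionValue_succ_subst (k : ℕ) (u : PowerSeries ℤ_[p]) :
    torsionValue hlam (k + 1)
        (PowerSeries.subst (basicPoly (p : ℤ_[p]) p : PowerSeries ℤ_[p]) u) =
      torsionValue hlam k u := by
  have hπ : Irreducible (p : ℤ_[p]) := PadicInt.irreducible_p
  obtain ⟨P, hP⟩ := Ideal.Quotient.mk_surjective
    ((isDistinguished_iterPoly hπ (k + 1)).algEquivQuotient.symm (Ideal.Quotient.mk _ u))
  obtain ⟨c, hc⟩ : (iterPoly (p : ℤ_[p]) (residueCard ℤ_[p]) (k + 1) : PowerSeries ℤ_[p]) ∣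
      u - P :=
    Ideal.mem_span_singleton.1 ((Ideal.Quotient.mk_eq_mk_iff_sub_mem _ _).1
      ((AlgEquiv.eq_symm_apply _).1 hP).symm)
  have hzero : ∀ j, torsionValue hlam j
      (iterPoly (p : ℤ_[p]) (residueCard ℤ_[p]) (j + 1) : PowerSeries ℤ_[p]) = 0 := fun j => by
    rw [torsionValue, AlgHom.comp_apply, evalLev_iterPoly, map_zero]
  have hb : PowerSeries.HasSubst (basicPoly (p : ℤ_[p]) p : PowerSeries ℤ_[p]) :=
    PowerSeries.HasSubst.of_constantCoeff_zero (isLTSeries_basicPadic p).constantCoeff_eq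
  rw [show u = (P : PowerSeries ℤ_[p]) + (u - P) by ring, hc, map_add,
    map_mul (torsionValue hlam k),
    hzero, zero_mul, add_zero, PowerSeries.subst_add hb, PowerSeries.subst_mul hb,
    basicPoly_subst_coe, basicPoly_subst_coe, map_add, map_mul]
  have hi : (iterPoly (p : ℤ_[p]) (residueCard ℤ_[p]) (k + 1)).comp (basicPoly (p : ℤ_[p]) p) =
      iterPoly (p : ℤ_[p]) (residueCard ℤ_[p]) (k + 1 + 1) := by
    rw [residueCard_padicInt]; exact (iterPoly_succ' _ _ _).symm
  rw [hi, hzero, zero_mul, add_zero, torsionValue_coe, torsionValue_coe, Polynomial.aeval_comp]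
  have h := hlam.aeval_succ k
  rw [residueCard_padicInt] at h
  rw [h]

theorem torsionValue_X (k : ℕ) : torsionValue hlam k PowerSeries.X = lam k := by
  rw [← Polynomial.coe_X, torsionValue_coe, Polynomial.aeval_X]

theorem cycloZeta_succ_pow (k : ℕ) : cycloZeta hlam (k + 1) ^ p = cycloZeta hlam k := by
  rw [cycloZeta, ← map_one (torsionValue hlam (k + 1)), ← map_add, ← map_pow,
    ← sub_add_cancel ((1 + cycloCoord p) ^ p) 1, cycloSubst_multiplicativeSeries, map_add,
    torsionValue_succ_subst, map_one, add_comm, cycloZeta]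

theorem cycloZeta_zero_pow : cycloZeta hlam 0 ^ p = 1 := by
  have hb : PowerSeries.HasSubst (basicPoly (p : ℤ_[p]) p : PowerSeries ℤ_[p]) :=
    PowerSeries.HasSubst.of_constantCoeff_zero (isLTSeries_basicPadic p).constantCoeff_eq
  obtain ⟨S, -, hS⟩ := exists_cycloCoord_eq p
  rw [cycloZeta, ← map_one (torsionValue hlam 0), ← map_add, ← map_pow, ← sub_eq_zero, ← map_sub,
    cycloSubst_multiplicativeSeries, hS, PowerSeries.subst_mul hb, PowerSeries.subst_X hb, map_mul,
    torsionValue_coe]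
  have h : Polynomial.aeval (lam 0) (basicPoly (p : ℤ_[p]) p) = 0 := by
    have h1 : torsionValue hlam 0
        (iterPoly (p : ℤ_[p]) (residueCard ℤ_[p]) 1 : PowerSeries ℤ_[p]) = 0 := by
      rw [torsionValue, AlgHom.comp_apply, evalLev_iterPoly, map_zero]
    simpa [torsionValue_coe, iterPoly, residueCard_padicInt] using h1
  rw [h, zero_mul]

theorem cycloZeta_pow_sub_one (k a : ℕ) :
    cycloZeta hlam k ^ a - 1 =
      torsionValue hlam k (cycloCoord p * cycloSubst p (cycloSeries ℤ_[p] a)) := by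
  have h := congrArg (cycloSubst p) (X_mul_cycloSeries (R := ℤ_[p]) a)
  rw [map_mul, map_sub, map_pow, map_add, map_one, cycloSubst,
    PowerSeries.substAlgHom_X, ← cycloSubst] at h
  rw [h, map_sub, map_pow, map_add, map_one, cycloZeta]

theorem torsionValue_cycloCoord_ne_zero (k : ℕ) : torsionValue hlam k (cycloCoord p) ≠ 0 := by
  obtain ⟨S, hS, hSe⟩ := exists_cycloCoord_eq p
  rw [hSe, map_mul]
  refine mul_ne_zero ?_ (hS.map _).ne_zero
  rw [torsionValue, AlgHom.comp_apply]
  intro h
  refine lam_ne_zero (K := ℚ_[p]) PadicInt.irreducible_p k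
    (isTorsionGenerator_levGen (K := ℚ_[p]) PadicInt.irreducible_p hlam k)
    ((lev ℚ_[p] lam k).val.injective ?_)
  rw [map_zero]
  exact (torsionValue_X hlam k).symm.trans h

theorem isPrimitiveRoot_cycloZeta (k : ℕ) :
    IsPrimitiveRoot (cycloZeta hlam k) (p ^ (k + 1)) := by
  have hpow : ∀ k, cycloZeta hlam k ^ p ^ k = cycloZeta hlam 0 := by
    intro k
    induction k with
    | zero => simp
    | succ k ih => rw [pow_succ', pow_mul, cycloZeta_succ_pow, ih]
  have h0 : cycloZeta hlam 0 ≠ 1 := fun h => torsionValue_cycloCoord_ne_zero hlam 0 (by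
    rwa [cycloZeta, add_eq_left] at h)
  refine IsPrimitiveRoot.iff_orderOf.2 ?_
  refine orderOf_eq_prime_pow ?_ ?_
  · rwa [hpow]
  · rw [pow_succ, pow_mul, hpow, cycloZeta_zero_pow]

/-- **A field containing a uniformizer of a level is that level.** -/
theorem lev_le_of_mem {k : ℕ} {F : IntermediateField ℚ_[p] Ω} (hF : F ≤ lev ℚ_[p] lam k)
    {S : PowerSeries ℤ_[p]} (hS : IsUnit S)
    (hmem : torsionValue hlam k (PowerSeries.X * S) ∈ F) : lev ℚ_[p] lam k ≤ F := by
  have hπ : Irreducible (p : ℤ_[p]) := PadicInt.irreducible_p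
  have hgen := isTorsionGenerator_levGen (K := ℚ_[p]) hπ hlam k
  have := finiteDimensional hπ k hgen
  let := (inclusion hF).toRingHom.toAlgebra
  have : IsScalarTower ℚ_[p] F (lev ℚ_[p] lam k) := IsScalarTower.of_algebraMap_eq fun x => rfl
  have : IsScalarTower ℤ_[p] F (lev ℚ_[p] lam k) :=
    IsScalarTower.of_algebraMap_eq fun x => Subtype.ext rfl
  have : FiniteDimensional F (lev ℚ_[p] lam k) :=
    Module.Finite.of_restrictScalars_finite ℚ_[p] F (lev ℚ_[p] lam k)
  have : FiniteDimensional ℚ_[p] F :=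
    FiniteDimensional.of_injective (inclusion hF).toLinearMap (inclusion_injective hF)
  have hmk : ((algebraMap F (lev ℚ_[p] lam k)) ⟨_, hmem⟩) =
      evalLev (K := ℚ_[p]) hπ hlam k (PowerSeries.X * S) := Subtype.ext rfl
  set y : F := ⟨_, hmem⟩
  have hyi : IsIntegral ℤ_[p] y :=
    (isIntegral_algHom_iff (IsScalarTower.toAlgHom ℤ_[p] F (lev ℚ_[p] lam k))
      (algebraMap F (lev ℚ_[p] lam k)).injective).1 (by
        change IsIntegral ℤ_[p] (algebraMap F (lev ℚ_[p] lam k) y)
        rw [hmk]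
        exact isIntegral_evalAt hπ k hgen _)
  obtain ⟨c, hc⟩ := IsIntegrallyClosed.isIntegral_iff.1 (Algebra.isIntegral_norm ℚ_[p] hyi)
  -- the norm of the value of a unit series is a unit
  obtain ⟨v, hv, hvn⟩ : ∃ v : ℤ_[p], IsUnit v ∧
      algebraMap ℤ_[p] ℚ_[p] v = Algebra.norm ℚ_[p] (evalLev (K := ℚ_[p]) hπ hlam k S) := by
    obtain ⟨T, hT⟩ := hS.exists_right_inv
    obtain ⟨v, hv⟩ := IsIntegrallyClosed.isIntegral_iff.1
      (Algebra.isIntegral_norm ℚ_[p] (isIntegral_evalAt hπ k hgen S))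
    obtain ⟨v', hv'⟩ := IsIntegrallyClosed.isIntegral_iff.1
      (Algebra.isIntegral_norm ℚ_[p] (isIntegral_evalAt hπ k hgen T))
    refine ⟨v, IsUnit.of_mul_eq_one v' (IsFractionRing.injective ℤ_[p] ℚ_[p] ?_), hv⟩
    rw [map_mul, hv, hv', ← map_mul, ← map_mul, hT, map_one, map_one, map_one]
  have hd : c ^ Module.finrank F (lev ℚ_[p] lam k) =
      (-1) ^ torsionDegree ℤ_[p] k * (p : ℤ_[p]) * v := by
    refine IsFractionRing.injective ℤ_[p] ℚ_[p] ?_
    rw [map_pow, hc, ← map_pow, ← Algebra.norm_algebraMap (S := lev ℚ_[p] lam k),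
      Algebra.norm_norm, hmk]
    simp only [map_mul, hvn, map_pow, map_neg, map_one]
    congr 1
    have h2 := norm_neg_lam hπ k hgen
    rw [← neg_one_mul, map_mul, show (-1 : lev ℚ_[p] lam k) = algebraMap ℚ_[p] _ (-1) by simp,
      Algebra.norm_algebraMap, finrank_eq hπ k hgen] at h2
    rw [evalLev, evalAt_X, ← h2, ← mul_assoc, ← mul_pow, neg_one_mul, neg_neg, one_pow, one_mul]
  have hd1 : Module.finrank F (lev ℚ_[p] lam k) = 1 := by
    have hirr : Irreducible (c ^ Module.finrank F (lev ℚ_[p] lam k)) := by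
      rw [hd, mul_comm, ← mul_assoc, irreducible_isUnit_mul (hv.mul (isUnit_one.neg.pow _))]
      exact hπ
    match hd' : Module.finrank F (lev ℚ_[p] lam k) with
    | 0 => rw [hd', pow_zero] at hirr; exact absurd hirr not_irreducible_one
    | 1 => rfl
    | d + 2 =>
      rw [hd', pow_succ'] at hirr
      rcases hirr.isUnit_or_isUnit rfl with h | h
      · exact absurd (h.mul (h.pow _)) hirr.not_isUnit
      · exact absurd (((isUnit_pow_iff (Nat.succ_ne_zero d)).1 h).mul h) hirr.not_isUnit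
  refine (IntermediateField.eq_of_le_of_finrank_le hF ?_).ge
  have h := Module.finrank_mul_finrank ℚ_[p] F (lev ℚ_[p] lam k)
  rw [hd1, mul_one] at h
  exact h.ge

theorem cycloZeta_pow_mem_lev (k a : ℕ) : cycloZeta hlam k ^ a ∈ lev ℚ_[p] lam k :=
  pow_mem (add_mem (one_mem _) (SetLike.coe_mem _)) a

variable {a : ℕ} (ha : ¬ p ∣ a)
include ha

/-- Each of the roots of unity generates its level. -/
theorem lev_eq_adjoin (k : ℕ) :
    lev ℚ_[p] lam k = ℚ_[p]⟮cycloZeta hlam k ^ a⟯ := by
  have hle : ℚ_[p]⟮cycloZeta hlam k ^ a⟯ ≤ lev ℚ_[p] lam k := by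
    rw [adjoin_simple_le_iff]
    exact cycloZeta_pow_mem_lev hlam k a
  refine le_antisymm ?_ hle
  obtain ⟨S, hS, hSe⟩ := exists_cycloCoord_eq p
  refine lev_le_of_mem hlam hle (hS.mul ((isUnit_cycloSeries ha).map (cycloSubst p))) ?_
  rw [← mul_assoc, ← hSe, ← cycloZeta_pow_sub_one]
  exact sub_mem (mem_adjoin_simple_self _ _) (one_mem _)

theorem levNorm_cycloZeta_sub_one (k : ℕ) (w : lev ℚ_[p] lam (k + 1)) (c : lev ℚ_[p] lam k)
    (hw : (w : Ω) = cycloZeta hlam (k + 1) ^ a) (hc : (c : Ω) = cycloZeta hlam k ^ a) :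
    levNorm hlam k (w - 1) = (-1) ^ p * (1 - c) := by
  have hπ : Irreducible (p : ℤ_[p]) := PadicInt.irreducible_p
  let := (inclusion (lev_le (K := ℚ_[p]) hlam k)).toRingHom.toAlgebra
  have : IsScalarTower ℚ_[p] (lev ℚ_[p] lam k) (lev ℚ_[p] lam (k + 1)) :=
    IsScalarTower.of_algebraMap_eq fun x => rfl
  have hgk := isTorsionGenerator_levGen (K := ℚ_[p]) hπ hlam k
  have hgk1 := isTorsionGenerator_levGen (K := ℚ_[p]) hπ hlam (k + 1)
  have := finiteDimensional hπ k hgk
  have := finiteDimensional hπ (k + 1) hgk1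
  have : FiniteDimensional (lev ℚ_[p] lam k) (lev ℚ_[p] lam (k + 1)) :=
    Module.Finite.of_restrictScalars_finite ℚ_[p] _ _
  have hfin : Module.finrank (lev ℚ_[p] lam k) (lev ℚ_[p] lam (k + 1)) = p := by
    have h := Module.finrank_mul_finrank ℚ_[p] (lev ℚ_[p] lam k) (lev ℚ_[p] lam (k + 1))
    rw [finrank_eq hπ k hgk, finrank_eq hπ (k + 1) hgk1, show torsionDegree ℤ_[p] (k + 1) =
      torsionDegree ℤ_[p] k * p by simp only [torsionDegree, residueCard_padicInt, pow_succ]; ring]
      at h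
    exact mul_left_cancel₀ (torsionDegree_pos hπ k).ne' h
  refine norm_sub_one_of_pow_eq hp.out hfin (Subtype.ext ?_) fun hmem => ?_
  · change (w : Ω) ^ p = c
    rw [hw, hc, ← pow_mul, mul_comm, pow_mul, cycloZeta_succ_pow]
  · obtain ⟨d, hd⟩ := hmem
    have hle : lev ℚ_[p] lam (k + 1) ≤ lev ℚ_[p] lam k := by
      rw [lev_eq_adjoin hlam ha (k + 1), adjoin_simple_le_iff, ← hw, ← hd]
      exact d.2
    have hdvd := finrank_eq hπ (k + 1) hgk1
    rw [congrArg (fun F : IntermediateField ℚ_[p] Ω => Module.finrank ℚ_[p] F)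
      (le_antisymm hle (lev_le (K := ℚ_[p]) hlam k)), finrank_eq hπ k hgk] at hdvd
    simp only [torsionDegree, residueCard_padicInt, pow_succ] at hdvd
    have := hp.out.one_lt
    have h0 : 0 < p ^ k * (p - 1) := Nat.mul_pos (pow_pos (by omega) k) (by omega)
    nlinarith

include hlam in
/-- **The cyclotomic units are norm compatible**, so their series is fixed. -/
theorem colemanNorm_cycloSeries :
    colemanNorm (π := (p : ℤ_[p])) PadicInt.irreducible_p
        (cycloSubst p (cycloSeries ℤ_[p] a)) =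
      cycloSubst p (cycloSeries ℤ_[p] a) := by
  refine (colemanNorm_eq_self_iff (K := ℚ_[p]) PadicInt.irreducible_p hlam _).2 fun k => ?_
  set g := cycloSubst p (cycloSeries ℤ_[p] a)
  set ev := fun j => evalLev (K := ℚ_[p]) PadicInt.irreducible_p hlam j
  set Z : ℕ → ℕ → PowerSeries ℤ_[p] := fun _ b => (1 + cycloCoord p) ^ b
  have hval : ∀ j b, ((ev j (Z j b) : lev ℚ_[p] lam j) : Ω) = cycloZeta hlam j ^ b := fun j b => by
    change torsionValue hlam j ((1 + cycloCoord p) ^ b) = _
    rw [map_pow, map_add, map_one, cycloZeta]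
  have hkey : ∀ j, ev j (Z j a) - 1 = ev j g * (ev j (Z j 1) - 1) := fun j => by
    refine Subtype.ext ?_
    change ((ev j (Z j a) : lev ℚ_[p] lam j) : Ω) - 1 =
      torsionValue hlam j g * (((ev j (Z j 1) : lev ℚ_[p] lam j) : Ω) - 1)
    rw [hval, hval, cycloZeta_pow_sub_one, pow_one, cycloZeta, add_sub_cancel_left, map_mul,
      mul_comm]
  have h1 := congrArg (levNorm hlam k) (hkey (k + 1))
  rw [map_mul, levNorm_cycloZeta_sub_one hlam ha k _ _ (hval (k + 1) a) (hval k a),
    levNorm_cycloZeta_sub_one hlam (a := 1) (Nat.Prime.not_dvd_one hp.out) k _ _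
      (hval (k + 1) 1) (hval k 1)] at h1
  refine mul_right_cancel₀ ?_ (h1.symm.trans ?_)
  · refine mul_ne_zero (pow_ne_zero _ (neg_ne_zero.2 one_ne_zero)) (sub_ne_zero.2 fun h => ?_)
    have h' := congrArg Subtype.val h
    rw [hval, pow_one] at h'
    refine torsionValue_cycloCoord_ne_zero hlam k ?_
    rw [cycloZeta] at h'
    exact left_eq_add.1 h'
  · linear_combination (-(-1 : lev ℚ_[p] lam k) ^ p) * hkey k

omit ha in
/-- **The series of Coleman of the cyclotomic units.** -/
theorem existsUnique_cycloSeries :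
    ∃! g : PowerSeries ℤ_[p], ∀ k, torsionValue hlam k (cycloSubst p g) =
      (cycloZeta hlam k ^ a - 1) / (cycloZeta hlam k - 1) := by
  have hval : ∀ k, torsionValue hlam k (cycloSubst p (cycloSeries ℤ_[p] a)) =
      (cycloZeta hlam k ^ a - 1) / (cycloZeta hlam k - 1) := by
    intro k
    rw [cycloZeta_pow_sub_one, map_mul, cycloZeta, add_sub_cancel_left,
      mul_div_cancel_left₀ _ (torsionValue_cycloCoord_ne_zero hlam k)]
  refine ⟨_, hval, fun g hg => cycloSubst_injective p (evalLev_injective (K := ℚ_[p])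
    PadicInt.irreducible_p hlam fun k => Subtype.ext ?_)⟩
  exact (hg k).trans (hval k).symm

end Fermat.Agent.LubinTate
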