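import Fermat.Agent.LubinTate.Coleman.CyclotomicIdeal

/-!
# Local units modulo cyclotomic units

`cycloClosure` consists of the norm compatible systems in the closure of the cyclotomic units at
every level. It is the inverse image of the ideal of their measures, so the quotient of the units
by it is the quotient of the measures killing `x` by this ideal.
-/

set_option autoImplicit false

noncomputable section

open Finset IsLocalRing IntermediateField

namespace Fermat.Agent.LubinTate

variable {p : ℕ} [hp : Fact p.Prime]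

local notation "Λ" => PowerSeries ℤ_[p]
local notation "T₁" => (1 + PowerSeries.X : PowerSeries ℤ_[p])
local notation "𝒞" => C(ℤ_[p], ℤ_[p])
local notation "σ" => cycloSubst p
local notation "Cp" => PowerSeries.C (p : ℤ_[p])

theorem cycloSubst_mem_closeIdeal {t : ℕ} {x : Λ} (hx : x ∈ closeIdeal (p : ℤ_[p]) t) :
    σ x ∈ closeIdeal (p : ℤ_[p]) t :=
  algHom_mem_closeIdeal p (by rw [constantCoeff_cycloSubst, PowerSeries.constantCoeff_X]) hx

theorem cycloSubstInv_mem_closeIdeal {t : ℕ} {x : Λ} (hx : x ∈ closeIdeal (p : ℤ_[p]) t) :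
    cycloSubstInv p x ∈ closeIdeal (p : ℤ_[p]) t := by
  refine algHom_mem_closeIdeal p ?_ hx
  obtain ⟨y, hy⟩ := cycloSubst_surjective p PowerSeries.X
  rw [← hy, cycloSubstInv_cycloSubst, ← constantCoeff_cycloSubst p y, hy,
    PowerSeries.constantCoeff_X]

theorem normSeries_neg_one : normSeries p (-1 : Λ) = PowerSeries.C ((-1) ^ p) := by
  rw [← normSeries_C, map_neg PowerSeries.C, map_one PowerSeries.C]

variable {Ω : Type*} [Field Ω] [Algebra ℚ_[p] Ω] [Algebra ℤ_[p] Ω]
  [IsScalarTower ℤ_[p] ℚ_[p] Ω] {lam : ℕ → Ω} (hlam : IsTorsionTower (p : ℤ_[p]) lam)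

include hlam in
theorem cycloUnit_mem_normFixed {a : ℕ} (ha : ¬ p ∣ a) : cycloUnit p ha ∈ normFixed p := by
  rw [mem_normFixed, coe_cycloUnit, normSeries_eq_self_iff]
  exact colemanNorm_cycloSeries hlam ha

include hlam in
/-- The norm is idempotent on the series of cyclotomic units. -/
theorem normSeries_normSeries_of_mem {g : Λˣ} (hg : g ∈ cycloGroup p) :
    normSeries p (normSeries p g) = normSeries p g := by
  have key : cycloGroup p ≤ MonoidHom.eqLocus
      ((Units.map (normSeries p)).comp (Units.map (normSeries p))) (Units.map (normSeries p)) := by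
    rw [cycloGroup, Subgroup.closure_le]
    rintro x (h | h | ⟨a, ha, h⟩) <;> refine Units.ext ?_ <;>
      simp only [MonoidHom.comp_apply, Units.coe_map, h]
    · rw [normSeries_neg_one, normSeries_C, ← pow_mul]
      rcases hp.out.eq_two_or_odd' with h2 | h2
      · subst h2; norm_num
      · rw [(h2.mul h2).neg_one_pow, h2.neg_one_pow]
    · rw [normSeries_one_add_X_sign, map_mul, normSeries_C, normSeries_one_add_X_sign,
        ← mul_assoc, ← map_mul, ← pow_mul, ← pow_add,
        show (p - 1) * p + (p - 1) = (p - 1) * (p + 1) by ring]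
      rcases hp.out.eq_two_or_odd' with h2 | h2
      · subst h2; norm_num
      · rw [((hp.out.even_sub_one fun h => by subst h; exact absurd h2 (by decide)).mul_right
          _).neg_one_pow,
          (hp.out.even_sub_one fun h => by subst h; exact absurd h2 (by decide)).neg_one_pow]
    · have hfix := (mem_normFixed p).1 (cycloUnit_mem_normFixed hlam ha)
      rw [coe_cycloUnit] at hfix
      rw [hfix, hfix]
  exact congrArg Units.val (key hg)

/-- The value at level `k + 1`, on units. -/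
def levelValue (k : ℕ) : Λˣ →* (lev ℚ_[p] lam k)ˣ :=
  Units.map ((evalLev (K := ℚ_[p]) PadicInt.irreducible_p hlam k).comp
    (cycloSubst p)).toRingHom.toMonoidHom

theorem coe_levelValue (k : ℕ) (g : Λˣ) :
    ((levelValue hlam k g : (lev ℚ_[p] lam k)ˣ) : lev ℚ_[p] lam k) =
      evalLev (K := ℚ_[p]) PadicInt.irreducible_p hlam k (σ (g : Λ)) :=
  rfl

/-- **The cyclotomic units of level `k + 1`**: generated by `-1`, `ζ`, `(ζ ^ a - 1) / (ζ - 1)`. -/
def cycloLevelUnits (k : ℕ) : Subgroup (lev ℚ_[p] lam k)ˣ :=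
  Subgroup.closure {x | ((x : lev ℚ_[p] lam k) : Ω) = -1 ∨
    ((x : lev ℚ_[p] lam k) : Ω) = cycloZeta hlam k ∨
    ∃ a : ℕ, ¬ p ∣ a ∧ ((x : lev ℚ_[p] lam k) : Ω) =
      (cycloZeta hlam k ^ a - 1) / (cycloZeta hlam k - 1)}

theorem torsionValue_cycloSubst_T (k : ℕ) :
    torsionValue hlam k (σ T₁) = cycloZeta hlam k := by
  rw [map_add, map_one, cycloSubst, PowerSeries.substAlgHom_X, map_add, map_one, cycloZeta]

theorem torsionValue_cycloSubst_cycloSeries (k a : ℕ) :
    torsionValue hlam k (σ (cycloSeries ℤ_[p] a)) =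
      (cycloZeta hlam k ^ a - 1) / (cycloZeta hlam k - 1) := by
  rw [cycloZeta_pow_sub_one, map_mul, cycloZeta, add_sub_cancel_left,
    mul_div_cancel_left₀ _ (torsionValue_cycloCoord_ne_zero hlam k)]

/-- The cyclotomic units are the values of their series. -/
theorem map_cycloGroup (k : ℕ) :
    (cycloGroup p).map (levelValue hlam k) = cycloLevelUnits hlam k := by
  rw [cycloGroup, MonoidHom.map_closure, cycloLevelUnits]
  congr 1
  have hval : ∀ g : Λˣ, (((levelValue hlam k g : (lev ℚ_[p] lam k)ˣ) : lev ℚ_[p] lam k) : Ω) =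
      torsionValue hlam k (σ (g : Λ)) := fun g => rfl
  ext x
  constructor
  · rintro ⟨g, hg, rfl⟩
    rcases hg with h | h | ⟨a, ha, h⟩
    · exact Or.inl (by rw [hval, h, map_neg, map_one, map_neg, map_one])
    · exact Or.inr (Or.inl (by rw [hval, h, torsionValue_cycloSubst_T]))
    · exact Or.inr (Or.inr ⟨a, ha, by rw [hval, h, torsionValue_cycloSubst_cycloSeries]⟩)
  · rintro (h | h | ⟨a, ha, h⟩)
    · refine ⟨-1, Or.inl rfl, Units.ext (Subtype.ext ?_)⟩
      rw [hval, h]
      simp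
    · have hu : IsUnit T₁ := by simp [PowerSeries.isUnit_iff_constantCoeff]
      refine ⟨hu.unit, Or.inr (Or.inl rfl), Units.ext (Subtype.ext ?_)⟩
      rw [hval, h, IsUnit.unit_spec, torsionValue_cycloSubst_T]
    · refine ⟨cycloUnit p ha, Or.inr (Or.inr ⟨a, ha, coe_cycloUnit p ha⟩),
        Units.ext (Subtype.ext ?_)⟩
      rw [hval, h, coe_cycloUnit, torsionValue_cycloSubst_cycloSeries]

theorem isIntegral_levelValue (k : ℕ) (g : Λˣ) :
    IsIntegral ℤ_[p] ((levelValue hlam k g : (lev ℚ_[p] lam k)ˣ) : lev ℚ_[p] lam k) ∧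
      IsIntegral ℤ_[p] (((levelValue hlam k g)⁻¹ : (lev ℚ_[p] lam k)ˣ) : lev ℚ_[p] lam k) :=
  ⟨isIntegral_evalAt PadicInt.irreducible_p k
      (isTorsionGenerator_levGen (K := ℚ_[p]) PadicInt.irreducible_p hlam k) _, by
    rw [← map_inv]
    exact isIntegral_evalAt PadicInt.irreducible_p k
      (isTorsionGenerator_levGen (K := ℚ_[p]) PadicInt.irreducible_p hlam k) _⟩

/-- `x` is congruent to a cyclotomic unit modulo every power of `p`. -/
def InCycloClosure (k : ℕ) (x : (lev ℚ_[p] lam k)ˣ) : Prop :=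
  ∀ i : ℕ, ∃ c ∈ cycloLevelUnits hlam k, ∃ z, IsIntegral ℤ_[p] z ∧
    (x : lev ℚ_[p] lam k) - c = algebraMap ℤ_[p] (lev ℚ_[p] lam k) ((p : ℤ_[p]) ^ i) * z

/-- **The norm compatible systems in the closure of the cyclotomic units.** -/
def cycloClosure : Subgroup (normUnits ℚ_[p] hlam) where
  carrier := {u | ∀ k, InCycloClosure hlam k ((u : ∀ k, (lev ℚ_[p] lam k)ˣ) k)}
  one_mem' := fun k i => ⟨1, one_mem _, 0, isIntegral_zero, by simp⟩
  mul_mem' := by
    rintro u v hu hv k i
    obtain ⟨c, hc, z, hz, e⟩ := hu k i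
    obtain ⟨c', hc', z', hz', e'⟩ := hv k i
    obtain ⟨g, -, rfl⟩ := (map_cycloGroup hlam k).ge hc
    refine ⟨_, mul_mem hc hc', z * (v : ∀ k, (lev ℚ_[p] lam k)ˣ) k + levelValue hlam k g * z',
      (hz.mul (v.2.1 k).1).add ((isIntegral_levelValue hlam k g).1.mul hz'), ?_⟩
    simp only [Subgroup.coe_mul, Pi.mul_apply, Units.val_mul]
    linear_combination
      (((v : ∀ k, (lev ℚ_[p] lam k)ˣ) k : (lev ℚ_[p] lam k)ˣ) : lev ℚ_[p] lam k) * e
      + ((levelValue hlam k g : (lev ℚ_[p] lam k)ˣ) : lev ℚ_[p] lam k) * e'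
  inv_mem' := by
    rintro u hu k i
    obtain ⟨c, hc, z, hz, e⟩ := hu k i
    obtain ⟨g, -, rfl⟩ := (map_cycloGroup hlam k).ge hc
    refine ⟨_, inv_mem hc, -(((((u : ∀ k, (lev ℚ_[p] lam k)ˣ) k)⁻¹ : (lev ℚ_[p] lam k)ˣ) :
        lev ℚ_[p] lam k) * (((levelValue hlam k g)⁻¹ : (lev ℚ_[p] lam k)ˣ) : lev ℚ_[p] lam k) * z),
      (((u.2.1 k).2.mul (isIntegral_levelValue hlam k g).2).mul hz).neg, ?_⟩
    simp only [Subgroup.coe_inv, Pi.inv_apply]
    set a := (u : ∀ k, (lev ℚ_[p] lam k)ˣ) k
    set b := levelValue hlam k g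
    have ha := a.inv_mul
    have hb := b.inv_mul
    linear_combination (-((a⁻¹ : (lev ℚ_[p] lam k)ˣ) : lev ℚ_[p] lam k) *
      ((b⁻¹ : (lev ℚ_[p] lam k)ˣ) : lev ℚ_[p] lam k)) * e +
      ((b⁻¹ : (lev ℚ_[p] lam k)ˣ) : lev ℚ_[p] lam k) * ha -
      ((a⁻¹ : (lev ℚ_[p] lam k)ˣ) : lev ℚ_[p] lam k) * hb

theorem mem_cycloClosure {u : normUnits ℚ_[p] hlam} :
    u ∈ cycloClosure hlam ↔ ∀ k, InCycloClosure hlam k ((u : ∀ k, (lev ℚ_[p] lam k)ˣ) k) :=
  Iff.rfl

theorem exists_close_value (k i : ℕ) : ∃ t, ∀ d ∈ closeIdeal (p : ℤ_[p]) t,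
    ∃ z, IsIntegral ℤ_[p] z ∧ evalLev (K := ℚ_[p]) PadicInt.irreducible_p hlam k (σ d) =
      algebraMap ℤ_[p] (lev ℚ_[p] lam k) ((p : ℤ_[p]) ^ i) * z :=
  ⟨i + residueCard ℤ_[p] ^ (k + 1) * i, fun _ hd =>
    exists_evalLev_eq (K := ℚ_[p]) PadicInt.irreducible_p hlam k
      (closeIdeal_le_levelSeries (isLubinTateBase PadicInt.irreducible_p).two_le i (k + 1)
        (cycloSubst_mem_closeIdeal hd))⟩

theorem coe_unitsSeries (u : normUnits ℚ_[p] hlam) (k : ℕ) :
    evalLev (K := ℚ_[p]) PadicInt.irreducible_p hlam k (σ (unitsSeries hlam u)) =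
      (((u : ∀ k, (lev ℚ_[p] lam k)ˣ) k : (lev ℚ_[p] lam k)ˣ) : lev ℚ_[p] lam k) :=
  Subtype.ext (torsionValue_unitsSeries hlam u k)

/-- **The closure, on series.** -/
theorem mem_cycloClosure_iff (u : normUnits ℚ_[p] hlam) :
    u ∈ cycloClosure hlam ↔ ∀ t, ∃ h ∈ cycloGroup p,
      unitsSeries hlam u - (h : Λˣ) ∈ closeIdeal (p : ℤ_[p]) t := by
  have hπ : Irreducible (p : ℤ_[p]) := PadicInt.irreducible_p
  constructor
  · intro hu t
    set m := t + 1
    obtain ⟨c, hc, z, hz, e⟩ := hu (2 * m + 1) (2 * m)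
    obtain ⟨h, hh, rfl⟩ := (map_cycloGroup hlam (2 * m + 1)).ge hc
    obtain ⟨w₀, hw₀⟩ := exists_evalLev_of_isIntegral (K := ℚ_[p]) hπ hlam (2 * m + 1) hz
    obtain ⟨w, rfl⟩ := cycloSubst_surjective p w₀
    set x := (h : Λ) + Cp ^ (2 * m) * w
    have hCσ : σ (Cp ^ (2 * m)) = Cp ^ (2 * m) := by rw [map_pow, algHom_C]
    have hx : evalLev (K := ℚ_[p]) hπ hlam (2 * m + 1) (σ x) =
        ((u : ∀ k, (lev ℚ_[p] lam k)ˣ) (2 * m + 1) : lev ℚ_[p] lam (2 * m + 1)) := by
      rw [map_add, map_mul, hCσ, map_add, evalLev_C_pow_mul, hw₀, ← coe_levelValue]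
      exact (eq_add_of_sub_eq' e).symm
    have hiter : ∀ s y, (⇑(colemanNorm hπ))^[s] (σ y) = σ ((⇑(normSeries p))^[s] y) := fun s => by
      induction s with
      | zero => exact fun y => rfl
      | succ s ih =>
        intro y
        rw [Function.iterate_succ_apply, Function.iterate_succ_apply, colemanNorm_cycloSubst, ih]
    refine ⟨(Units.map (normSeries p)) h, ?_, ?_⟩
    · have hmap : cycloGroup p ≤ (cycloGroup p).comap (Units.map (normSeries p)) := by
        conv_lhs => rw [cycloGroup]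
        rw [Subgroup.closure_le]
        rintro g (hg | hg | ⟨a, ha, hg⟩)
        · rcases hp.out.eq_two_or_odd' with h2 | h2
          · have : Units.map (normSeries p) g = 1 := Units.ext (by
              rw [Units.coe_map, hg, normSeries_neg_one,
                (h2 ▸ even_two : Even p).neg_one_pow, map_one, Units.val_one])
            rw [SetLike.mem_coe, Subgroup.mem_comap, this]
            exact one_mem _
          · refine Subgroup.subset_closure (Or.inl ?_)
            rw [Units.coe_map, hg, normSeries_neg_one, h2.neg_one_pow, map_neg, map_one]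
        · rw [SetLike.mem_coe, Subgroup.mem_comap]
          have hgen : g ∈ cycloGroup p := Subgroup.subset_closure (Or.inr (Or.inl hg))
          rcases hp.out.eq_two_or_odd' with h2 | h2
          · have : Units.map (normSeries p) g = (-1 : Λˣ) * g := Units.ext (by
              rw [Units.coe_map, Units.val_mul, hg, normSeries_one_add_X_sign,
                show p - 1 = 1 by omega, pow_one, map_neg, map_one, Units.val_neg, Units.val_one])
            rw [this]
            exact mul_mem (Subgroup.subset_closure (Or.inl rfl)) hgen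
          · have : Units.map (normSeries p) g = g := Units.ext (by
              rw [Units.coe_map, hg, normSeries_one_add_X]
              rintro rfl
              exact absurd h2 (by decide))
            rwa [this]
        · rw [SetLike.mem_coe, Subgroup.mem_comap]
          have : Units.map (normSeries p) g = g := Units.ext (by
            have hfix := (mem_normFixed p).1 (cycloUnit_mem_normFixed hlam ha)
            rw [coe_cycloUnit] at hfix
            rw [Units.coe_map, hg, hfix])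
          rw [this]
          exact Subgroup.subset_closure (Or.inr (Or.inr ⟨a, ha, hg⟩))
      exact hmap hh
    · have hcong : ∀ s, 1 ≤ s → Cp ^ (2 * m) ∣
          (⇑(normSeries p))^[s] x - normSeries p (h : Λ) := by
        intro s hs
        induction s, hs using Nat.le_induction with
        | base =>
          rw [Function.iterate_one]
          exact (pow_dvd_pow _ (Nat.le_succ _)).trans
            (C_pow_dvd_normSeries_sub p (by omega) h.isUnit ⟨w, by simp [x]⟩)
        | succ s hs ih =>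
          rw [Function.iterate_succ_apply', ← normSeries_normSeries_of_mem hlam hh]
          exact (pow_dvd_pow _ (Nat.le_succ _)).trans
            (C_pow_dvd_normSeries_sub p (by omega) (h.isUnit.map _) ih)
      have hclose : σ (unitsSeries hlam u - normSeries p (h : Λ)) ∈
          closeIdeal (p : ℤ_[p]) (min (2 * m - m) m) := by
        refine mem_closeIdeal_of_values (K := ℚ_[p]) hπ hlam fun k hk => ?_
        obtain ⟨s, hs⟩ : ∃ s, 2 * m + 1 = k + s := ⟨2 * m + 1 - k, by omega⟩
        rw [hs] at hx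
        have hk' := evalLev_iterate (K := ℚ_[p]) hπ hlam u.2 k s _ hx
        obtain ⟨q, hq⟩ := hcong s (by omega)
        refine ⟨evalLev (K := ℚ_[p]) hπ hlam k (σ q), isIntegral_evalAt hπ k _ _, ?_⟩
        rw [map_sub, map_sub, coe_unitsSeries, ← hk', hiter, ← map_sub, ← map_sub, hq, map_mul,
          hCσ, evalLev_C_pow_mul]
      have := cycloSubstInv_mem_closeIdeal (closeIdeal_antitone (by omega : t ≤ min (2 * m - m) m)
        hclose)
      rwa [cycloSubstInv_cycloSubst] at this
  · intro hu k i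
    obtain ⟨t, ht⟩ := exists_close_value hlam k i
    obtain ⟨h, hh, hhu⟩ := hu t
    obtain ⟨z, hz, e⟩ := ht _ hhu
    refine ⟨levelValue hlam k h, (map_cycloGroup hlam k).le ⟨h, hh, rfl⟩, z, hz, ?_⟩
    rw [← e, map_sub, map_sub, coe_unitsSeries]
    rfl

/-- The twisted map on units. -/
def colemanTwistUnits : normUnits ℚ_[p] hlam →* Multiplicative (𝒞 →L[ℤ_[p]] ℤ_[p]) :=
  (twistUnitsHom p).comp ((normFixed p).subtype.comp (fixedUnitsEquiv hlam).symm.toMonoidHom)

theorem toAdd_colemanTwistUnits (u : normUnits ℚ_[p] hlam) :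
    Multiplicative.toAdd (colemanTwistUnits hlam u) = colemanTwist p (unitsSeries hlam u) :=
  rfl

include hlam in
/-- A series close to fixed units is fixed. -/
theorem mem_normFixed_of_forall_close {g : Λˣ}
    (h : ∀ t, ∃ x ∈ normFixed p, (g : Λ) - (x : Λˣ) ∈ closeIdeal (p : ℤ_[p]) t) :
    g ∈ normFixed p := by
  have hπ : Irreducible (p : ℤ_[p]) := PadicInt.irreducible_p
  rw [mem_normFixed, normSeries_eq_self_iff, colemanNorm_eq_self_iff (K := ℚ_[p]) hπ hlam]
  intro k
  refine sub_eq_zero.1 (eq_zero_of_forall_integral hπ hlam k fun i => ?_)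
  obtain ⟨t, ht⟩ := exists_close_value hlam k i
  obtain ⟨t', ht'⟩ := exists_close_value hlam (k + 1) (i + 1)
  obtain ⟨x, hx, hgx⟩ := h (max t t')
  obtain ⟨z, hz, e⟩ := ht _ (closeIdeal_antitone (le_max_left t t') hgx)
  obtain ⟨z', hz', e'⟩ := ht' _ (closeIdeal_antitone (le_max_right t t') hgx)
  obtain ⟨w, hw⟩ := exists_evalLev_of_isIntegral (K := ℚ_[p]) hπ hlam (k + 1) hz'
  set y := σ (x : Λ) + Cp ^ (i + 1) * w
  have hy : evalLev (K := ℚ_[p]) hπ hlam (k + 1) (σ (g : Λ)) =
      evalLev (K := ℚ_[p]) hπ hlam (k + 1) y := by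
    rw [map_add, evalLev_C_pow_mul, hw, ← e', map_sub, map_sub, add_sub_cancel]
  obtain ⟨q, hq⟩ := dvd_colemanNorm_sub hπ (Nat.succ_pos i) (x.isUnit.map σ)
    (show Cp ^ (i + 1) ∣ y - σ (x : Λ) from ⟨w, by simp [y]⟩)
  have hfix : colemanNorm hπ (σ (x : Λ)) = σ (x : Λ) :=
    (normSeries_eq_self_iff p _).1 ((mem_normFixed p).1 hx)
  refine ⟨algebraMap ℤ_[p] _ ((p : ℤ_[p]) ^ 2) * evalLev (K := ℚ_[p]) hπ hlam k q - z,
    (isIntegral_algebraMap.mul (isIntegral_evalAt hπ k _ _)).sub hz, ?_⟩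
  rw [hy, levNorm_evalLev, mul_sub, ← mul_assoc, ← map_mul, ← pow_add, ← evalLev_C_pow_mul, ← e,
    show i + 2 = i + 1 + 1 from rfl, ← hq, hfix, map_sub, map_sub, map_sub]
  ring

/-- The roots of unity and `ζ ^ a` lie in the closure. -/
theorem colemanKernelHom_mem (x : rootsOfUnity (p - 1) ℤ_[p] × Multiplicative ℤ_[p]) :
    colemanKernelHom hlam x ∈ cycloClosure hlam := by
  rw [mem_cycloClosure_iff]
  intro t
  rw [show unitsSeries hlam (colemanKernelHom hlam x) = ((kernelSeries x : Λˣ) : Λ) by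
    rw [unitsSeries, colemanKernelHom, MonoidHom.comp_apply]
    exact congrArg (fun g : normFixed p => ((g : Λˣ) : Λ))
      ((fixedUnitsEquiv hlam).symm_apply_apply _), coe_kernelSeries]
  set a := Multiplicative.toAdd x.2
  set ω : ℤ_[p] := ((x.1 : ℤ_[p]ˣ) : ℤ_[p])
  -- the root of unity
  set c := (PadicInt.toZMod (p := p) ω).val
  have hωu : IsUnit ω := Units.isUnit _
  have hcω : (p : ℤ_[p]) ∣ (c : ℤ_[p]) - ω := by
    rw [← Ideal.mem_span_singleton, ← PadicInt.maximalIdeal_eq_span_p, ← PadicInt.ker_toZMod,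
      RingHom.mem_ker, map_sub, map_natCast, ZMod.natCast_zmod_val, sub_self]
  have hcd : ¬ p ∣ c := fun hd => by
    have h := dvd_sub (Nat.cast_dvd_cast (α := ℤ_[p]) hd) hcω
    rw [sub_sub_cancel] at h
    exact PadicInt.prime_p.not_isUnit (isUnit_of_dvd_unit h hωu)
  have hωp : ∀ j : ℕ, ω ^ p ^ j = ω := fun j => by
    induction j with
    | zero => simp
    | succ j ih =>
      rw [pow_succ, pow_mul, ih]
      have h := congrArg Units.val ((mem_rootsOfUnity _ _).1 x.1.2)
      rw [Units.val_pow_eq_pow_val, Units.val_one] at h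
      calc ω ^ p = ω ^ (p - 1 + 1) := congrArg (ω ^ ·) (Nat.sub_add_cancel hp.out.pos).symm
        _ = ω := by rw [pow_succ, h, one_mul]
  obtain ⟨ω', hω'⟩ := hωu.exists_left_inv
  have hA : PowerSeries.C ω - cycloSeries ℤ_[p] c ^ p ^ t ∈ closeIdeal (p : ℤ_[p]) t := by
    set q := PowerSeries.C ω' * cycloSeries ℤ_[p] c
    have hcq : cycloSeries ℤ_[p] c = PowerSeries.C ω * q := by
      rw [← mul_assoc, ← map_mul, mul_comm ω, hω', map_one, one_mul]
    rw [hcq, mul_pow, ← map_pow, hωp, ← neg_sub, ← mul_sub_one]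
    refine neg_mem (Ideal.mul_mem_left _ _ (closeIdeal_antitone (Nat.le_succ t)
      (pow_prime_pow_sub_one_mem p ?_ t)))
    rw [map_mul, PowerSeries.constantCoeff_C, constantCoeff_cycloSeries,
      show ω' * (c : ℤ_[p]) - 1 = ω' * ((c : ℤ_[p]) - ω) by rw [mul_sub, hω']]
    exact hcω.mul_left _
  -- the binomial series
  set n := (PadicInt.toZModPow (p := p) (t + 1) a).val
  obtain ⟨b, hb⟩ : (p : ℤ_[p]) ^ (t + 1) ∣ a - n := by
    rw [← Ideal.mem_span_singleton, ← PadicInt.ker_toZModPow, RingHom.mem_ker, map_sub,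
      map_natCast, ZMod.natCast_zmod_val, sub_self]
  have hpow : ∀ e : ℕ, PowerSeries.binomialSeries ℤ_[p] ((e : ℤ_[p]) * b) =
      PowerSeries.binomialSeries ℤ_[p] b ^ e := fun e => by
    induction e with
    | zero => simp
    | succ e ih =>
      rw [Nat.cast_succ, add_mul, one_mul, PowerSeries.binomialSeries_add, ih, pow_succ]
  have hB : PowerSeries.binomialSeries ℤ_[p] a - T₁ ^ n ∈ closeIdeal (p : ℤ_[p]) t := by
    rw [show a = n + ((p ^ (t + 1) : ℕ) : ℤ_[p]) * b by rw [Nat.cast_pow, ← hb]; ring,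
      PowerSeries.binomialSeries_add, PowerSeries.binomialSeries_nat, hpow, ← mul_sub_one]
    exact Ideal.mul_mem_left _ _ (closeIdeal_antitone (by omega)
      (pow_prime_pow_sub_one_mem p (by simp) (t + 1)))
  have hT : IsUnit T₁ := by simp [PowerSeries.isUnit_iff_constantCoeff]
  have hneg : (-1 : Λˣ) ∈ cycloGroup p := Subgroup.subset_closure (Or.inl rfl)
  have hTm : hT.unit ∈ cycloGroup p := Subgroup.subset_closure (Or.inr (Or.inl hT.unit_spec))
  set v := cycloUnit p hcd ^ p ^ t *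
    ((-1 : Λˣ) ^ ((p - 1) * (PadicInt.toZMod (p := p) a).val) * hT.unit ^ n) with hv
  refine ⟨v, mul_mem (pow_mem (cycloUnit_mem p hcd) _)
    (mul_mem (pow_mem hneg _) (pow_mem hTm _)), ?_⟩
  have hsign : PowerSeries.C (binomSign p a) =
      (-1 : Λ) ^ ((p - 1) * (PadicInt.toZMod (p := p) a).val) := by
    rw [binomSign, ← pow_mul, map_pow, map_neg, map_one]
  simp only [hv, Units.val_mul, Units.val_pow_eq_pow_val, coe_cycloUnit, IsUnit.unit_spec,
    Units.val_neg, Units.val_one, ← hsign]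
  rw [show PowerSeries.C ω * (PowerSeries.C (binomSign p a) * PowerSeries.binomialSeries ℤ_[p] a) -
    cycloSeries ℤ_[p] c ^ p ^ t * (PowerSeries.C (binomSign p a) * T₁ ^ n) =
      PowerSeries.C (binomSign p a) * ((PowerSeries.C ω - cycloSeries ℤ_[p] c ^ p ^ t) *
        PowerSeries.binomialSeries ℤ_[p] a +
        cycloSeries ℤ_[p] c ^ p ^ t * (PowerSeries.binomialSeries ℤ_[p] a - T₁ ^ n)) by ring]
  exact Ideal.mul_mem_left _ _
    (add_mem (Ideal.mul_mem_right _ _ hA) (Ideal.mul_mem_left _ _ hB))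

/-- Every member of the ideal comes from the closure. -/
theorem exists_cycloClosure_twist_eq {A : Finset ℕ} (hA : ∀ a ∈ A, ¬ p ∣ a) {ν : 𝒞 → ℤ_[p]}
    (hν : ν ∈ cycloIdeal p A) :
    ∃ u ∈ cycloClosure hlam, ⇑(colemanTwist p (unitsSeries hlam u)) = ν := by
  classical
  obtain ⟨c, hc⟩ := hν
  -- approximations
  have happ : ∀ m, ∃ h : Λˣ, h ∈ cycloGroup p ∧ h ∈ normFixed p ∧ ∀ f : 𝒞, ∀ i ≤ m,
      ∀ [NeZero (p ^ m)], 1 ≤ m → (p : ℤ_[p]) ^ i ∣ colemanTwist p h f -
        ∑ a : A, ∑ r : ZMod (p ^ m), c a (classIndicator p m r) *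
          scaleIntegral p (cycloTwist p a) f (r.val : ℤ_[p]) := by
    intro m
    have : NeZero (p ^ m) := ⟨pow_ne_zero _ hp.out.ne_zero⟩
    let G : Subgroup Λˣ := cycloGroup p ⊓ normFixed p
    have hshift : ∀ (b a : ℕ) (hb : ¬ p ∣ b) (ha : ¬ p ∣ a),
        ∃ g ∈ G, (g : Λ) = powerSubst p (b : ℤ_[p]) (cycloSeries ℤ_[p] a) := by
      intro b a hb ha
      have hba : ¬ p ∣ b * a := by rw [hp.out.dvd_mul]; tauto
      refine ⟨(cycloUnit p hb)⁻¹ * cycloUnit p hba,
        Subgroup.mem_inf.2 ⟨mul_mem (inv_mem (cycloUnit_mem p hb)) (cycloUnit_mem p hba),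
          mul_mem (inv_mem (cycloUnit_mem_normFixed hlam hb))
            (cycloUnit_mem_normFixed hlam hba)⟩, ?_⟩
      rw [Units.val_mul, Units.inv_mul_eq_iff_eq_mul, coe_cycloUnit, coe_cycloUnit, cycloSeries_mul]
    choose g hgG hg using hshift
    let n : A → ZMod (p ^ m) → ℕ := fun a r =>
      (PadicInt.toZModPow (p := p) m (c a (classIndicator p m r))).val
    let term : A → ZMod (p ^ m) → Λˣ := fun a r =>
      if hr : ¬ p ∣ r.val then g r.val a hr (hA a a.2) ^ n a r else 1
    have hterm : ∀ a r, term a r ∈ G := fun a r => by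
      by_cases hr : ¬ p ∣ r.val
      · simp only [term, dif_pos hr]
        exact pow_mem (hgG _ _ _ _) _
      · simp only [term, dif_neg hr]
        exact one_mem _
    have hprod : ∏ a : A, ∏ r, term a r ∈ G := prod_mem fun a _ => prod_mem fun r _ => hterm a r
    refine ⟨_, hprod.1, hprod.2, fun f i hi _ hm => ?_⟩
    rw [← toAdd_twistUnitsHom, map_prod, toAdd_prod]
    simp only [map_prod, toAdd_prod, _root_.sum_apply,
      ← Finset.sum_sub_distrib]
    refine Finset.dvd_sum fun a _ => Finset.dvd_sum fun r _ => ?_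
    have hval : Multiplicative.toAdd (twistUnitsHom p (term a r)) f =
        (n a r : ℤ_[p]) * scaleIntegral p (cycloTwist p a) f (r.val : ℤ_[p]) := by
      by_cases hr : ¬ p ∣ r.val
      · simp only [term, dif_pos hr]
        rw [map_pow, toAdd_pow, toAdd_twistUnitsHom, hg, smul_apply, nsmul_eq_mul,
          colemanTwist_powerSubst p (isUnit_natCast_padic p hr) (isUnit_cycloSeries (hA a a.2)),
          scaleIntegral_apply, unitsIndicator_apply, if_pos (isUnit_natCast_padic p hr), one_mul]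
        rfl
      · simp only [term, dif_neg hr]
        have hnu : ¬ IsUnit ((r.val : ℕ) : ℤ_[p]) := fun hu => by
          rw [not_not] at hr
          exact PadicInt.prime_p.not_isUnit (isUnit_of_dvd_unit (Nat.cast_dvd_cast hr) hu)
        rw [map_one, toAdd_one, zero_apply, scaleIntegral_apply,
          unitsIndicator_apply, if_neg hnu, zero_mul, mul_zero]
    rw [hval, ← sub_mul]
    refine Dvd.dvd.mul_right ((pow_dvd_pow _ hi).trans ?_) _
    rw [← Ideal.mem_span_singleton, ← PadicInt.ker_toZModPow, RingHom.mem_ker, map_sub,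
      map_natCast, ZMod.natCast_zmod_val, sub_self]
  choose h hH hF happ using happ
  obtain ⟨l, hl⟩ := exists_cluster p (ι := Unit) fun m _ => (h m : Λ)
  set g₀ := l () with hg₀
  have hclose : ∀ t, ∃ m, t ≤ m ∧ g₀ - h m ∈ closeIdeal (p : ℤ_[p]) t := fun t => by
    obtain ⟨m, hm, hlm⟩ := hl t
    exact ⟨m, hm, hlm ()⟩
  have hgu : IsUnit g₀ := by
    obtain ⟨m, -, hm⟩ := hclose 1
    have h0 := hm 0
    rw [Nat.sub_zero, pow_one, PowerSeries.coeff_zero_eq_constantCoeff_apply, map_sub] at h0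
    rw [PowerSeries.isUnit_iff_constantCoeff]
    by_contra hn
    rw [← mem_nonunits_iff, ← IsLocalRing.mem_maximalIdeal, PadicInt.maximalIdeal_eq_span_p,
      Ideal.mem_span_singleton] at hn
    have := dvd_sub hn h0
    rw [sub_sub_cancel] at this
    exact PadicInt.prime_p.not_isUnit (isUnit_of_dvd_unit this
      (PowerSeries.isUnit_iff_constantCoeff.1 (h m).isUnit))
  have hfix : hgu.unit ∈ normFixed p := mem_normFixed_of_forall_close hlam fun t => by
    obtain ⟨m, -, hm⟩ := hclose t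
    exact ⟨h m, hF m, hm⟩
  refine ⟨fixedUnitsEquiv hlam ⟨hgu.unit, hfix⟩, ?_, ?_⟩ <;>
    have hser : unitsSeries hlam (fixedUnitsEquiv hlam ⟨hgu.unit, hfix⟩) = g₀ := by
      rw [unitsSeries, MulEquiv.symm_apply_apply]
      rfl
  · rw [mem_cycloClosure_iff, hser]
    intro t
    obtain ⟨m, -, hm⟩ := hclose t
    exact ⟨h m, hH m, hm⟩
  · rw [hser]
    funext f
    refine sub_eq_zero.1 (eq_zero_of_forall_pow_dvd PadicInt.irreducible_p fun i => ?_)
    obtain ⟨t, ht⟩ := exists_close_colemanTwist p f i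
    choose M hM using fun a : A =>
      exists_dvd_integral_sub_sum p (c a) (scaleIntegral p (cycloTwist p a) f) i
    obtain ⟨m, hm, hgm⟩ := hclose (t + i + 1 + Finset.univ.sup M)
    have : NeZero (p ^ m) := ⟨pow_ne_zero _ hp.out.ne_zero⟩
    have h1 := ht g₀ (h m) hgu (h m).isUnit (closeIdeal_antitone (by omega) hgm)
    have h2 := happ m f i (by omega) (by omega)
    have h3 := Finset.dvd_sum (s := Finset.univ) fun (a : A) _ => hM a m
      ((Finset.le_sup (Finset.mem_univ a)).trans (by omega))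
    rw [Finset.sum_sub_distrib] at h3
    rw [hc]
    convert dvd_sub (dvd_add h1 h2) h3 using 1
    ring

/-- **The closure of the cyclotomic units is the inverse image of their ideal.** -/
theorem mem_cycloClosure_iff_twist {A : Finset ℕ} (hA : GeneratesUnits p A)
    (u : normUnits ℚ_[p] hlam) :
    u ∈ cycloClosure hlam ↔ ⇑(colemanTwist p (unitsSeries hlam u)) ∈ cycloIdeal p A := by
  constructor
  · intro hu
    refine mem_cycloIdeal_of_forall_close p (g := unitsSeries hlam u) (Units.isUnit _) fun t => ?_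
    obtain ⟨h, hh, hhu⟩ := (mem_cycloClosure_iff hlam u).1 hu t
    exact ⟨h, hhu, colemanTwist_mem_of_mem_cycloGroup p hA hh⟩
  · intro hν
    obtain ⟨v, hv, hvν⟩ := exists_cycloClosure_twist_eq hlam hA.1 hν
    have hker : u * v⁻¹ ∈ (colemanTwistUnits hlam).ker := by
      rw [MonoidHom.mem_ker, map_mul, map_inv, mul_inv_eq_one]
      exact Multiplicative.toAdd.injective (DFunLike.coe_injective hvν.symm)
    have hker' : u * v⁻¹ ∈ (colemanKernelHom hlam).range := by
      rw [← ker_colemanMapHom, MonoidHom.mem_ker]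
      refine Multiplicative.toAdd.injective ?_
      rw [colemanMapHom_apply, toAdd_one]
      have h0 := (colemanTwist_eq_zero_iff p ((fixedUnitsEquiv hlam).symm (u * v⁻¹)).2).1
        (congrArg Multiplicative.toAdd hker)
      rw [unitsSeries, h0, amiceIntegral_zero]
    obtain ⟨x, hx⟩ := hker'
    have := mul_mem (hx ▸ colemanKernelHom_mem hlam x) hv
    rwa [inv_mul_cancel_right] at this

end Fermat.Agent.LubinTate
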