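import Fermat.Agent.LubinTate.Coleman.TwistMeasure
import Mathlib.RingTheory.ZMod.UnitsCyclic

/-!
# The series of the cyclotomic units and their ideal of measures

`cycloGroup` is generated by `-1`, `1 + X` and the series of the cyclotomic units. Its image under
the twisted map of Coleman is dense in the ideal generated by the measures of a finite set `A` of
generators of `ℤ_pˣ`, and this ideal is closed.
-/

set_option autoImplicit false

noncomputable section

open Finset

namespace Fermat.Agent.LubinTate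

variable (p : ℕ) [hp : Fact p.Prime]

local notation "Λ" => PowerSeries ℤ_[p]
local notation "T₁" => (1 + PowerSeries.X : PowerSeries ℤ_[p])
local notation "𝒞" => C(ℤ_[p], ℤ_[p])
local notation "Bn" => PowerSeries.binomialSeries ℤ_[p] (R := ℤ_[p])

/-- The generators: `-1`, `1 + X`, the series of the cyclotomic units. -/
def cycloGenerators : Set Λˣ :=
  {g | (g : Λ) = -1 ∨ (g : Λ) = T₁ ∨ ∃ a : ℕ, ¬ p ∣ a ∧ (g : Λ) = cycloSeries ℤ_[p] a}

/-- The group of the series of cyclotomic units. -/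
def cycloGroup : Subgroup Λˣ := Subgroup.closure (cycloGenerators p)

/-- The series of a cyclotomic unit, as a unit. -/
def cycloUnit {a : ℕ} (ha : ¬ p ∣ a) : Λˣ := (isUnit_cycloSeries ha).unit

theorem coe_cycloUnit {a : ℕ} (ha : ¬ p ∣ a) :
    (cycloUnit p ha : Λ) = cycloSeries ℤ_[p] a := IsUnit.unit_spec _

theorem cycloUnit_mem {a : ℕ} (ha : ¬ p ∣ a) : cycloUnit p ha ∈ cycloGroup p :=
  Subgroup.subset_closure (Or.inr (Or.inr ⟨a, ha, coe_cycloUnit p ha⟩))

theorem isUnit_natCast_padic {a : ℕ} (ha : ¬ p ∣ a) : IsUnit (a : ℤ_[p]) :=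
  PadicInt.isUnit_iff.2
    (PadicInt.norm_natCast_eq_one_iff.2 ((Nat.Prime.coprime_iff_not_dvd hp.out).2 ha))

/-- The telescoping identity. -/
theorem cycloSeries_mul (a b : ℕ) : cycloSeries ℤ_[p] (a * b) =
    cycloSeries ℤ_[p] a * powerSubst p (a : ℤ_[p]) (cycloSeries ℤ_[p] b) := by
  refine mul_left_cancel₀ PowerSeries.X_ne_zero ?_
  rw [← mul_assoc, X_mul_cycloSeries, X_mul_cycloSeries,
    ← PowerSeries.binomialSeries_nat (R := ℤ_[p]) a, ← powerSubst_X, ← map_mul,
    X_mul_cycloSeries, map_sub, map_one, map_pow, powerSubst_one_add_X,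
    PowerSeries.binomialSeries_nat, ← pow_mul]

/-- The twisted map as a homomorphism. -/
def twistUnitsHom : Λˣ →* Multiplicative (𝒞 →L[ℤ_[p]] ℤ_[p]) :=
  MonoidHom.mk' (fun g => Multiplicative.ofAdd (colemanTwist p g)) fun g h => by
    rw [← ofAdd_add, Units.val_mul, colemanTwist_mul p g.isUnit h.isUnit]

theorem toAdd_twistUnitsHom (g : Λˣ) :
    Multiplicative.toAdd (twistUnitsHom p g) = colemanTwist p g := rfl

/-- **The measure of a cyclotomic unit.** -/
def cycloTwist (a : ℕ) : 𝒞 →L[ℤ_[p]] ℤ_[p] := colemanTwist p (cycloSeries ℤ_[p] a)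

theorem cycloTwist_mul {a b : ℕ} (ha : ¬ p ∣ a) (hb : ¬ p ∣ b) (f : 𝒞) :
    cycloTwist p (a * b) f =
      cycloTwist p a f + cycloTwist p b (f.comp (scaleMap p (a : ℤ_[p]))) := by
  rw [cycloTwist, cycloTwist, cycloTwist, cycloSeries_mul,
    colemanTwist_mul p (isUnit_cycloSeries ha) ((isUnit_cycloSeries hb).map _), add_apply,
    colemanTwist_powerSubst p (isUnit_natCast_padic p ha) (isUnit_cycloSeries hb)]

theorem cycloTwist_one : cycloTwist p 1 = 0 := by
  rw [cycloTwist, show cycloSeries ℤ_[p] 1 = 1 by simp [cycloSeries]]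
  refine ContinuousLinearMap.ext fun f => ?_
  have h := congrArg (fun L : 𝒞 →L[ℤ_[p]] ℤ_[p] => L f)
    (colemanTwist_mul p (g := 1) (h := 1) isUnit_one isUnit_one)
  simp only [one_mul, add_apply] at h
  simpa using h

/-- **The ideal generated by the measures of `A`**, in the product of measures on `ℤ_pˣ`. -/
def cycloIdeal (A : Finset ℕ) : AddSubgroup (𝒞 → ℤ_[p]) where
  carrier := {ν | ∃ c : A → (𝒞 →L[ℤ_[p]] ℤ_[p]),
    ∀ f, ν f = ∑ a : A, c a (scaleIntegral p (cycloTwist p a) f)}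
  zero_mem' := ⟨0, fun f => by simp⟩
  add_mem' := by
    rintro ν ν' ⟨c, hc⟩ ⟨c', hc'⟩
    exact ⟨c + c', fun f => by simp [hc, hc', Finset.sum_add_distrib]⟩
  neg_mem' := by
    rintro ν ⟨c, hc⟩
    exact ⟨-c, fun f => by simp [hc]⟩

theorem mem_cycloIdeal {A : Finset ℕ} {ν : 𝒞 → ℤ_[p]} :
    ν ∈ cycloIdeal p A ↔ ∃ c : A → (𝒞 →L[ℤ_[p]] ℤ_[p]),
      ∀ f, ν f = ∑ a : A, c a (scaleIntegral p (cycloTwist p a) f) :=
  Iff.rfl

theorem comp_scaleMap_mem_cycloIdeal {A : Finset ℕ} {ν : 𝒞 → ℤ_[p]} (h : ν ∈ cycloIdeal p A)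
    {b : ℤ_[p]} (hb : IsUnit b) : (fun f : 𝒞 => ν (f.comp (scaleMap p b))) ∈ cycloIdeal p A := by
  obtain ⟨c, hc⟩ := h
  let P : 𝒞 →L[ℤ_[p]] 𝒞 :=
    { toFun := fun f => f.comp (scaleMap p b)
      map_add' := fun _ _ => rfl
      map_smul' := fun _ _ => rfl
      cont := ContinuousMap.continuous_precomp _ }
  refine ⟨fun a => (c a).comp P, fun f => (hc _).trans (Finset.sum_congr rfl fun a _ => ?_)⟩
  rw [scaleIntegral_comp p hb]
  rfl

theorem cycloTwist_mem_of_mem {A : Finset ℕ} {a : ℕ} (ha : a ∈ A) :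
    ⇑(cycloTwist p a) ∈ cycloIdeal p A := by
  classical
  refine ⟨fun a' => if a' = ⟨a, ha⟩ then amiceIntegral (Bn 1) else 0, fun f => ?_⟩
  rw [Finset.sum_eq_single ⟨a, ha⟩ (fun a' _ h => by simp [h]) (by simp)]
  simp only [↓reduceIte]
  rw [
    amiceIntegral_binomialSeries, scaleIntegral_apply]
  simp [unitsIndicator_apply, show f.comp (scaleMap p 1) = f from
    ContinuousMap.ext fun x => by simp [scaleMap_apply]]

/-- The members of the ideal are supported on the units and kill `x`. -/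
theorem supported_of_mem_cycloIdeal {A : Finset ℕ} (hA : ∀ a ∈ A, ¬ p ∣ a) {ν : 𝒞 → ℤ_[p]}
    (h : ν ∈ cycloIdeal p A)
    (hfix : ∀ a (ha : ¬ p ∣ a), cycloUnit p ha ∈ normFixed p) :
    (∀ f, ν (f * unitsIndicator) = ν f) ∧ ν (ContinuousMap.id ℤ_[p]) = 0 := by
  obtain ⟨c, hc⟩ := h
  refine ⟨fun f => ?_, ?_⟩
  · rw [hc, hc]
    exact Finset.sum_congr rfl fun a _ => by
      rw [scaleIntegral_supported p (θ := cycloTwist p a) (colemanTwist_supported p _)]
  · rw [hc]
    refine Finset.sum_eq_zero fun a _ => ?_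
    rw [scaleIntegral_id p, map_zero]
    rw [cycloTwist, ← coe_cycloUnit p (hA a a.2)]
    exact colemanTwist_id p (hfix _ _)

/-- **The ideal is closed.** -/
theorem mem_cycloIdeal_of_forall_close {A : Finset ℕ} {g : Λ} (hg : IsUnit g)
    (h : ∀ t, ∃ x : Λˣ, g - x ∈ closeIdeal (p : ℤ_[p]) t ∧
      ⇑(colemanTwist p x) ∈ cycloIdeal p A) :
    ⇑(colemanTwist p g) ∈ cycloIdeal p A := by
  classical
  choose x hx hxI using h
  choose c hc using fun t => hxI t
  choose F hF hFu using fun (t : ℕ) (a : A) => exists_amiceIntegral_eq p (c t a)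
  obtain ⟨l, hl⟩ := exists_cluster p F
  refine ⟨fun a => amiceIntegral (l a), fun f => ?_⟩
  refine sub_eq_zero.1 (eq_zero_of_forall_pow_dvd PadicInt.irreducible_p fun i => ?_)
  obtain ⟨t₀, ht₀⟩ := exists_close_colemanTwist p f i
  choose t ht using fun a : A =>
    exists_closeIdeal_dvd_integral p (scaleIntegral p (cycloTwist p a) f) i
  obtain ⟨m, hm, hlm⟩ := hl (max t₀ (Finset.univ.sup t))
  have h1 := ht₀ g (x m) hg (x m).isUnit
    (closeIdeal_antitone ((le_max_left _ _).trans hm) (hx m))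
  have h2 : (p : ℤ_[p]) ^ i ∣ ∑ a : A, amiceIntegral (l a - F m a)
      (scaleIntegral p (cycloTwist p a) f) :=
    Finset.dvd_sum fun a _ => ht a _ (closeIdeal_antitone
      ((Finset.le_sup (Finset.mem_univ a)).trans (le_max_right t₀ _)) (hlm a))
  simp only [amiceIntegral_sub, sub_apply, Finset.sum_sub_distrib, hF, ← hc] at h2
  convert dvd_sub h1 h2 using 1
  ring

/-! ### Generators -/

/-- The products of members of `A` meet every class prime to `p`. -/
def GeneratesUnits (A : Finset ℕ) : Prop :=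
  (∀ a ∈ A, ¬ p ∣ a) ∧ ∀ a : ℕ, ¬ p ∣ a → ∀ m : ℕ,
    ∃ l : List ℕ, (∀ x ∈ l, x ∈ A) ∧ (a : ZMod (p ^ m)) = (l.prod : ℕ)

theorem cycloTwist_list_prod_mem {A : Finset ℕ} (hA : ∀ a ∈ A, ¬ p ∣ a) :
    ∀ l : List ℕ, (∀ x ∈ l, x ∈ A) →
      ¬ p ∣ l.prod ∧ ⇑(cycloTwist p l.prod) ∈ cycloIdeal p A := by
  intro l
  induction l with
  | nil =>
    intro _
    refine ⟨by simp [hp.out.ne_one], ?_⟩
    rw [List.prod_nil, cycloTwist_one]
    exact zero_mem _
  | cons x l ih =>
    intro hl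
    have hxA := hl x List.mem_cons_self
    obtain ⟨hld, hlI⟩ := ih fun y hy => hl y (List.mem_cons_of_mem _ hy)
    have hxd := hA x hxA
    refine ⟨by rw [List.prod_cons, hp.out.dvd_mul]; tauto, ?_⟩
    rw [List.prod_cons, show ⇑(cycloTwist p (x * l.prod)) = ⇑(cycloTwist p x) +
      fun f : 𝒞 => cycloTwist p l.prod (f.comp (scaleMap p (x : ℤ_[p]))) from
        funext (cycloTwist_mul p hxd hld)]
    exact add_mem (cycloTwist_mem_of_mem p hxA)
      (comp_scaleMap_mem_cycloIdeal p hlI (isUnit_natCast_padic p hxd))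

theorem cycloSeries_sub_mem {a a' m : ℕ} (h : (a : ZMod (p ^ m)) = (a' : ℕ)) :
    cycloSeries ℤ_[p] a - cycloSeries ℤ_[p] a' ∈ closeIdeal (p : ℤ_[p]) m := by
  obtain ⟨d, hd⟩ : (p : ℤ_[p]) ^ m ∣ (a : ℤ_[p]) - a' := by
    rw [← Ideal.mem_span_singleton, ← PadicInt.ker_toZModPow, RingHom.mem_ker, map_sub,
      map_natCast, map_natCast, h, sub_self]
  have hpow : ∀ e : ℕ, Bn (e * d) = Bn d ^ e := fun e => by
    induction e with
    | zero => simp
    | succ e ih =>
      rw [Nat.cast_succ, add_mul, one_mul, PowerSeries.binomialSeries_add, ih, pow_succ]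
  have h1 : PowerSeries.X * (cycloSeries ℤ_[p] a - cycloSeries ℤ_[p] a') ∈
      closeIdeal (p : ℤ_[p]) (m + 1) := by
    rw [mul_sub, X_mul_cycloSeries, X_mul_cycloSeries, sub_sub_sub_cancel_right,
      ← PowerSeries.binomialSeries_nat (R := ℤ_[p]) a,
      show (a : ℤ_[p]) = a' + ((p ^ m : ℕ) : ℤ_[p]) * d by rw [Nat.cast_pow, ← hd]; ring,
      PowerSeries.binomialSeries_add, PowerSeries.binomialSeries_nat, hpow, ← mul_sub_one]
    exact Ideal.mul_mem_left _ _ (pow_prime_pow_sub_one_mem p (by simp) m)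
  intro n
  have := h1 (n + 1)
  rwa [PowerSeries.coeff_succ_X_mul, Nat.succ_sub_succ] at this

/-- The measures of all the cyclotomic units lie in the ideal. -/
theorem cycloTwist_mem {A : Finset ℕ} (hA : GeneratesUnits p A) {a : ℕ} (ha : ¬ p ∣ a) :
    ⇑(cycloTwist p a) ∈ cycloIdeal p A := by
  refine mem_cycloIdeal_of_forall_close p (isUnit_cycloSeries ha) fun t => ?_
  obtain ⟨l, hl, hla⟩ := hA.2 a ha t
  obtain ⟨hld, hlI⟩ := cycloTwist_list_prod_mem p hA.1 l hl
  refine ⟨cycloUnit p hld, ?_, ?_⟩ <;> rw [coe_cycloUnit]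
  exacts [cycloSeries_sub_mem p hla, hlI]

theorem colemanTwist_neg_one : colemanTwist p (-1 : Λ) = 0 := by
  refine ContinuousLinearMap.ext fun f => ?_
  rw [colemanTwist_apply, colemanMapFun, show (-1 : Λ) = PowerSeries.C (-1) by simp, logDeriv'_C,
    map_zero, sub_self, amiceIntegral_zero]
  rfl

theorem colemanTwist_one_add_X : colemanTwist p T₁ = 0 := by
  refine ContinuousLinearMap.ext fun f => ?_
  have h : T₁ = Bn ((1 : ℕ) : ℤ_[p]) := by rw [PowerSeries.binomialSeries_nat, pow_one]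
  rw [colemanTwist_apply, colemanMapFun, h, logDeriv'_binomialSeries, frobSubst_C, sub_self,
    amiceIntegral_zero]
  rfl

theorem colemanTwist_mem_of_mem_cycloGroup {A : Finset ℕ} (hA : GeneratesUnits p A) {g : Λˣ}
    (hg : g ∈ cycloGroup p) : ⇑(colemanTwist p g) ∈ cycloIdeal p A := by
  rw [← toAdd_twistUnitsHom p g]
  induction hg using Subgroup.closure_induction with
  | mem x hx =>
    rw [toAdd_twistUnitsHom]
    rcases hx with h | h | ⟨a, ha, h⟩
    · rw [h, colemanTwist_neg_one]; exact zero_mem _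
    · rw [h, colemanTwist_one_add_X]; exact zero_mem _
    · rw [h]; exact cycloTwist_mem p hA ha
  | one => rw [map_one, toAdd_one]; exact zero_mem _
  | mul x y _ _ hx hy => rw [map_mul, toAdd_mul]; exact add_mem hx hy
  | inv x _ hx => rw [map_inv, toAdd_inv]; exact neg_mem hx

/-- **The powers of one number meet every class**, `p` odd. -/
theorem exists_generatesUnits_singleton (hp2 : p ≠ 2) : ∃ a : ℕ, GeneratesUnits p {a} := by
  have hcard : ∀ m, Nat.card (ZMod (p ^ m))ˣ = (p ^ m).totient := fun m => by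
    have : NeZero (p ^ m) := ⟨pow_ne_zero _ hp.out.ne_zero⟩
    rw [Nat.card_eq_fintype_card, ZMod.card_units_eq_totient]
  have hcyc : ∀ m, ∃ g : (ZMod (p ^ m))ˣ, orderOf g = (p ^ m).totient := fun m => by
    have hc := ZMod.isCyclic_units_of_prime_pow p hp.out hp2 m
    have : NeZero (p ^ m) := ⟨pow_ne_zero _ hp.out.ne_zero⟩
    obtain ⟨g, hg⟩ := isCyclic_iff_exists_orderOf_eq_natCard.1 hc
    exact ⟨g, hg.trans (hcard m)⟩
  obtain ⟨g₂, hg₂⟩ := hcyc 2
  have : NeZero (p ^ 2) := ⟨pow_ne_zero _ hp.out.ne_zero⟩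
  set c := (g₂ : ZMod (p ^ 2)).val with hc
  have hcd : ¬ p ∣ c := fun hd => by
    have h := ZMod.val_coe_unit_coprime g₂
    rw [← hc, Nat.coprime_pow_right_iff two_pos, Nat.coprime_comm,
      Nat.Prime.coprime_iff_not_dvd hp.out] at h
    exact h hd
  refine ⟨c, fun a ha => by rwa [Finset.mem_singleton.1 ha], fun a ha m => ?_⟩
  suffices key : ∀ m, 2 ≤ m → ∃ e : ℕ, (a : ZMod (p ^ m)) = ((c ^ e : ℕ) : ZMod (p ^ m)) by
    obtain ⟨e, he⟩ := key (max m 2) (le_max_right m 2)
    refine ⟨List.replicate e c, fun x hx => by simp [List.eq_of_mem_replicate hx], ?_⟩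
    have := congrArg (ZMod.castHom (pow_dvd_pow p (le_max_left m 2)) (ZMod (p ^ m))) he
    rw [List.prod_replicate]
    rw [map_natCast, map_natCast] at this
    exact this
  intro m hm
  have : NeZero (p ^ m) := ⟨pow_ne_zero _ hp.out.ne_zero⟩
  have hcop : ∀ b, ¬ p ∣ b → Nat.Coprime b (p ^ m) := fun b hb => Nat.Coprime.pow_right _
    (Nat.coprime_comm.1 ((Nat.Prime.coprime_iff_not_dvd hp.out).2 hb))
  obtain ⟨g, hg⟩ := hcyc m
  have hgen : ∀ x : (ZMod (p ^ m))ˣ, ∃ e : ℕ, g ^ e = x := fun x => by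
    have h : Subgroup.zpowers g = ⊤ := Subgroup.eq_top_of_card_eq _ (by
      rw [Nat.card_zpowers, hg, hcard])
    exact (mem_powers_iff_mem_zpowers.2 (h ▸ Subgroup.mem_top x : x ∈ Subgroup.zpowers g))
  obtain ⟨e, he⟩ := hgen (ZMod.unitOfCoprime c (hcop c hcd))
  -- the exponent is prime to the order
  set f := ZMod.unitsMap (pow_dvd_pow p hm)
  have hfc : f (ZMod.unitOfCoprime c (hcop c hcd)) = g₂ := Units.ext (by
    simp [f, ZMod.unitsMap, hc, ZMod.natCast_zmod_val])
  have hfg : orderOf (f g ^ e) = (p ^ 2).totient := by rw [← map_pow, he, hfc, hg₂]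
  have hfg' : orderOf (f g) = (p ^ 2).totient := by
    refine Nat.dvd_antisymm ?_ (hfg ▸ orderOf_pow_dvd e)
    rw [← hcard 2]
    exact orderOf_dvd_natCard _
  have hco : Nat.Coprime ((p ^ m).totient) e := by
    rw [orderOf_pow, hfg'] at hfg
    have hg1 : Nat.gcd (p ^ 2).totient e = 1 := by
      rcases (Nat.div_eq_self.1 hfg) with h | h
      · exact absurd h (Nat.totient_pos.2 (pow_pos hp.out.pos 2)).ne'
      · exact h
    rw [Nat.totient_prime_pow hp.out two_pos] at hg1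
    rw [Nat.totient_prime_pow hp.out (by omega)]
    have hg2 : Nat.Coprime (p ^ (2 - 1) * (p - 1)) e := hg1
    rw [Nat.coprime_mul_iff_left, Nat.coprime_pow_left_iff (by omega)] at hg2
    exact Nat.coprime_mul_iff_left.2 ⟨hg2.1.pow_left _, hg2.2⟩
  obtain ⟨n, hn⟩ := hgen (ZMod.unitOfCoprime a (hcop a ha))
  obtain ⟨k, hk⟩ := exists_pow_eq_self_of_coprime (x := g) (n := e) (by rwa [hg, Nat.coprime_comm])
  refine ⟨k * n, ?_⟩
  have h := congrArg Units.val
    ((hn.symm.trans (congrArg (· ^ n) (hk.symm.trans (congrArg (· ^ k) he)))).trans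
      (pow_mul _ k n).symm)
  rw [ZMod.coe_unitOfCoprime, Units.val_pow_eq_pow_val, ZMod.coe_unitOfCoprime] at h
  rw [h, Nat.cast_pow]

/-- For `p = 2`, three and five will do. -/
theorem generatesUnits_two [Fact (Nat.Prime 2)] : GeneratesUnits 2 {3, 5} := by
  refine ⟨by simp, fun a ha m => ?_⟩
  suffices key : ∀ n : ℕ, ∃ l : List ℕ, (∀ x ∈ l, x ∈ ({3, 5} : Finset ℕ)) ∧
      (a : ZMod (2 ^ (n + 2))) = (l.prod : ℕ) by
    obtain ⟨l, hl, h⟩ := key m
    refine ⟨l, hl, ?_⟩
    have := congrArg (ZMod.castHom (pow_dvd_pow 2 (Nat.le_add_right m 2)) (ZMod (2 ^ m))) h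
    rw [map_natCast, map_natCast] at this
    exact this
  intro n
  have hcop : ∀ b, ¬ 2 ∣ b → Nat.Coprime b (2 ^ (n + 2)) := fun b hb => Nat.Coprime.pow_right _
    (Nat.coprime_comm.1 ((Nat.Prime.coprime_iff_not_dvd Nat.prime_two).2 hb))
  set G := (ZMod (2 ^ (n + 2)))ˣ
  set f := ZMod.unitsMap (show 2 ^ 2 ∣ 2 ^ (n + 2) from pow_dvd_pow 2 (by omega))
  have hf : ∀ b (hb : Nat.Coprime b (2 ^ (n + 2))),
      ((f (ZMod.unitOfCoprime b hb) : (ZMod (2 ^ 2))ˣ) : ZMod (2 ^ 2)) = (b : ZMod (2 ^ 2)) :=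
    fun b hb => by
      change ZMod.castHom (show 2 ^ 2 ∣ 2 ^ (n + 2) from pow_dvd_pow 2 (by omega)) (ZMod (2 ^ 2))
        (ZMod.unitOfCoprime b hb : ZMod (2 ^ (n + 2))) = _
      rw [ZMod.coe_unitOfCoprime, map_natCast]
  set u5 : G := ZMod.unitOfCoprime 5 (hcop 5 (by decide))
  set u3 : G := ZMod.unitOfCoprime 3 (hcop 3 (by decide))
  have h5 : orderOf u5 = 2 ^ n := by
    rw [← orderOf_units, ZMod.coe_unitOfCoprime]
    exact_mod_cast ZMod.orderOf_five n
  have hker : Subgroup.zpowers u5 = f.ker := by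
    have hle : Subgroup.zpowers u5 ≤ f.ker := by
      rw [Subgroup.zpowers_le, MonoidHom.mem_ker]
      refine Units.ext ?_
      rw [hf, Units.val_one]
      decide
    refine Subgroup.eq_of_le_of_card_ge hle ?_
    have h := f.ker.card_mul_index
    rw [Subgroup.index_ker, MonoidHom.range_eq_top.2 (ZMod.unitsMap_surjective _),
      Subgroup.card_top,
      Nat.card_eq_fintype_card (α := (ZMod (2 ^ 2))ˣ), ZMod.card_units_eq_totient,
      Nat.card_eq_fintype_card (α := G), ZMod.card_units_eq_totient,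
      Nat.totient_prime_pow (p := 2) Nat.prime_two (n := 2) two_pos,
      Nat.totient_prime_pow_succ (p := 2) Nat.prime_two (n + 1)] at h
    rw [Nat.card_zpowers, h5]
    rw [pow_succ 2 n] at h
    exact (by omega : Nat.card f.ker ≤ 2 ^ n)
  set x : G := ZMod.unitOfCoprime a (hcop a ha)
  have hx : x ∈ Submonoid.closure ({u3, u5} : Set G) := by
    have h5mem : ∀ y ∈ f.ker, y ∈ Submonoid.closure ({u3, u5} : Set G) := fun y hy => by
      rw [← hker, ← mem_powers_iff_mem_zpowers] at hy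
      exact Submonoid.powers_le.2 (Submonoid.subset_closure (by simp)) hy
    by_cases hx : f x = 1
    · exact h5mem x hx
    · have h3 : f (x * u3) = 1 := by
        rw [map_mul]
        have hall : ∀ u v : (ZMod (2 ^ 2))ˣ, u ≠ 1 → v ≠ 1 → u * v = 1 := by decide
        refine hall _ _ hx fun h => ?_
        have := congrArg Units.val h
        rw [hf, Units.val_one] at this
        exact absurd this (by decide)
      obtain ⟨j, hj⟩ : u3⁻¹ ∈ Submonoid.powers u3 := by
        rw [mem_powers_iff_mem_zpowers]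
        exact inv_mem (Subgroup.mem_zpowers u3)
      rw [← mul_inv_cancel_right x u3]
      refine mul_mem (h5mem _ h3) ?_
      rw [← hj]
      exact pow_mem (Submonoid.subset_closure (by simp)) j
  obtain ⟨l, hl, hlx⟩ := Submonoid.exists_list_of_mem_closure hx
  refine ⟨l.map fun u => if u = u3 then 3 else 5, fun y hy => ?_, ?_⟩
  · obtain ⟨u, -, rfl⟩ := List.mem_map.1 hy
    split_ifs <;> simp
  · have h := congrArg Units.val hlx
    rw [ZMod.coe_unitOfCoprime] at h
    rw [← h, Nat.cast_list_prod, ← Units.coeHom_apply, map_list_prod, List.map_map]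
    refine congrArg List.prod (List.map_congr_left fun u hu => ?_)
    rcases hl u hu with rfl | rfl
    · simp [u3]
    · simp only [Function.comp_apply, Units.coeHom_apply]
      split_ifs with h35
      · rw [h35, ZMod.coe_unitOfCoprime]
      · rw [ZMod.coe_unitOfCoprime]

end Fermat.Agent.LubinTate
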