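import Fermat.Agent.LubinTate.Coleman.CyclotomicClosure

/-!
# The quotient of the units by the cyclotomic units

`cycloQuotientEquiv` identifies it with the measures on the units killing `x` modulo the ideal of
the cyclotomic units, equivariantly for `ℤ_pˣ`.
-/

set_option autoImplicit false

noncomputable section

open Finset IsLocalRing IntermediateField

namespace Fermat.Agent.LubinTate

variable (p : ℕ) [hp : Fact p.Prime]

local notation "Λ" => PowerSeries ℤ_[p]
local notation "𝒞" => C(ℤ_[p], ℤ_[p])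

/-- The measures on the units killing `x`. -/
def twistTarget : AddSubgroup (𝒞 →L[ℤ_[p]] ℤ_[p]) where
  carrier := {ν | (∀ f, ν (f * unitsIndicator) = ν f) ∧ ν (ContinuousMap.id ℤ_[p]) = 0}
  zero_mem' := ⟨fun f => rfl, rfl⟩
  add_mem' := fun {a b} ha hb =>
    ⟨fun f => by simp only [add_apply, ha.1, hb.1], by simp only [add_apply, ha.2, hb.2, add_zero]⟩
  neg_mem' := fun {a} ha =>
    ⟨fun f => by simp only [neg_apply, ha.1], by simp only [neg_apply, ha.2, neg_zero]⟩

/-- The ideal of the cyclotomic units, among measures. -/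
def cycloIdealMeasures (A : Finset ℕ) : AddSubgroup (𝒞 →L[ℤ_[p]] ℤ_[p]) :=
  (cycloIdeal p A).comap (AddMonoidHom.mk' (fun ν => ⇑ν) fun _ _ => rfl)

theorem mem_cycloIdealMeasures {A : Finset ℕ} {ν : 𝒞 →L[ℤ_[p]] ℤ_[p]} :
    ν ∈ cycloIdealMeasures p A ↔ ⇑ν ∈ cycloIdeal p A :=
  Iff.rfl

variable {p} {Ω : Type*} [Field Ω] [Algebra ℚ_[p] Ω] [Algebra ℤ_[p] Ω]
  [IsScalarTower ℤ_[p] ℚ_[p] Ω] {lam : ℕ → Ω} (hlam : IsTorsionTower (p : ℤ_[p]) lam)

include hlam in
theorem cycloIdealMeasures_le {A : Finset ℕ} (hA : ∀ a ∈ A, ¬ p ∣ a) :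
    cycloIdealMeasures p A ≤ twistTarget p := fun _ h =>
  supported_of_mem_cycloIdeal p hA h fun _ ha => cycloUnit_mem_normFixed hlam ha

/-- The twisted map, into its target. -/
def twistTargetHom : normUnits ℚ_[p] hlam →* Multiplicative (twistTarget p) :=
  MonoidHom.mk' (fun u => Multiplicative.ofAdd
      ⟨colemanTwist p (unitsSeries hlam u), colemanTwist_supported p _,
        colemanTwist_id p ((fixedUnitsEquiv hlam).symm u).2⟩) fun u v => by
    rw [← ofAdd_add]
    congr 1
    refine Subtype.ext ?_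
    rw [AddSubgroup.coe_add, ← colemanTwist_mul p (g := unitsSeries hlam u)
      (h := unitsSeries hlam v) (Units.isUnit _) (Units.isUnit _)]
    simp [unitsSeries]

theorem twistTargetHom_surjective : Function.Surjective (twistTargetHom hlam) := by
  rintro ν
  obtain ⟨g, hg, hgν⟩ := (exists_colemanTwist_eq_iff p _).2 (Multiplicative.toAdd ν).2
  refine ⟨fixedUnitsEquiv hlam ⟨g, hg⟩, Multiplicative.toAdd.injective (Subtype.ext ?_)⟩
  change colemanTwist p (unitsSeries hlam _) = _
  rw [unitsSeries, MulEquiv.symm_apply_apply]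
  exact hgν

/-- The map to the quotient of measures. -/
def cycloQuotientHom (A : Finset ℕ) : normUnits ℚ_[p] hlam →*
    Multiplicative (twistTarget p ⧸ (cycloIdealMeasures p A).addSubgroupOf (twistTarget p)) :=
  (AddMonoidHom.toMultiplicative (QuotientAddGroup.mk' _)).comp (twistTargetHom hlam)

theorem ker_cycloQuotientHom {A : Finset ℕ} (hA : GeneratesUnits p A) :
    (cycloQuotientHom hlam A).ker = cycloClosure hlam := by
  ext u
  rw [MonoidHom.mem_ker, mem_cycloClosure_iff_twist hlam hA]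
  exact QuotientAddGroup.eq_zero_iff _

theorem cycloQuotientHom_surjective (A : Finset ℕ) :
    Function.Surjective (cycloQuotientHom hlam A) :=
  (QuotientAddGroup.mk'_surjective _).comp (twistTargetHom_surjective hlam)

/-- **Units modulo cyclotomic units.** -/
def cycloQuotientEquiv {A : Finset ℕ} (hA : GeneratesUnits p A) :
    normUnits ℚ_[p] hlam ⧸ cycloClosure hlam ≃*
      Multiplicative (twistTarget p ⧸ (cycloIdealMeasures p A).addSubgroupOf (twistTarget p)) :=
  (QuotientGroup.quotientMulEquivOfEq (ker_cycloQuotientHom hlam hA).symm).trans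
    (QuotientGroup.quotientKerEquivOfSurjective _ (cycloQuotientHom_surjective hlam A))

theorem cycloQuotientEquiv_mk {A : Finset ℕ} (hA : GeneratesUnits p A)
    (u : normUnits ℚ_[p] hlam) :
    cycloQuotientEquiv hlam hA (QuotientGroup.mk u) = cycloQuotientHom hlam A u :=
  rfl

/-! ### Galois -/

/-- An automorphism of a level with `ζ ↦ ζ ^ b` substitutes `(1 + X) ^ b - 1`. -/
theorem algHom_evalLev {k : ℕ} (s : lev ℚ_[p] lam k →ₐ[ℚ_[p]] lev ℚ_[p] lam k) {b : ℤ_[p]}
    {z : lev ℚ_[p] lam k} (hz : (z : Ω) = cycloZeta hlam k)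
    (hs : (s z : Ω) = cycloZeta hlam k ^ (PadicInt.toZModPow (p := p) (k + 1) b).val) (x : Λ) :
    s (evalLev (K := ℚ_[p]) PadicInt.irreducible_p hlam k (cycloSubst p x)) =
      evalLev (K := ℚ_[p]) PadicInt.irreducible_p hlam k (cycloSubst p (powerSubst p b x)) := by
  have hπ : Irreducible (p : ℤ_[p]) := PadicInt.irreducible_p
  set ev := evalLev (K := ℚ_[p]) hπ hlam k
  have : IsScalarTower ℤ_[p] ℚ_[p] (lev ℚ_[p] lam k) :=
    IsScalarTower.of_algebraMap_eq fun x => Subtype.ext (IsScalarTower.algebraMap_apply _ _ Ω x)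
  set s' : lev ℚ_[p] lam k →ₐ[ℤ_[p]] lev ℚ_[p] lam k := s.restrictScalars ℤ_[p]
  have hX : s' (ev (cycloSubst p PowerSeries.X)) =
      ev (cycloSubst p (powerSubst p b PowerSeries.X)) := by
    have h1 : ev (cycloSubst p PowerSeries.X) = z - 1 := Subtype.ext (by
      change torsionValue hlam k (cycloSubst p PowerSeries.X) = (z : Ω) - 1
      rw [hz, cycloSubst, PowerSeries.substAlgHom_X, cycloZeta, add_sub_cancel_left])
    rw [h1, powerSubst_X, map_sub, map_one]
    refine Subtype.ext ?_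
    change (s z : Ω) - 1 = torsionValue hlam k (cycloSubst p _)
    rw [hs, map_sub, map_one, map_sub, map_one, torsionValue_binomialSeries]
  have hpoly : ∀ P : Polynomial ℤ_[p], s' (ev (cycloSubst p (P : Λ))) =
      ev (cycloSubst p (powerSubst p b (P : Λ))) := fun P => by
    have h := DFunLike.congr_fun (Polynomial.algHom_ext
      (f := ((s'.comp ev).comp (cycloSubst p)).comp (Polynomial.coeToPowerSeries.algHom ℤ_[p]))
      (g := ((ev.comp (cycloSubst p)).comp (powerSubst p b)).comp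
        (Polynomial.coeToPowerSeries.algHom ℤ_[p])) (by simpa using hX)) P
    simpa using h
  refine sub_eq_zero.1 (eq_zero_of_forall_integral hπ hlam k fun i => ?_)
  obtain ⟨t, ht⟩ := exists_close_value hlam k i
  set P := PowerSeries.trunc t x
  have hd := sub_trunc_mem (π := (p : ℤ_[p])) t x
  obtain ⟨z₁, hz₁, e₁⟩ := ht _ hd
  obtain ⟨z₂, hz₂, e₂⟩ := ht _ (algHom_mem_closeIdeal p (constantCoeff_powerSubst_X p b) hd)
  refine ⟨s' z₁ - z₂, (hz₁.map s').sub hz₂, ?_⟩
  have e₃ := congrArg s' e₁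
  rw [map_sub, map_sub, map_sub, map_mul, AlgHom.commutes] at e₃
  rw [map_sub, map_sub, map_sub] at e₂
  rw [mul_sub, ← e₂, ← e₃, hpoly]
  change s' (ev (cycloSubst p x)) - _ = _
  ring

/-- **Equivariance of the twisted map.** -/
theorem exists_conjugate {b : ℤ_[p]} (hb : IsUnit b) (u : normUnits ℚ_[p] hlam) :
    ∃ v : normUnits ℚ_[p] hlam,
      (∀ k (s : lev ℚ_[p] lam k →ₐ[ℚ_[p]] lev ℚ_[p] lam k) (z : lev ℚ_[p] lam k),
        (z : Ω) = cycloZeta hlam k →
        (s z : Ω) = cycloZeta hlam k ^ (PadicInt.toZModPow (p := p) (k + 1) b).val →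
        s (((u : ∀ k, (lev ℚ_[p] lam k)ˣ) k : (lev ℚ_[p] lam k)ˣ) : lev ℚ_[p] lam k) =
          (((v : ∀ k, (lev ℚ_[p] lam k)ˣ) k : (lev ℚ_[p] lam k)ˣ) : lev ℚ_[p] lam k)) ∧
      ∀ f, colemanTwist p (unitsSeries hlam v) f =
        colemanTwist p (unitsSeries hlam u) (f.comp (scaleMap p b)) := by
  refine ⟨fixedUnitsEquiv hlam
    ⟨_, powerSubst_mem_normFixed p hb ((fixedUnitsEquiv hlam).symm u).2⟩, fun k s z hz hs => ?_,
    fun f => ?_⟩
  · rw [← coe_unitsSeries hlam u k, algHom_evalLev hlam s hz hs]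
    rfl
  · refine Eq.trans ?_ (colemanTwist_powerSubst p hb
      (show IsUnit (unitsSeries hlam u) from Units.isUnit _) f)
    rw [unitsSeries, MulEquiv.symm_apply_apply]
    rfl

/-- **The moments of the cyclotomic measure.** -/
theorem cycloTwist_pow {a : ℕ} (ha : ¬ p ∣ a) (k : ℕ) :
    cycloTwist p a (ContinuousMap.id ℤ_[p] ^ (k + 1)) =
      amiceIntegral (cycloMeasure p a) (ContinuousMap.id ℤ_[p] ^ k) := by
  rw [cycloTwist, colemanTwist_apply, colemanMapFun_cycloSeries, pow_succ, mul_assoc,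
    id_mul_unitsInv, amiceIntegral_mul_unitsIndicator ha]

end Fermat.Agent.LubinTate
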