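import Fermat.Agent.LubinTate.Coleman.Closeness
import Fermat.Agent.LubinTate.Coleman.CycloMeasure
import Mathlib.RingTheory.PowerSeries.Expand
import Mathlib.RingTheory.OrzechProperty
import Mathlib.RingTheory.Noetherian.Orzech
import Mathlib.NumberTheory.Padics.RingHoms
import Mathlib.LinearAlgebra.Matrix.ToLin

/-!
# The basis of the Iwasawa algebra over its Frobenius image

`φ` substitutes `(1 + X) ^ p - 1`. Every series is uniquely `∑_{i < p} φ (c i) (1 + X) ^ i`, the
coordinate `ψ = c 0` is the operator with `φ (ψ h)` the normalised trace of `h`.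
-/

set_option autoImplicit false

noncomputable section

open Finset

namespace Fermat.Agent.LubinTate

variable (p : ℕ) [hp : Fact p.Prime]

local notation "Λ" => PowerSeries ℤ_[p]

theorem frobSubst_C (c : ℤ_[p]) : frobSubst p (PowerSeries.C c) = PowerSeries.C c := by
  rw [PowerSeries.C_eq_algebraMap, AlgHom.commutes]

/-- `φ` is the expansion by `p` modulo `p`. -/
theorem map_toZMod_frobSubst (x : Λ) :
    (frobSubst p x).map (PadicInt.toZMod (p := p)) =
      PowerSeries.expand p hp.out.ne_zero (x.map PadicInt.toZMod) := by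
  rw [frobSubst_apply, PowerSeries.expand_apply]
  refine (PowerSeries.map_subst (hasSubst_multiplicativeSeries p) (h := PadicInt.toZMod) x).trans ?_
  congr 1
  change PowerSeries.map PadicInt.toZMod (multiplicativeSeries p) = PowerSeries.X ^ p
  have : CharP (PowerSeries (ZMod p)) p :=
    (RingHom.charP_iff _ PowerSeries.C_injective p).1 inferInstance
  rw [multiplicativeSeries, map_sub, map_pow, map_add, map_one, PowerSeries.map_X, add_pow_char,
    one_pow, add_sub_cancel_left]

/-- `φ` preserves the closeness ideals. -/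
theorem frobSubst_mem_closeIdeal {t : ℕ} : ∀ {x : Λ}, x ∈ closeIdeal (p : ℤ_[p]) t →
    frobSubst p x ∈ closeIdeal (p : ℤ_[p]) t := by
  induction t with
  | zero => exact fun _ n => by simp
  | succ t ih =>
    intro x hx
    obtain ⟨c, hc⟩ : (p : ℤ_[p]) ^ (t + 1) ∣ x.constantCoeff := by
      simpa using hx 0
    set y := PowerSeries.mk fun n => PowerSeries.coeff (n + 1) x with hy
    have hy' : y ∈ closeIdeal (p : ℤ_[p]) t := fun n => by
      rw [hy, PowerSeries.coeff_mk]
      simpa using hx (n + 1)
    rw [x.eq_X_mul_shift_add_const, hc, ← hy, map_add, map_mul, frobSubst_X, frobSubst_C]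
    refine add_mem (fun n => ?_) fun n => ?_
    · rw [PowerSeries.coeff_mul]
      refine Finset.dvd_sum fun ab hab => ?_
      rw [Finset.HasAntidiagonal.mem_antidiagonal] at hab
      refine (pow_dvd_pow _ (show t + 1 - n ≤ (1 - ab.1) + (t - ab.2) by omega)).trans ?_
      rw [pow_add]
      refine mul_dvd_mul ?_ (ih hy' ab.2)
      rcases Nat.eq_zero_or_pos ab.1 with h | h
      · rw [h, PowerSeries.coeff_zero_eq_constantCoeff_apply,
          (isLTSeries_multiplicativeSeries p).constantCoeff_eq]
        exact dvd_zero _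
      · rw [show 1 - ab.1 = 0 by omega, pow_zero]; exact one_dvd _
    · rw [PowerSeries.coeff_C]
      split_ifs with h
      · exact (pow_dvd_pow _ (by omega)).trans (dvd_mul_right _ _)
      · exact dvd_zero _

/-- The combination `∑ φ (c i) (1 + X) ^ i`. -/
def frobExpand (c : Fin p → Λ) : Λ :=
  ∑ i, frobSubst p (c i) * (1 + PowerSeries.X) ^ (i : ℕ)

/-- The combination `∑ φ (c i) X ^ i`. -/
def frobExpandX (c : Fin p → Λ) : Λ :=
  ∑ i, frobSubst p (c i) * PowerSeries.X ^ (i : ℕ)

theorem frobExpandX_add (a b : Fin p → Λ) :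
    frobExpandX p (a + b) = frobExpandX p a + frobExpandX p b := by
  simp [frobExpandX, add_mul, Finset.sum_add_distrib]

theorem frobExpandX_C_mul (r : ℤ_[p]) (a : Fin p → Λ) :
    frobExpandX p (fun i => PowerSeries.C r * a i) = PowerSeries.C r * frobExpandX p a := by
  simp [frobExpandX, Finset.mul_sum, frobSubst_C, mul_assoc]

/-- Modulo `p` the combination interlaces the coefficients. -/
theorem coeff_map_frobExpandX (c : Fin p → Λ) (m : ℕ) (i : Fin p) :
    PowerSeries.coeff (p * m + i) ((frobExpandX p c).map (PadicInt.toZMod (p := p))) =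
      PadicInt.toZMod (PowerSeries.coeff m (c i)) := by
  rw [frobExpandX, map_sum, map_sum, Finset.sum_eq_single i]
  · rw [map_mul, map_pow, PowerSeries.map_X, map_toZMod_frobSubst, PowerSeries.coeff_mul_X_pow,
      PowerSeries.coeff_expand_mul, PowerSeries.coeff_map]
  · intro j _ hj
    rw [map_mul, map_pow, PowerSeries.map_X, map_toZMod_frobSubst, PowerSeries.coeff_mul_X_pow']
    split_ifs with h
    · refine PowerSeries.coeff_expand_of_not_dvd p hp.out.ne_zero _ fun hd => hj (Fin.ext ?_)
      obtain ⟨d, hd⟩ := hd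
      have h1 : (p * m + (i : ℕ)) % p = (p * d + (j : ℕ)) % p := by congr 1; omega
      rwa [Nat.mul_add_mod, Nat.mul_add_mod, Nat.mod_eq_of_lt i.2, Nat.mod_eq_of_lt j.2,
        eq_comm] at h1
    · rfl
  · simp

theorem dvd_iff_map_toZMod (x : Λ) :
    PowerSeries.C (p : ℤ_[p]) ∣ x ↔ x.map (PadicInt.toZMod (p := p)) = 0 := by
  constructor
  · rintro ⟨y, rfl⟩
    rw [map_mul, PowerSeries.map_C, map_natCast, ZMod.natCast_self, map_zero, zero_mul]
  · intro h
    have h' : ∀ n, (p : ℤ_[p]) ∣ PowerSeries.coeff n x := fun n => by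
      rw [← Ideal.mem_span_singleton, ← PadicInt.maximalIdeal_eq_span_p, ← PadicInt.ker_toZMod,
        RingHom.mem_ker, ← PowerSeries.coeff_map, h, map_zero]
    choose y hy using h'
    exact ⟨PowerSeries.mk y, PowerSeries.ext fun n => by
      rw [PowerSeries.coeff_C_mul, PowerSeries.coeff_mk, hy]⟩

theorem exists_frobExpandX_mod (h : Λ) : ∃ (c : Fin p → Λ) (r : Λ),
    h = frobExpandX p c + PowerSeries.C (p : ℤ_[p]) * r := by
  set c : Fin p → Λ := fun i => PowerSeries.mk fun m => PowerSeries.coeff (p * m + i) h with hc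
  obtain ⟨r, hr⟩ := (dvd_iff_map_toZMod p (h - frobExpandX p c)).2 (PowerSeries.ext fun n => by
    rw [map_sub, map_sub, map_zero, ← Nat.div_add_mod n p,
      show n % p = ((⟨n % p, Nat.mod_lt _ hp.out.pos⟩ : Fin p) : ℕ) from rfl,
      coeff_map_frobExpandX, hc, PowerSeries.coeff_mk, PowerSeries.coeff_map, sub_self])
  exact ⟨c, r, by rw [← hr, add_sub_cancel]⟩

theorem frobExpandX_surjective : Function.Surjective (frobExpandX p) := by
  intro h
  choose C' R' hCR using exists_frobExpandX_mod p
  let r : ℕ → Λ := fun n => R'^[n] h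
  have hr : ∀ n, r n = frobExpandX p (C' (r n)) + PowerSeries.C (p : ℤ_[p]) * r (n + 1) := fun n =>
    (hCR (r n)).trans (by simp [r, Function.iterate_succ_apply'])
  let x : ℕ → Fin p → Λ := fun t i =>
    ∑ n ∈ range t, PowerSeries.C ((p : ℤ_[p]) ^ n) * C' (r n) i
  have hmem : ∀ t (y : Λ), PowerSeries.C ((p : ℤ_[p]) ^ t) * y ∈ closeIdeal (p : ℤ_[p]) t :=
    fun t y n => by
      rw [PowerSeries.coeff_C_mul]
      exact (pow_dvd_pow _ (Nat.sub_le t n)).trans (dvd_mul_right _ _)
  have hlim : ∀ i, ∃ l, ∀ t, l - x t i ∈ closeIdeal (p : ℤ_[p]) t := fun i =>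
    exists_limit PadicInt.irreducible_p (fun t => x t i) fun t => by
      simp only [x, Finset.sum_range_succ, add_sub_cancel_left]
      exact hmem t _
  choose l hl using hlim
  have hrec : ∀ t, h = frobExpandX p (x t) + PowerSeries.C ((p : ℤ_[p]) ^ t) * r t := by
    intro t
    induction t with
    | zero => simp [x, r, frobExpandX]
    | succ t ih =>
      rw [ih, hr t, show x (t + 1) = x t + fun i => PowerSeries.C ((p : ℤ_[p]) ^ t) * C' (r t) i
        from funext fun i => Finset.sum_range_succ _ t, frobExpandX_add, frobExpandX_C_mul,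
        pow_succ, map_mul]
      ring
  refine ⟨l, eq_of_forall_sub_mem PadicInt.irreducible_p fun t => ?_⟩
  rw [hrec t, ← sub_sub]
  refine sub_mem ?_ (hmem t _)
  rw [frobExpandX, frobExpandX, ← Finset.sum_sub_distrib]
  refine sum_mem fun i _ => ?_
  rw [← sub_mul, ← map_sub]
  exact Ideal.mul_mem_right _ _ (frobSubst_mem_closeIdeal p (hl i t))

theorem frobExpandX_eq_zero {c : Fin p → Λ} (h : frobExpandX p c = 0) : c = 0 := by
  have key : ∀ (t : ℕ) (c : Fin p → Λ), frobExpandX p c = 0 →
      ∀ i n, (p : ℤ_[p]) ^ t ∣ PowerSeries.coeff n (c i) := by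
    intro t
    induction t with
    | zero => simp
    | succ t ih =>
      intro c hc i n
      have hdvd : ∀ j, PowerSeries.C (p : ℤ_[p]) ∣ c j := fun j => (dvd_iff_map_toZMod p _).2 (by
        ext m
        rw [PowerSeries.coeff_map, ← coeff_map_frobExpandX p c m j, hc, map_zero, map_zero,
          map_zero])
      choose d hd using hdvd
      have hd0 : frobExpandX p d = 0 := by
        have h1 : PowerSeries.C (p : ℤ_[p]) * frobExpandX p d = 0 := by
          rw [← frobExpandX_C_mul, ← funext hd, hc]
        refine (mul_eq_zero.1 h1).resolve_left fun h0 => hp.out.ne_zero ?_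
        exact_mod_cast PowerSeries.C_injective (h0.trans (map_zero PowerSeries.C).symm)
      rw [hd, PowerSeries.coeff_C_mul, pow_succ']
      exact mul_dvd_mul_left _ (ih d hd0 i n)
  funext i
  exact PowerSeries.ext fun n => by
    rw [Pi.zero_apply, map_zero]
    exact eq_zero_of_forall_pow_dvd PadicInt.irreducible_p fun t => key t c h i n

theorem frobExpandX_injective : Function.Injective (frobExpandX p) := fun a b h => by
  refine sub_eq_zero.1 (frobExpandX_eq_zero p ?_)
  have h1 : frobExpandX p (a - b) + frobExpandX p b = frobExpandX p b := by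
    rw [← frobExpandX_add, sub_add_cancel, h]
  simpa using h1

theorem frobExpand_add (a b : Fin p → Λ) :
    frobExpand p (a + b) = frobExpand p a + frobExpand p b := by
  simp [frobExpand, add_mul, Finset.sum_add_distrib]

theorem frobExpand_smul (r : Λ) (a : Fin p → Λ) :
    frobExpand p (r • a) = frobSubst p r * frobExpand p a := by
  simp [frobExpand, Finset.mul_sum, mul_assoc]

theorem frobExpand_single (j : Fin p) :
    frobExpand p (Pi.single j 1) = (1 + PowerSeries.X) ^ (j : ℕ) := by
  classical
  rw [frobExpand, Finset.sum_eq_single j]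
  · simp
  · intro i _ hi; simp [hi]
  · simp

theorem frobExpand_surjective : Function.Surjective (frobExpand p) := by
  classical
  have hX : ∀ i : Fin p, ∃ c, frobExpand p c = PowerSeries.X ^ (i : ℕ) := by
    intro i
    have hex : ∀ s : Finset ℕ, (∀ j ∈ s, j < p) → ∀ a : ℕ → ℤ_[p],
        ∃ c, frobExpand p c = ∑ j ∈ s, PowerSeries.C (a j) * (1 + PowerSeries.X) ^ j := by
      intro s hs a
      induction s using Finset.induction_on with
      | empty => exact ⟨0, by simp [frobExpand]⟩
      | insert j s hj ih =>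
        obtain ⟨c, hc⟩ := ih fun x hx => hs x (Finset.mem_insert_of_mem hx)
        refine ⟨PowerSeries.C (a j) • Pi.single ⟨j, hs j (Finset.mem_insert_self _ _)⟩ 1 + c, ?_⟩
        rw [frobExpand_add, frobExpand_smul, frobExpand_single, frobSubst_C,
          Finset.sum_insert hj, hc]
    obtain ⟨c, hc⟩ := hex (range ((i : ℕ) + 1)) (fun j hj => by rw [mem_range] at hj; omega)
      fun j => (-1) ^ ((i : ℕ) - j) * ((i : ℕ).choose j : ℤ_[p])
    refine ⟨c, hc.trans ?_⟩
    rw [show (PowerSeries.X : Λ) = (1 + PowerSeries.X) + -1 by ring, add_pow]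
    refine Finset.sum_congr rfl fun j _ => ?_
    rw [map_mul, map_pow, map_neg, map_one, map_natCast]
    ring
  choose cX hcX using hX
  intro h
  obtain ⟨d, rfl⟩ := frobExpandX_surjective p h
  refine ⟨∑ i, d i • cX i, ?_⟩
  rw [frobExpandX]
  let F : (Fin p → Λ) →+ Λ := AddMonoidHom.mk' (frobExpand p) (frobExpand_add p)
  change F _ = _
  rw [map_sum]
  exact Finset.sum_congr rfl fun i _ => by
    change frobExpand p (d i • cX i) = _
    rw [frobExpand_smul, hcX]

/-- The matrix taking the basis `(1 + X) ^ i` to the basis `X ^ j`. -/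
def binomialMap : (Fin p → Λ) →ₗ[Λ] (Fin p → Λ) :=
  Matrix.mulVecLin (Matrix.of fun j i => (((i : ℕ).choose (j : ℕ) : ℕ) : Λ))

theorem frobExpandX_binomialMap (a : Fin p → Λ) :
    frobExpandX p (binomialMap p a) = frobExpand p a := by
  simp only [frobExpandX, binomialMap, Matrix.mulVecLin_apply, Matrix.mulVec, dotProduct,
    Matrix.of_apply, map_sum, map_mul, map_natCast, Finset.sum_mul]
  rw [Finset.sum_comm, frobExpand]
  refine Finset.sum_congr rfl fun i _ => ?_
  rw [add_comm (1 : Λ), add_pow, Finset.mul_sum,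
    Fin.sum_univ_eq_sum_range
      (fun x => (((i : ℕ).choose x : ℕ) : Λ) * frobSubst p (a i) * PowerSeries.X ^ x) p]
  refine (Finset.sum_subset (range_subset_range.2 (Nat.succ_le_of_lt i.2)) fun j _ hj => ?_).symm
    |>.trans (Finset.sum_congr rfl fun j _ => by rw [one_pow]; ring)
  rw [Nat.choose_eq_zero_of_lt (by rw [mem_range] at hj; omega), Nat.cast_zero, zero_mul,
    zero_mul]

theorem frobExpand_bijective : Function.Bijective (frobExpand p) := by
  refine ⟨?_, frobExpand_surjective p⟩
  have hs : Function.Surjective (binomialMap p) := fun b => by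
    obtain ⟨a, ha⟩ := frobExpand_surjective p (frobExpandX p b)
    exact ⟨a, frobExpandX_injective p ((frobExpandX_binomialMap p a).trans ha)⟩
  intro a b h
  rw [← frobExpandX_binomialMap, ← frobExpandX_binomialMap] at h
  exact OrzechProperty.injective_of_surjective_endomorphism _ hs (frobExpandX_injective p h)

/-- **The coordinates.** -/
def frobCoord : Λ ≃+ (Fin p → Λ) :=
  (AddEquiv.ofBijective (AddMonoidHom.mk' (frobExpand p) (frobExpand_add p))
    (frobExpand_bijective p)).symm

theorem frobExpand_frobCoord (h : Λ) : frobExpand p (frobCoord p h) = h :=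
  (AddEquiv.ofBijective (AddMonoidHom.mk' (frobExpand p) (frobExpand_add p))
    (frobExpand_bijective p)).apply_symm_apply h

theorem frobCoord_frobExpand (c : Fin p → Λ) : frobCoord p (frobExpand p c) = c :=
  (frobExpand_bijective p).1 (frobExpand_frobCoord p _)

theorem frobCoord_frobSubst_mul (a h : Λ) :
    frobCoord p (frobSubst p a * h) = a • frobCoord p h :=
  (frobExpand_bijective p).1 (by
    rw [frobExpand_frobCoord, frobExpand_smul, frobExpand_frobCoord])

theorem frobCoord_one_add_X_pow (j : Fin p) :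
    frobCoord p ((1 + PowerSeries.X) ^ (j : ℕ)) = Pi.single j 1 := by
  rw [← frobExpand_single, frobCoord_frobExpand]

/-- **The operator `ψ`.** -/
def colemanPsi : Λ →+ Λ where
  toFun h := frobCoord p h ⟨0, hp.out.pos⟩
  map_zero' := by simp
  map_add' a b := by simp

theorem colemanPsi_apply (h : Λ) : colemanPsi p h = frobCoord p h ⟨0, hp.out.pos⟩ := rfl

theorem colemanPsi_frobSubst_mul (a h : Λ) :
    colemanPsi p (frobSubst p a * h) = a * colemanPsi p h := by
  rw [colemanPsi_apply, frobCoord_frobSubst_mul]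
  rfl

theorem colemanPsi_C_mul (r : ℤ_[p]) (h : Λ) :
    colemanPsi p (PowerSeries.C r * h) = PowerSeries.C r * colemanPsi p h := by
  conv_lhs => rw [← frobSubst_C p r]
  exact colemanPsi_frobSubst_mul p _ h

theorem colemanPsi_one_add_X_pow {j : ℕ} (hj : j < p) :
    colemanPsi p ((1 + PowerSeries.X) ^ j) = if j = 0 then 1 else 0 := by
  classical
  rw [colemanPsi_apply, show j = ((⟨j, hj⟩ : Fin p) : ℕ) from rfl, frobCoord_one_add_X_pow,
    Pi.single_apply]
  simp [Fin.ext_iff, eq_comm]

theorem colemanPsi_one : colemanPsi p 1 = 1 := by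
  simpa using colemanPsi_one_add_X_pow p (j := 0) hp.out.pos

theorem colemanPsi_frobSubst (a : Λ) : colemanPsi p (frobSubst p a) = a := by
  simpa [colemanPsi_one] using colemanPsi_frobSubst_mul p a 1

end Fermat.Agent.LubinTate
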