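import Fermat.Agent.LubinTate.Coleman.Tower

/-!
# The theorem of Coleman

Every norm compatible system of units in the tower of torsion fields is the system of values of
exactly one series, and these series are the units fixed by the norm operator.
-/

set_option autoImplicit false

noncomputable section

open Polynomial IsLocalRing IntermediateField

namespace Fermat.Agent.LubinTate

variable {O : Type*} [CommRing O] {π : O} {q : ℕ}

theorem mul_mem_closeIdeal {s t : ℕ} {x y : PowerSeries O} (hx : x ∈ closeIdeal π s)
    (hy : y ∈ closeIdeal π t) : x * y ∈ closeIdeal π (s + t) := by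
  intro n
  rw [PowerSeries.coeff_mul]
  refine Finset.dvd_sum fun ab hab => ?_
  rw [Finset.HasAntidiagonal.mem_antidiagonal] at hab
  calc π ^ (s + t - n) ∣ π ^ (s - ab.1) * π ^ (t - ab.2) := by
        rw [← pow_add]; exact pow_dvd_pow π (by omega)
    _ ∣ _ := mul_dvd_mul (hx ab.1) (hy ab.2)

/-- The product of the first `k` level polynomials, as a series. -/
def levelProd (π : O) (q k : ℕ) : PowerSeries O :=
  ((∏ j ∈ Finset.range k, levelPoly π q j : O[X]) : PowerSeries O)

theorem X_mul_levelProd (hq : 1 ≤ q) (k : ℕ) :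
    PowerSeries.X * levelProd π q k = (iterPoly π q k : PowerSeries O) := by
  induction k with
  | zero => simp [levelProd, iterPoly]
  | succ k ih =>
    rw [levelProd, Finset.prod_range_succ, Polynomial.coe_mul, ← mul_assoc]
    rw [levelProd] at ih
    rw [ih, iterPoly_succ hq, Polynomial.coe_mul]

theorem levelProd_mem_closeIdeal (hq : 2 ≤ q) (k : ℕ) :
    levelProd π q k ∈ closeIdeal π k := by
  induction k with
  | zero => intro n; simp
  | succ k ih =>
    rw [levelProd, Finset.prod_range_succ, Polynomial.coe_mul]
    refine mul_mem_closeIdeal ih fun n => ?_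
    rcases n with - | n
    · rw [Polynomial.coeff_coe, levelPoly, coeff_add, coeff_C_zero, coeff_zero_eq_eval_zero,
        eval_pow, ← coeff_zero_eq_eval_zero, (monic_iterPoly hq k).2.2.1, zero_pow (by omega),
        zero_add, Nat.sub_zero, pow_one]
    · rw [show 1 - (n + 1) = 0 by omega, pow_zero]
      exact one_dvd _

variable [IsDomain O] [IsDiscreteValuationRing O] [Finite (ResidueField O)]
  [IsAdicComplete (maximalIdeal O) O]
  {K : Type*} [Field K] [Algebra O K] [IsFractionRing O K]
  {Ω : Type*} [Field Ω] [Algebra K Ω] [Algebra O Ω] [IsScalarTower O K Ω]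
  (hπ : Irreducible π) {lam : ℕ → Ω} (hlam : IsTorsionTower π lam)
include hπ hlam

/-- Integral elements of a level are values of series. -/
theorem exists_evalLev_of_isIntegral (k : ℕ) {z : lev K lam k} (hz : IsIntegral O z) :
    ∃ w : PowerSeries O, evalLev (K := K) hπ hlam k w = z := by
  have h : z ∈ integralClosure O (lev K lam k) := hz
  rw [integralClosure_eq hπ k (isTorsionGenerator_levGen (K := K) hπ hlam k),
    Algebra.adjoin_singleton_eq_range_aeval] at h
  obtain ⟨p, hp⟩ := h
  exact ⟨p, by rw [evalLev_coe]; exact hp⟩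

theorem evalLev_C_pow_mul (k i : ℕ) (w : PowerSeries O) :
    evalLev (K := K) hπ hlam k (PowerSeries.C π ^ i * w) =
      algebraMap O (lev K lam k) (π ^ i) * evalLev (K := K) hπ hlam k w := by
  rw [← map_pow, map_mul, PowerSeries.C_eq_algebraMap, AlgHom.commutes]

/-- **A series with small values is small.** -/
theorem mem_closeIdeal_of_values {a m : ℕ} {d : PowerSeries O}
    (hd : ∀ k < m, ∃ z, IsIntegral O z ∧
      evalLev (K := K) hπ hlam k d = algebraMap O (lev K lam k) (π ^ a) * z) :
    d ∈ closeIdeal π (min (a - m) m) := by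
  have hq := (isLubinTateBase hπ).two_le
  have key : ∀ k ≤ m, d ∈ Ideal.span
      {PowerSeries.C π ^ (a - k), levelProd π (residueCard O) k} := by
    intro k
    induction k with
    | zero =>
      intro _
      have h1 : (1 : PowerSeries O) = levelProd π (residueCard O) 0 := by simp [levelProd]
      rw [← mul_one d, h1]
      exact Ideal.mul_mem_left _ _ (Ideal.subset_span (Set.mem_insert_of_mem _ rfl))
    | succ k ih =>
      intro hk
      obtain ⟨x, y, hxy⟩ := Ideal.mem_span_pair.1 (ih (by omega))
      rcases Nat.lt_or_ge k a with hka | hka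
      swap
      · rw [show a - (k + 1) = 0 by omega, pow_zero, ← mul_one d]
        exact Ideal.mul_mem_left _ _ (Ideal.subset_span (Set.mem_insert _ _))
      obtain ⟨z, hz, hdz⟩ := hd k (by omega)
      obtain ⟨w, hw⟩ := exists_evalLev_of_isIntegral hπ hlam k hz
      set ev := evalLev (K := K) hπ hlam k with hev
      set P := levelProd π (residueCard O) k
      set g : PowerSeries O := ↑(iterPoly π (residueCard O) k)
      set E : PowerSeries O := -(g ^ (residueCard O - 2) * PowerSeries.X)
      -- the product of the lower level polynomials divides `π` at `lam k`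
      have hPE : ev P * ev E = algebraMap O (lev K lam k) π := by
        have h0 : ev (levelPoly π (residueCard O) k : PowerSeries O) = 0 := by
          rw [hev, evalLev_coe]
          exact (isTorsionGenerator_levGen (K := K) hπ hlam k).aeval_eq
        rw [levelPoly, Polynomial.coe_add, Polynomial.coe_pow, Polynomial.coe_C,
          PowerSeries.C_eq_algebraMap, map_add, AlgHom.commutes] at h0
        rw [← map_mul, show P * E = -(g ^ (residueCard O - 1)) by
          rw [show g = PowerSeries.X * P from (X_mul_levelProd (by omega) k).symm,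
            show residueCard O - 1 = residueCard O - 2 + 1 by omega, pow_succ]
          simp only [E, show g = PowerSeries.X * P from (X_mul_levelProd (by omega) k).symm]
          ring, map_neg]
        linear_combination -h0
      have hP0 : ev P ≠ 0 := fun h => by
        rw [h, zero_mul, IsScalarTower.algebraMap_apply O K (lev K lam k), eq_comm,
          map_eq_zero] at hPE
        exact hπ.ne_zero (IsFractionRing.injective O K (hPE.trans (map_zero _).symm))
      set W := PowerSeries.C π ^ k * w - x
      have hval : ev P * ev y = algebraMap O (lev K lam k) (π ^ (a - k)) * ev W := by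
        have h1 : ev P * ev y = ev d - ev (PowerSeries.C π ^ (a - k) * x) := by
          rw [← map_mul, ← map_sub, ← hxy]; ring_nf
        rw [h1, hdz, hev, evalLev_C_pow_mul, map_sub, evalLev_C_pow_mul, hw, mul_sub, ← mul_assoc,
          ← map_mul, ← pow_add, Nat.sub_add_cancel hka.le]
      set Y := PowerSeries.C π ^ (a - (k + 1)) * (E * W)
      have hy : ev y = ev Y := by
        refine mul_left_cancel₀ hP0 ?_
        rw [hval, show a - k = a - (k + 1) + 1 by omega, pow_succ, map_mul, ← hPE, hev,
          evalLev_C_pow_mul, map_mul]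
        ring
      obtain ⟨c, hc⟩ : (levelPoly π (residueCard O) k : PowerSeries O) ∣ y - Y :=
        (evalAt_eq_zero_iff hπ k (isTorsionGenerator_levGen (K := K) hπ hlam k) _).1 (by
          change ev (y - Y) = 0
          rw [map_sub, hy, sub_self])
      have hsucc : levelProd π (residueCard O) (k + 1) =
          P * (levelPoly π (residueCard O) k : PowerSeries O) := by
        rw [levelProd, Finset.prod_range_succ, Polynomial.coe_mul]; rfl
      rw [← hxy, show y = Y + (levelPoly π (residueCard O) k : PowerSeries O) * c by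
        rw [← hc]; ring, mul_comm x, show a - k = a - (k + 1) + 1 by omega, pow_succ, hsucc]
      refine Ideal.mem_span_pair.2 ⟨PowerSeries.C π * x + P * (E * W), c, ?_⟩
      simp only [Y]
      ring
  obtain ⟨x, y, rfl⟩ := Ideal.mem_span_pair.1 (key m le_rfl)
  refine add_mem (Ideal.mul_mem_left _ _ ?_) (Ideal.mul_mem_left _ _
    (closeIdeal_antitone (min_le_right _ _) (levelProd_mem_closeIdeal hq m)))
  intro n
  rw [← map_pow, PowerSeries.coeff_C]
  split_ifs with h
  · exact pow_dvd_pow π (by omega)
  · exact dvd_zero _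

/-- **Uniqueness**: a series is determined by its values at the torsion points. -/
theorem evalLev_injective {g g' : PowerSeries O}
    (h : ∀ k, evalLev (K := K) hπ hlam k g = evalLev (K := K) hπ hlam k g') : g = g' := by
  refine eq_of_forall_sub_mem hπ fun t => ?_
  have h' := mem_closeIdeal_of_values (K := K) hπ hlam (a := 2 * t) (m := t) (d := g - g')
    fun k _ => ⟨0, isIntegral_zero, by rw [map_sub, h, sub_self, mul_zero]⟩
  rwa [show min (2 * t - t) t = t by omega] at h'

/-- A series with a value invertible among integers is a unit. -/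
theorem isUnit_of_value {k : ℕ} {h : PowerSeries O} {z : lev K lam k} (hz : IsIntegral O z)
    (hhz : evalLev (K := K) hπ hlam k h * z = 1) : IsUnit h := by
  obtain ⟨w, rfl⟩ := exists_evalLev_of_isIntegral hπ hlam k hz
  obtain ⟨c, hc⟩ := (evalAt_eq_zero_iff hπ k (isTorsionGenerator_levGen (K := K) hπ hlam k)
    (h * w - 1)).1 (by
      change evalLev (K := K) hπ hlam k (h * w - 1) = 0
      rw [map_sub, map_mul, hhz, map_one, sub_self])
  have h0 := congrArg (PowerSeries.constantCoeff (R := O)) hc
  rw [map_sub, map_mul, map_mul, map_one, constantCoeff_coe, (torsionPoly_facts hπ k).2.2.1] at h0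
  rw [PowerSeries.isUnit_iff_constantCoeff]
  by_contra hnu
  rw [← mem_nonunits_iff, ← IsLocalRing.mem_maximalIdeal, hπ.maximalIdeal_eq,
    Ideal.mem_span_singleton] at hnu
  refine hπ.not_isUnit (isUnit_of_dvd_one ?_)
  rw [show (1 : O) = h.constantCoeff * w.constantCoeff - π * c.constantCoeff by
    linear_combination -h0]
  exact dvd_sub (hnu.mul_right _) (dvd_mul_right _ _)

/-- A series is fixed by the norm operator when its values are norm compatible. -/
theorem colemanNorm_eq_self_iff (g : PowerSeries O) :
    colemanNorm hπ g = g ↔ ∀ k, levNorm hlam k (evalLev (K := K) hπ hlam (k + 1) g) =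
      evalLev (K := K) hπ hlam k g := by
  simp only [levNorm_evalLev]
  exact ⟨fun h k => by rw [h], evalLev_injective hπ hlam⟩

variable (K) in
omit hπ in
/-- **The norm compatible systems of units of the tower.** -/
def normUnits : Subgroup (∀ k, (lev K lam k)ˣ) where
  carrier := {u | (∀ k, IsIntegral O (u k : lev K lam k) ∧
      IsIntegral O (((u k)⁻¹ : (lev K lam k)ˣ) : lev K lam k)) ∧
    ∀ k, levNorm hlam k (u (k + 1) : lev K lam (k + 1)) = (u k : lev K lam k)}
  mul_mem' := fun {u v} hu hv => ⟨fun k => by
      simp only [Pi.mul_apply, mul_inv_rev, Units.val_mul]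
      exact ⟨(hu.1 k).1.mul (hv.1 k).1, (hv.1 k).2.mul (hu.1 k).2⟩,
    fun k => by simp only [Pi.mul_apply, Units.val_mul, map_mul, hu.2, hv.2]⟩
  one_mem' := ⟨fun k => by simp [isIntegral_one], fun k => by simp⟩
  inv_mem' := fun {u} hu => ⟨fun k => by
      rw [Pi.inv_apply, inv_inv]
      exact ⟨(hu.1 k).2, (hu.1 k).1⟩,
    fun k => by
      refine (Units.inv_eq_of_mul_eq_one_left ?_).symm
      rw [← hu.2 k, ← map_mul]
      simp⟩

theorem evalLev_iterate {u : ∀ k, (lev K lam k)ˣ} (hu : u ∈ normUnits K hlam) (k s : ℕ) :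
    ∀ h : PowerSeries O, evalLev (K := K) hπ hlam (k + s) h = u (k + s) →
      evalLev (K := K) hπ hlam k ((⇑(colemanNorm hπ))^[s] h) = u k := by
  induction s with
  | zero => exact fun h hh => hh
  | succ s ih =>
    intro h hh
    rw [Function.iterate_succ_apply]
    refine ih _ ?_
    rw [← levNorm_evalLev hπ hlam]
    exact (congrArg (levNorm hlam (k + s)) hh).trans (hu.2 (k + s))

/-- **Coleman's theorem.** -/
theorem existsUnique_coleman {u : ∀ k, (lev K lam k)ˣ} (hu : u ∈ normUnits K hlam) :
    ∃! g : PowerSeries O, ∀ k, evalLev (K := K) hπ hlam k g = u k := by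
  have hq := (isLubinTateBase hπ).two_le
  choose h hh using fun k => exists_evalLev_of_isIntegral hπ hlam k (hu.1 k).1
  have hhu : ∀ k, IsUnit (h k) := fun k =>
    isUnit_of_value hπ hlam (hu.1 k).2 (by rw [hh, Units.mul_inv])
  set x : ℕ → PowerSeries O := fun t => (⇑(colemanNorm hπ))^[2 * t] (h (2 * (2 * t)))
  have hval : ∀ t k, k ≤ 2 * t → ∃ z, IsIntegral O z ∧ evalLev (K := K) hπ hlam k (x t) - u k =
      algebraMap O (lev K lam k) (π ^ (2 * t + 1)) * z := by
    intro t k hk
    set m := 2 * t
    obtain ⟨c, hc⟩ := dvd_iterate_colemanNorm_sub hπ (hhu (2 * m))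
      (show m ≤ 2 * m - k by omega)
    refine ⟨evalLev (K := K) hπ hlam k (-c), isIntegral_evalAt hπ k _ _, ?_⟩
    rw [← evalLev_iterate hπ hlam hu k (2 * m - k) (h (2 * m)) (by
      rw [show k + (2 * m - k) = 2 * m by omega]; exact hh _), ← map_sub,
      ← evalLev_C_pow_mul, mul_neg, ← hc]
    simp only [x, m, neg_sub]
  have hx : ∀ t, x (t + 1) - x t ∈ closeIdeal π t := by
    intro t
    have h' := mem_closeIdeal_of_values (K := K) hπ hlam (a := 2 * t + 1) (m := t)
      (d := x (t + 1) - x t) fun k hk => by
        obtain ⟨z, hz, e⟩ := hval t k (by omega)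
        obtain ⟨z', hz', e'⟩ := hval (t + 1) k (by omega)
        refine ⟨algebraMap O (lev K lam k) (π ^ 2) * z' - z,
          (isIntegral_algebraMap.mul hz').sub hz, ?_⟩
        rw [map_sub, mul_sub, ← e, ← mul_assoc, ← map_mul, ← pow_add,
          show 2 * t + 1 + 2 = 2 * (t + 1) + 1 by ring, ← e']
        ring
    rwa [show min (2 * t + 1 - t) t = t by omega] at h'
  obtain ⟨l, hl⟩ := exists_limit hπ x hx
  have hlu : ∀ k, evalLev (K := K) hπ hlam k l = u k := by
    intro k
    refine sub_eq_zero.1 (eq_zero_of_forall_integral hπ hlam k fun i => ?_)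
    set t := i + residueCard O ^ (k + 1) * i + k
    obtain ⟨z, hz, e⟩ := exists_evalLev_eq (K := K) hπ hlam k
      (closeIdeal_le_levelSeries hq i (k + 1) (closeIdeal_antitone (by omega) (hl t)))
    obtain ⟨z', hz', e'⟩ := hval t k (by omega)
    refine ⟨z + algebraMap O (lev K lam k) (π ^ (2 * t + 1 - i)) * z',
      hz.add (isIntegral_algebraMap.mul hz'), ?_⟩
    rw [mul_add, ← e, ← mul_assoc, ← map_mul, ← pow_add, Nat.add_sub_cancel' (by omega), ← e',
      map_sub]
    ring
  exact ⟨l, hlu, fun g hg => evalLev_injective hπ hlam fun k => (hg k).trans (hlu k).symm⟩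

omit hlam in
/-- The units fixed by the norm operator. -/
def colemanFixed : Subgroup (PowerSeries O)ˣ :=
  MonoidHom.eqLocus (Units.map (colemanNorm hπ)) (MonoidHom.id _)

omit hlam in
theorem mem_colemanFixed {g : (PowerSeries O)ˣ} :
    g ∈ colemanFixed hπ ↔ colemanNorm hπ (g : PowerSeries O) = g :=
  Units.ext_iff

variable (K) in
/-- The values of a fixed unit series. -/
def colemanValues : colemanFixed hπ →* normUnits K hlam :=
  ((MonoidHom.mk' (fun (g : colemanFixed hπ) k =>
      Units.map (evalLev (K := K) hπ hlam k).toRingHom.toMonoidHom (g : (PowerSeries O)ˣ))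
    fun a b => by funext k; simp).codRestrict (normUnits K hlam) fun g =>
      ⟨fun _ => ⟨isIntegral_evalAt hπ _ _ _, isIntegral_evalAt hπ _ _ _⟩,
        (colemanNorm_eq_self_iff hπ hlam _).1 ((mem_colemanFixed hπ).1 g.2)⟩)

theorem coe_colemanValues (g : colemanFixed hπ) (k : ℕ) :
    (((colemanValues K hπ hlam g : ∀ k, (lev K lam k)ˣ) k : (lev K lam k)ˣ) : lev K lam k) =
      evalLev (K := K) hπ hlam k ((g : (PowerSeries O)ˣ) : PowerSeries O) :=
  rfl

theorem colemanValues_bijective : Function.Bijective (colemanValues K hπ hlam) := by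
  constructor
  · intro g g' h
    refine Subtype.ext (Units.ext (evalLev_injective (K := K) hπ hlam fun k => ?_))
    rw [← coe_colemanValues, ← coe_colemanValues, h]
  · rintro ⟨u, hu⟩
    obtain ⟨g, hg, -⟩ := existsUnique_coleman hπ hlam hu
    have hgu : IsUnit g := isUnit_of_value hπ hlam (hu.1 0).2 (by rw [hg, Units.mul_inv])
    have hgf : hgu.unit ∈ colemanFixed hπ := by
      rw [mem_colemanFixed, IsUnit.unit_spec, colemanNorm_eq_self_iff (K := K) hπ hlam]
      intro k
      rw [hg k, hg (k + 1), hu.2]
    exact ⟨⟨hgu.unit, hgf⟩, Subtype.ext (funext fun k => Units.ext (by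
      rw [coe_colemanValues]; exact hg k))⟩

variable (K) in
/-- **The isomorphism of Coleman.** -/
def colemanEquiv : colemanFixed hπ ≃* normUnits K hlam :=
  MulEquiv.ofBijective (colemanValues K hπ hlam) (colemanValues_bijective hπ hlam)

end Fermat.Agent.LubinTate
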