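import Fermat.Agent.LubinTate.Coleman.MultiplicativeNorm
import Mathlib.NumberTheory.Padics.Hensel

/-!
# The logarithmic derivative of the norm invariant units

The logarithmic derivative maps the units fixed by the norm onto the series fixed by `ψ`; the
kernel consists of the constants `c` with `c ^ (p - 1) = 1`.
-/

set_option autoImplicit false

noncomputable section

open Finset

namespace Fermat.Agent.LubinTate

/-- The coefficients of a series and of its logarithmic derivative, with the coefficients of the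
latter prime to `p` prescribed. -/
def logDerivRec (p : ℕ) {k : Type*} [Field k] (b : ℕ → k) : ℕ → k × k
  | 0 => (1, 0)
  | n + 1 =>
    let r := ∑ i : Fin n, (logDerivRec p b (i + 1)).2 * (logDerivRec p b (n - i)).1
    if p ∣ n + 1 then (0, -r) else ((r + b (n + 1)) / ((n + 1 : ℕ) : k), b (n + 1))
termination_by n => n
decreasing_by all_goals omega

variable (p : ℕ) [hp : Fact p.Prime]

local notation "Λ" => PowerSeries ℤ_[p]
local notation "T₁" => (1 + PowerSeries.X : PowerSeries ℤ_[p])
local notation "Cp" => PowerSeries.C (p : ℤ_[p])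

/-- Logarithmic derivatives realise every coefficient prime to `p`. -/
theorem exists_derivative_eq (b : ℕ → ZMod p) : ∃ u s : PowerSeries (ZMod p),
    u.constantCoeff = 1 ∧ s.constantCoeff = 0 ∧
    PowerSeries.X * PowerSeries.derivative (ZMod p) u = s * u ∧
    ∀ n, ¬ p ∣ n → PowerSeries.coeff n s = b n := by
  set u := PowerSeries.mk fun n => (logDerivRec p b n).1 with hu
  set s := PowerSeries.mk fun n => (logDerivRec p b n).2 with hs
  refine ⟨u, s, ?_, ?_, ?_, ?_⟩
  · rw [← PowerSeries.coeff_zero_eq_constantCoeff_apply, hu, PowerSeries.coeff_mk, logDerivRec]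
  · rw [← PowerSeries.coeff_zero_eq_constantCoeff_apply, hs, PowerSeries.coeff_mk, logDerivRec]
  · refine PowerSeries.ext fun n => ?_
    rcases n with - | n
    · simp [hs, logDerivRec]
    rw [PowerSeries.coeff_succ_X_mul, PowerSeries.coeff_derivative, PowerSeries.coeff_mul,
      Finset.Nat.sum_antidiagonal_eq_sum_range_succ
        (fun i j => PowerSeries.coeff i s * PowerSeries.coeff j u), Finset.sum_range_succ,
      Finset.sum_range_succ']
    simp only [hu, hs, PowerSeries.coeff_mk, Nat.sub_self, Nat.succ_sub_succ]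
    rw [show (logDerivRec p b 0).1 = 1 by rw [logDerivRec],
      show (logDerivRec p b 0).2 = 0 by rw [logDerivRec], zero_mul, add_zero, mul_one,
      Finset.sum_range, show (logDerivRec p b (n + 1)) = _ from logDerivRec.eq_2 p b n]
    set r := ∑ i : Fin n, (logDerivRec p b (i + 1)).2 * (logDerivRec p b (n - i)).1
    split_ifs with h
    · simp
    · have h0 : ((n + 1 : ℕ) : ZMod p) ≠ 0 := fun h' => h ((ZMod.natCast_eq_zero_iff _ _).1 h')
      rw [← Nat.cast_add_one, div_mul_cancel₀ _ h0]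
  · intro n hn
    rcases n with - | n
    · exact absurd (dvd_zero p) hn
    rw [hs, PowerSeries.coeff_mk, logDerivRec.eq_2]
    simp [hn]

/-- The units fixed by the norm. -/
def normFixed : Subgroup Λˣ := MonoidHom.eqLocus (Units.map (normSeries p)) (MonoidHom.id _)

theorem mem_normFixed {g : Λˣ} : g ∈ normFixed p ↔ normSeries p (g : Λ) = g := Units.ext_iff

theorem eq_zero_of_forall_C_pow_dvd {x : Λ} (h : ∀ t : ℕ, Cp ^ t ∣ x) : x = 0 :=
  PowerSeries.ext fun n => by
    rw [map_zero]
    exact eq_zero_of_forall_pow_dvd PadicInt.irreducible_p fun t => (C_pow_dvd_iff _ t x).1 (h t) n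

/-- **Every unit is congruent to a fixed one.** -/
theorem exists_normFixed_sub_dvd (u : Λˣ) :
    ∃ g ∈ normFixed p, Cp ∣ (g : Λ) - u := by
  let x : ℕ → Λ := fun t => (⇑(normSeries p))^[t] u
  have hx : ∀ t, IsUnit (x t) := fun t => by
    induction t with
    | zero => exact u.isUnit
    | succ t ih => simp only [x, Function.iterate_succ_apply']; exact ih.map _
  have hstep : ∀ t, Cp ^ (t + 1) ∣ x (t + 1) - x t := fun t => by
    induction t with
    | zero => simpa [x] using C_dvd_normSeries_sub p (u : Λ)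
    | succ t ih =>
      simp only [x, Function.iterate_succ_apply'] at ih ⊢
      refine C_pow_dvd_normSeries_sub p (Nat.succ_pos t) (hx t) ?_
      simpa [x, Function.iterate_succ_apply'] using ih
  have hle : ∀ {m s}, m ≤ s → Cp ^ (m + 1) ∣ x s - x m := fun {m s} h => by
    induction s, h using Nat.le_induction with
    | base => simp
    | succ s hs ih =>
      rw [← sub_add_sub_cancel _ (x s)]
      exact dvd_add ((pow_dvd_pow _ (by omega)).trans (hstep s)) ih
  obtain ⟨l, hl⟩ := exists_limit PadicInt.irreducible_p x fun t n =>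
    (pow_dvd_pow _ (by omega)).trans ((C_pow_dvd_iff _ (t + 1) _).1 (hstep t) n)
  have hlim : ∀ t, Cp ^ (t + 1) ∣ l - x t := fun t => (C_pow_dvd_iff _ _ _).2 fun n => by
    rw [← sub_add_sub_cancel l (x (n + t + 1)) (x t), map_add]
    exact dvd_add ((pow_dvd_pow _ (by omega)).trans (hl (n + t + 1) n))
      ((C_pow_dvd_iff _ _ _).1 (hle (by omega)) n)
  have hlu : IsUnit l := by
    obtain ⟨c, hc⟩ := hlim 0
    rw [pow_one] at hc
    rw [PowerSeries.isUnit_iff_constantCoeff]
    have h0 := congrArg PowerSeries.constantCoeff hc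
    rw [map_sub, map_mul, PowerSeries.constantCoeff_C] at h0
    rw [show l.constantCoeff = (u : Λ).constantCoeff + (p : ℤ_[p]) * c.constantCoeff from
      eq_add_of_sub_eq' h0]
    refine IsLocalRing.notMem_maximalIdeal.1 fun hm => ?_
    have h1 := (Ideal.add_mem_iff_left _ (Ideal.mul_mem_right _ _ ?_)).1 hm
    · exact IsLocalRing.notMem_maximalIdeal.2 (PowerSeries.isUnit_iff_constantCoeff.1 u.isUnit) h1
    · rw [PadicInt.maximalIdeal_eq_span_p]
      exact Ideal.mem_span_singleton_self _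
  refine ⟨hlu.unit, (mem_normFixed p).2 ?_, ?_⟩
  · refine sub_eq_zero.1 (eq_zero_of_forall_C_pow_dvd p fun t => ?_)
    rw [IsUnit.unit_spec, show normSeries p l - l =
      (normSeries p l - normSeries p (x t)) - (l - x (t + 1)) by
        simp only [x, Function.iterate_succ_apply']; ring]
    exact (pow_dvd_pow _ (show t ≤ t + 1 by omega)).trans (dvd_sub
      ((pow_dvd_pow _ (by omega)).trans (C_pow_dvd_normSeries_sub p (Nat.succ_pos t) (hx t)
        (hlim t))) ((pow_dvd_pow _ (by omega)).trans (hlim (t + 1))))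
  · rw [IsUnit.unit_spec]
    simpa [x] using hlim 0

/-- `ψ ((1 + X) X ^ (p - 1)) = 1 + X`. -/
theorem colemanPsi_one_add_X_mul :
    colemanPsi p (T₁ * PowerSeries.X ^ (p - 1)) = T₁ := by
  rw [show (PowerSeries.X : Λ) = T₁ + -1 by ring, show (1 + (T₁ + -1) : Λ) = T₁ by ring, add_pow,
    Finset.mul_sum, map_sum, Finset.sum_range_succ, Finset.sum_eq_zero fun j hj => ?_, zero_add]
  · rw [Nat.sub_self, pow_zero, mul_one, Nat.choose_self, Nat.cast_one, mul_one, ← pow_succ',
      Nat.sub_add_cancel hp.out.pos, ← frobSubst_one_add_X, colemanPsi_frobSubst]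
  · rw [mem_range] at hj
    rw [show T₁ * (T₁ ^ j * (-1) ^ (p - 1 - j) * ((p - 1).choose j : Λ)) =
      PowerSeries.C ((-1) ^ (p - 1 - j) * ((p - 1).choose j : ℤ_[p])) * T₁ ^ (j + 1) by
        rw [map_mul, map_pow, map_neg, map_one, map_natCast]; ring, colemanPsi_C_mul,
      colemanPsi_one_add_X_pow p (show j + 1 < p by omega), if_neg (Nat.succ_ne_zero j), mul_zero]

theorem colemanPsi_C (r : ℤ_[p]) : colemanPsi p (PowerSeries.C r) = PowerSeries.C r := by
  simpa [colemanPsi_one] using colemanPsi_C_mul p r 1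

theorem logDeriv'_mul {a b : Λ} (ha : IsUnit a) (hb : IsUnit b) :
    logDeriv' p (a * b) = logDeriv' p a + logDeriv' p b := by
  refine (ha.mul hb).mul_left_inj.1 ?_
  rw [logDeriv'_mul_self p (ha.mul hb), amiceD_mul, ← logDeriv'_mul_self p ha,
    ← logDeriv'_mul_self p hb]
  ring

theorem logDeriv'_one : logDeriv' p (1 : Λ) = 0 := by
  rw [logDeriv', amiceD_one, zero_mul]

theorem logDeriv'_pow {a : Λ} (ha : IsUnit a) (n : ℕ) :
    logDeriv' p (a ^ n) = (n : Λ) * logDeriv' p a := by
  induction n with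
  | zero => rw [pow_zero, logDeriv'_one, Nat.cast_zero, zero_mul]
  | succ n ih => rw [pow_succ, logDeriv'_mul p (ha.pow n) ha, ih, Nat.cast_succ]; ring

theorem amiceD_C (r : ℤ_[p]) : amiceD (PowerSeries.C r) = 0 := by
  simp [amiceD]

theorem logDeriv'_C {r : ℤ_[p]} : logDeriv' p (PowerSeries.C r) = 0 := by
  rw [logDeriv', amiceD_C, zero_mul]

theorem colemanPsi_logDeriv_of_mem {g : Λˣ} (hg : g ∈ normFixed p) :
    colemanPsi p (logDeriv' p g) = logDeriv' p g := by
  rw [colemanPsi_logDeriv p g.isUnit, (mem_normFixed p).1 hg]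

/-- A series with vanishing derivative is constant. -/
theorem eq_C_of_logDeriv_eq_zero {q : Λ} (hq : IsUnit q) (h : logDeriv' p q = 0) :
    q = PowerSeries.C q.constantCoeff := by
  have h1 : amiceD q = 0 := by rw [← logDeriv'_mul_self p hq, h, zero_mul]
  have hT : IsUnit T₁ := by simp [PowerSeries.isUnit_iff_constantCoeff]
  have h2 : PowerSeries.derivative ℤ_[p] q = 0 := hT.mul_right_eq_zero.1 h1
  refine PowerSeries.ext fun n => ?_
  rw [PowerSeries.coeff_C]
  rcases n with - | n
  · simp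
  · have h3 := congrArg (PowerSeries.coeff n) h2
    rw [PowerSeries.coeff_derivative, map_zero, mul_eq_zero] at h3
    rw [if_neg (Nat.succ_ne_zero n)]
    exact h3.resolve_right (by exact_mod_cast Nat.succ_ne_zero n)

theorem normSeries_C (r : ℤ_[p]) :
    normSeries p (PowerSeries.C r) = PowerSeries.C (r ^ p) := by
  change (frobMatrix p _).det = _
  rw [← frobSubst_C p r, ← mul_one (frobSubst p (PowerSeries.C r)), frobMatrix_frobSubst_mul,
    frobMatrix_one, Matrix.det_smul, Matrix.det_one, mul_one, Fintype.card_fin, map_pow]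

/-- A root of order `p - 1` of an element congruent to one. -/
theorem exists_pow_sub_one_eq {c : ℤ_[p]} (hc : (p : ℤ_[p]) ∣ c - 1) :
    ∃ r : ℤ_[p], (p : ℤ_[p]) ∣ r - 1 ∧ r ^ (p - 1) = c := by
  have hc1 : ‖c - 1‖ < 1 := (PadicInt.norm_lt_one_iff_dvd _).2 hc
  set F : Polynomial ℤ_[p] := Polynomial.X ^ (p - 1) - Polynomial.C c with hF
  have hd : ‖F.derivative.aeval (1 : ℤ_[p])‖ = 1 := by
    simp only [hF, Polynomial.derivative_sub, Polynomial.derivative_X_pow, Polynomial.derivative_C,
      sub_zero, map_mul, Polynomial.aeval_C, map_pow, Polynomial.aeval_X, one_pow, mul_one,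
      Algebra.algebraMap_self, RingHom.id_apply, PadicInt.norm_natCast_eq_one_iff]
    rw [Nat.Prime.coprime_iff_not_dvd hp.out]
    exact Nat.not_dvd_of_pos_of_lt (Nat.sub_pos_of_lt hp.out.one_lt)
      (Nat.sub_lt hp.out.pos one_pos)
  have hF1 : ‖F.aeval (1 : ℤ_[p])‖ < 1 := by
    simpa [hF, norm_sub_rev (1 : ℤ_[p]) c] using hc1
  obtain ⟨r, hr, hr1, -, -⟩ := hensels_lemma (F := F) (a := (1 : ℤ_[p]))
    (by rwa [hd, one_pow])
  refine ⟨r, (PadicInt.norm_lt_one_iff_dvd _).1 (by rwa [hd] at hr1), ?_⟩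
  simpa [hF, sub_eq_zero] using hr

/-- **Adjusting by a constant.** -/
theorem exists_C_mul_mem_normFixed {g : Λˣ}
    (hg : colemanPsi p (logDeriv' p g) = logDeriv' p g) :
    ∃ r : ℤ_[p]ˣ, (p : ℤ_[p]) ∣ (r : ℤ_[p]) - 1 ∧
      Units.map PowerSeries.C.toMonoidHom r * g ∈ normFixed p := by
  set q : Λˣ := Units.map (normSeries p) g * g⁻¹ with hqdef
  have hNg : normSeries p (g : Λ) = (q : Λ) * g := by
    rw [hqdef, Units.val_mul, Units.inv_mul_cancel_right, Units.coe_map]
  have hq : logDeriv' p (q : Λ) = 0 := by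
    have h := logDeriv'_mul p q.isUnit g.isUnit
    rw [← hNg, ← colemanPsi_logDeriv p g.isUnit, hg] at h
    exact add_eq_right.1 h.symm
  set c := (q : Λ).constantCoeff
  have hqc : (q : Λ) = PowerSeries.C c := eq_C_of_logDeriv_eq_zero p q.isUnit hq
  have hcu : IsUnit c := PowerSeries.isUnit_iff_constantCoeff.1 q.isUnit
  have hc1 : (p : ℤ_[p]) ∣ c - 1 := by
    obtain ⟨d, hd⟩ := C_dvd_normSeries_sub p (g : Λ)
    have h0 := congrArg PowerSeries.constantCoeff hd
    rw [hNg, map_sub, map_mul, map_mul, PowerSeries.constantCoeff_C] at h0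
    refine (IsUnit.dvd_mul_right (PowerSeries.isUnit_iff_constantCoeff.1 g.isUnit)).1
      ⟨d.constantCoeff, ?_⟩
    rw [← h0]
    ring
  obtain ⟨c', hc'⟩ := hcu.exists_right_inv
  obtain ⟨r, hr1, hr⟩ := exists_pow_sub_one_eq p (c := c') (by
    have : c' - 1 = -(c' * (c - 1)) := by linear_combination hc'
    rw [this]
    exact (hc1.mul_left _).neg_right)
  have hru : IsUnit r := isUnit_of_dvd_one ⟨r ^ (p - 1 - 1) * c, by
    rw [← mul_assoc, ← pow_succ', Nat.sub_add_cancel (Nat.sub_pos_of_lt hp.out.one_lt), hr,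
      mul_comm, hc']⟩
  refine ⟨hru.unit, hr1, (mem_normFixed p).2 ?_⟩
  have hrp : r ^ p * c = r := by
    calc r ^ p * c = r ^ (p - 1 + 1) * c := by rw [Nat.sub_add_cancel hp.out.pos]
      _ = r := by rw [pow_succ', hr, mul_assoc, mul_comm c', hc', mul_one]
  rw [Units.val_mul, map_mul, hNg, hqc, Units.coe_map, RingHom.toMonoidHom_eq_coe,
    MonoidHom.coe_coe, IsUnit.unit_spec, normSeries_C, ← mul_assoc, ← map_mul, hrp]

/-- **Modulo `p`.** -/
theorem exists_logDeriv_sub_dvd {h : Λ} (hh : colemanPsi p h = h) :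
    ∃ g ∈ normFixed p, (p : ℤ_[p]) ∣ (g : Λ).constantCoeff - 1 ∧
      Cp ∣ h - logDeriv' p g := by
  set ρ := PowerSeries.map (PadicInt.toZMod (p := p)) with hρ
  have hρX : ρ PowerSeries.X = PowerSeries.X := PowerSeries.map_X _
  have hsurjk : Function.Surjective (PadicInt.toZMod (p := p)) := ZMod.ringHom_surjective _
  have hρsurj : Function.Surjective ρ := PowerSeries.map_surjective _ hsurjk
  obtain ⟨T', hT'⟩ : ∃ T' : PowerSeries (ZMod p), (1 + PowerSeries.X) * T' = 1 :=
    IsUnit.exists_right_inv (by simp [PowerSeries.isUnit_iff_constantCoeff])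
  set β := PowerSeries.X * ρ h * T' with hβ
  obtain ⟨u, s, hu0, hs0, hus, hsb⟩ := exists_derivative_eq p fun n => PowerSeries.coeff n β
  obtain ⟨U, hU⟩ := hρsurj u
  have hU0 : (p : ℤ_[p]) ∣ U.constantCoeff - 1 := by
    rw [← Ideal.mem_span_singleton, ← PadicInt.maximalIdeal_eq_span_p, ← PadicInt.ker_toZMod,
      RingHom.mem_ker, map_sub, map_one, ← PowerSeries.coeff_zero_eq_constantCoeff_apply,
      ← PowerSeries.coeff_map, PowerSeries.coeff_zero_eq_constantCoeff_apply, ← hρ, hU, hu0,
      sub_self]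
  have hUu : IsUnit U := by
    rw [PowerSeries.isUnit_iff_constantCoeff, ← sub_add_cancel U.constantCoeff 1]
    refine IsLocalRing.notMem_maximalIdeal.1 fun hm => ?_
    rw [PadicInt.maximalIdeal_eq_span_p, Ideal.mem_span_singleton, dvd_add_right hU0] at hm
    exact PadicInt.prime_p.not_dvd_one hm
  obtain ⟨g, hg, hgU⟩ := exists_normFixed_sub_dvd p hUu.unit
  rw [IsUnit.unit_spec] at hgU
  have hgρ : ρ (g : Λ) = u := by
    rw [← hU, ← sub_eq_zero, ← map_sub, ← dvd_iff_map_toZMod]
    exact hgU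
  refine ⟨g, hg, ?_, ?_⟩
  · obtain ⟨d, hd⟩ := hgU
    have h0 := congrArg PowerSeries.constantCoeff hd
    rw [map_sub, map_mul, PowerSeries.constantCoeff_C] at h0
    rw [show (g : Λ).constantCoeff - 1 = (p : ℤ_[p]) * d.constantCoeff + (U.constantCoeff - 1) by
      rw [← h0]; ring]
    exact dvd_add (dvd_mul_right _ _) hU0
  set d := h - logDeriv' p g with hd
  have hψd : colemanPsi p d = d := by
    rw [hd, map_sub, hh, colemanPsi_logDeriv_of_mem p hg]
  have hTd : PowerSeries.X * ρ d = (1 + PowerSeries.X) * (β - s) := by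
    have hl : ρ (logDeriv' p g) * u = (1 + PowerSeries.X) * PowerSeries.derivative (ZMod p) u := by
      rw [← hgρ, ← map_mul, logDeriv'_mul_self p g.isUnit, hρ, map_amiceD]
      rfl
    refine (IsUnit.mul_left_inj (a := u) (by simp [PowerSeries.isUnit_iff_constantCoeff, hu0])).1 ?_
    rw [hd, map_sub, hβ]
    linear_combination (-PowerSeries.X) * hl - (1 + PowerSeries.X) * hus -
      PowerSeries.X * ρ h * u * hT'
  -- the defect is an expansion
  obtain ⟨c, hc⟩ : ∃ c : Λ, β - s = PowerSeries.expand p hp.out.ne_zero (ρ c) := by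
    obtain ⟨c, hc⟩ := hρsurj (PowerSeries.mk fun m => PowerSeries.coeff (p * m) (β - s))
    refine ⟨c, PowerSeries.ext fun n => ?_⟩
    rw [hc, PowerSeries.coeff_expand]
    split_ifs with hn
    · rw [PowerSeries.coeff_mk, Nat.mul_div_cancel' hn]
    · rw [map_sub, hsb n hn, sub_self]
  have hc0 : PowerSeries.constantCoeff (ρ c) = 0 := by
    rw [← PowerSeries.constantCoeff_expand p hp.out.ne_zero, ← hc, map_sub, hs0, sub_zero, hβ,
      map_mul, map_mul, PowerSeries.constantCoeff_X, zero_mul, zero_mul]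
  -- apply `ψ`
  obtain ⟨e, he⟩ : Cp ∣ frobSubst p PowerSeries.X * d -
      frobSubst p c * (T₁ * PowerSeries.X ^ (p - 1)) := by
    rw [dvd_iff_map_toZMod, ← hρ, map_sub, map_mul, map_mul, map_mul, map_pow, hρX,
      map_add, map_one, hρX, hρ, map_toZMod_frobSubst, map_toZMod_frobSubst, PowerSeries.map_X,
      PowerSeries.expand_X, ← hρ, ← hc]
    have hpow : (PowerSeries.X : PowerSeries (ZMod p)) ^ p =
        PowerSeries.X ^ (p - 1) * PowerSeries.X := by
      rw [← pow_succ, Nat.sub_add_cancel hp.out.pos]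
    rw [hpow]
    linear_combination (PowerSeries.X : PowerSeries (ZMod p)) ^ (p - 1) * hTd
  have hψ := congrArg (fun y => ρ (colemanPsi p y)) he
  simp only [map_sub, colemanPsi_frobSubst_mul, colemanPsi_C_mul, hψd, colemanPsi_one_add_X_mul,
    map_mul, hρX, map_add, map_one] at hψ
  rw [show ρ Cp = 0 by rw [hρ, PowerSeries.map_C, map_natCast, ZMod.natCast_self, map_zero],
    zero_mul, sub_eq_zero, hTd, hc] at hψ
  have hcc : PowerSeries.expand p hp.out.ne_zero (ρ c) = ρ c := by
    refine (IsUnit.mul_right_inj (a := (1 + PowerSeries.X : PowerSeries (ZMod p)))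
      (by simp [PowerSeries.isUnit_iff_constantCoeff])).1 ?_
    rw [hψ]
    ring
  have hczero : ρ c = 0 := by
    refine PowerSeries.ext fun n => ?_
    rw [map_zero]
    induction n using Nat.strong_induction_on with
    | _ n ih =>
      rcases Nat.eq_zero_or_pos n with rfl | hn
      · rwa [PowerSeries.coeff_zero_eq_constantCoeff_apply]
      · rw [← hcc, PowerSeries.coeff_expand]
        split_ifs with hd'
        · exact ih _ (Nat.div_lt_self hn hp.out.one_lt)
        · rfl
  rw [hc, hczero, map_zero, mul_zero, mul_eq_zero] at hTd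
  exact (dvd_iff_map_toZMod p d).2 (hTd.resolve_left PowerSeries.X_ne_zero)

theorem pow_prime_pow_sub_one_mem {g : Λ} (hg : (p : ℤ_[p]) ∣ g.constantCoeff - 1) (t : ℕ) :
    g ^ p ^ t - 1 ∈ closeIdeal (p : ℤ_[p]) (t + 1) := by
  have hC : Cp ∈ closeIdeal (p : ℤ_[p]) 1 := fun n => by
    rw [PowerSeries.coeff_C]
    split_ifs with h
    · subst h; simp
    · exact dvd_zero _
  induction t with
  | zero =>
    intro n
    rcases n with - | n
    · simpa using hg
    · simp
  | succ t ih =>
    rw [pow_succ, pow_mul, ← geom_sum_mul, mul_comm]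
    refine mul_mem_closeIdeal ih ?_
    have hy : ∀ i : ℕ, (g ^ p ^ t) ^ i - 1 ∈ closeIdeal (p : ℤ_[p]) 1 := fun i => by
      rw [← geom_sum_mul]
      exact Ideal.mul_mem_left _ _ (closeIdeal_antitone (Nat.succ_pos t) ih)
    rw [show ∑ i ∈ range p, (g ^ p ^ t) ^ i =
      ∑ i ∈ range p, ((g ^ p ^ t) ^ i - 1) + Cp by
        rw [Finset.sum_sub_distrib, Finset.sum_const, Finset.card_range, nsmul_one, map_natCast,
          sub_add_cancel]]
    exact add_mem (sum_mem fun i _ => hy i) hC

theorem amiceD_mem_closeIdeal {t : ℕ} {x : Λ} (hx : x ∈ closeIdeal (p : ℤ_[p]) (t + 1)) :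
    amiceD x ∈ closeIdeal (p : ℤ_[p]) t := fun n => by
  rw [coeff_amiceD]
  exact dvd_add ((((pow_dvd_pow _ (by omega)).trans (hx (n + 1)))).mul_left _)
    ((((pow_dvd_pow _ (by omega)).trans (hx n))).mul_left _)

/-- **The logarithmic derivative is onto the series fixed by `ψ`.** -/
theorem exists_logDeriv_eq {h : Λ} (hh : colemanPsi p h = h) :
    ∃ g ∈ normFixed p, logDeriv' p g = h := by
  have hp0 : Cp ≠ 0 := fun h0 => hp.out.ne_zero (by
    exact_mod_cast PowerSeries.C_injective (h0.trans (map_zero PowerSeries.C).symm))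
  let S := {x : Λ // colemanPsi p x = x}
  have hnext : ∀ x : S, ∃ (g : Λˣ) (y : S), g ∈ normFixed p ∧
      (p : ℤ_[p]) ∣ (g : Λ).constantCoeff - 1 ∧ x.1 = logDeriv' p g + Cp * y.1 := by
    intro x
    obtain ⟨g, hg, hg1, y, hy⟩ := exists_logDeriv_sub_dvd p x.2
    have hψy : colemanPsi p y = y := by
      refine mul_left_cancel₀ hp0 ?_
      rw [← colemanPsi_C_mul, ← hy, map_sub, x.2, colemanPsi_logDeriv_of_mem p hg]
    exact ⟨g, ⟨y, hψy⟩, hg, hg1, by rw [← hy, add_sub_cancel]⟩
  choose G Y hG hG1 hGY using hnext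
  let s : ℕ → S := fun n => Y^[n] ⟨h, hh⟩
  let P : ℕ → Λˣ := fun t => ∏ n ∈ range t, G (s n) ^ p ^ n
  have hlog : ∀ t, logDeriv' p (P t : Λ) = h - Cp ^ t * (s t).1 := by
    intro t
    induction t with
    | zero => simp [P, s, logDeriv'_one]
    | succ t ih =>
      rw [show P (t + 1) = P t * G (s t) ^ p ^ t from Finset.prod_range_succ _ t, Units.val_mul,
        logDeriv'_mul p (Units.isUnit _) (Units.isUnit _), ih, Units.val_pow_eq_pow_val,
        logDeriv'_pow p (Units.isUnit _), Nat.cast_pow, ← map_natCast PowerSeries.C, pow_succ]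
      rw [show (s (t + 1)) = Y (s t) from Function.iterate_succ_apply' _ _ _]
      linear_combination (-(Cp ^ t)) * hGY (s t)
  have hdiff : ∀ t, (P (t + 1) : Λ) - P t ∈ closeIdeal (p : ℤ_[p]) (t + 1) := fun t => by
    rw [show P (t + 1) = P t * G (s t) ^ p ^ t from Finset.prod_range_succ _ t, Units.val_mul,
      Units.val_pow_eq_pow_val, ← mul_sub_one]
    exact Ideal.mul_mem_left _ _ (pow_prime_pow_sub_one_mem p (hG1 _) t)
  obtain ⟨l, hl⟩ := exists_limit PadicInt.irreducible_p (fun t => (P t : Λ))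
    fun t => closeIdeal_antitone (Nat.le_succ t) (hdiff t)
  have hD : amiceD l = h * l := by
    refine eq_of_forall_sub_mem PadicInt.irreducible_p fun t => ?_
    have hP : amiceD (P (t + 1) : Λ) = (h - Cp ^ (t + 1) * (s (t + 1)).1) * P (t + 1) := by
      rw [← hlog, logDeriv'_mul_self p (Units.isUnit _)]
    rw [show amiceD l - h * l = amiceD (l - (P (t + 1) : Λ)) - (h * (l - (P (t + 1) : Λ)) +
      Cp ^ (t + 1) * (s (t + 1)).1 * P (t + 1)) by rw [amiceD_sub, hP]; ring]
    refine sub_mem (amiceD_mem_closeIdeal p (hl (t + 1))) (add_mem (Ideal.mul_mem_left _ _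
      (closeIdeal_antitone (Nat.le_succ t) (hl (t + 1)))) (Ideal.mul_mem_right _ _
        (Ideal.mul_mem_right _ _ fun n => ?_)))
    rw [← map_pow, PowerSeries.coeff_C]
    split_ifs with hn
    · exact pow_dvd_pow _ (by omega)
    · exact dvd_zero _
  have hlu : IsUnit l := by
    rw [PowerSeries.isUnit_iff_constantCoeff]
    refine IsLocalRing.notMem_maximalIdeal.1 fun hm => ?_
    rw [PadicInt.maximalIdeal_eq_span_p, Ideal.mem_span_singleton] at hm
    have h1 := hl 1 0
    rw [Nat.sub_zero, pow_one, PowerSeries.coeff_zero_eq_constantCoeff_apply, map_sub,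
      dvd_sub_right hm, ← Ideal.mem_span_singleton, ← PadicInt.maximalIdeal_eq_span_p] at h1
    exact IsLocalRing.notMem_maximalIdeal.2
      (PowerSeries.isUnit_iff_constantCoeff.1 (P 1).isUnit) h1
  have hlh : logDeriv' p l = h := by
    rw [logDeriv', hD, Ring.mul_inverse_cancel_right _ _ hlu]
  obtain ⟨r, -, hr⟩ := exists_C_mul_mem_normFixed p (g := hlu.unit) (by
    rw [IsUnit.unit_spec, hlh, hh])
  refine ⟨_, hr, ?_⟩
  rw [Units.val_mul, logDeriv'_mul p (Units.isUnit _) (Units.isUnit _), IsUnit.unit_spec, hlh,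
    Units.coe_map, RingHom.toMonoidHom_eq_coe, MonoidHom.coe_coe, logDeriv'_C, zero_add]

/-- **The kernel.** -/
theorem logDeriv_eq_zero_iff {g : Λˣ} (hg : g ∈ normFixed p) :
    logDeriv' p g = 0 ↔ ∃ c : ℤ_[p], c ^ (p - 1) = 1 ∧ (g : Λ) = PowerSeries.C c := by
  refine ⟨fun h => ?_, fun ⟨c, _, hgc⟩ => by rw [hgc, logDeriv'_C]⟩
  have hgc := eq_C_of_logDeriv_eq_zero p g.isUnit h
  set c := (g : Λ).constantCoeff
  refine ⟨c, ?_, hgc⟩
  have hN := (mem_normFixed p).1 hg
  rw [hgc, normSeries_C] at hN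
  have hcu : IsUnit c := PowerSeries.isUnit_iff_constantCoeff.1 g.isUnit
  refine hcu.mul_right_inj.1 ?_
  rw [← pow_succ', Nat.sub_add_cancel hp.out.pos, mul_one]
  exact PowerSeries.C_injective hN

end Fermat.Agent.LubinTate
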