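import Fermat.Agent.LubinTate.Coleman.TraceNorm
import Fermat.Agent.LubinTate.Coleman.Cyclotomic
import Mathlib.RingTheory.Norm.Transitivity

/-!
# The norm operator in the coordinate of the multiplicative group

The coordinate carries `normSeries` to the norm operator of Coleman of the group of `p X + X ^ p`:
both have the relative norms as values at the torsion points.
-/

set_option autoImplicit false

noncomputable section

open IsLocalRing IntermediateField

namespace Fermat.Agent.LubinTate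

variable (p : ℕ) [hp : Fact p.Prime]

local notation "Λ" => PowerSeries ℤ_[p]
local notation "T₁" => (1 + PowerSeries.X : PowerSeries ℤ_[p])

/-- The inverse substitution. -/
def cycloSubstInv : Λ →ₐ[ℤ_[p]] Λ := PowerSeries.substAlgHom (hasSubst_cycloCoordInv p)

theorem cycloSubstInv_cycloSubst (x : Λ) : cycloSubstInv p (cycloSubst p x) = x := by
  rw [cycloSubstInv, PowerSeries.coe_substAlgHom, cycloSubst_apply,
    PowerSeries.subst_comp_subst_apply (hasSubst_cycloCoord p) (hasSubst_cycloCoordInv p),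
    subst_cycloCoordInv_cycloCoord, PowerSeries.X_subst]

theorem cycloSubst_surjective : Function.Surjective (cycloSubst p) := fun y => by
  refine ⟨cycloSubstInv p y, ?_⟩
  have h : PowerSeries.subst (cycloCoord p) (cycloCoordInv p) = PowerSeries.X := by
    rw [cycloCoord, cycloCoordInv, ← scalarHom_mul, mul_one, scalarHom_one]
  rw [cycloSubst_apply, cycloSubstInv, PowerSeries.coe_substAlgHom,
    PowerSeries.subst_comp_subst_apply (hasSubst_cycloCoordInv p) (hasSubst_cycloCoord p), h,
    PowerSeries.X_subst]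

theorem C_pow_dvd_cycloSubst_iff (i : ℕ) (x : Λ) :
    PowerSeries.C (p : ℤ_[p]) ^ i ∣ cycloSubst p x ↔ PowerSeries.C (p : ℤ_[p]) ^ i ∣ x := by
  have hC : ∀ f : Λ →ₐ[ℤ_[p]] Λ,
      f (PowerSeries.C (p : ℤ_[p]) ^ i) = PowerSeries.C (p : ℤ_[p]) ^ i := fun f => by
    rw [map_pow, PowerSeries.C_eq_algebraMap, AlgHom.commutes]
  constructor
  · intro h
    have h' := map_dvd (cycloSubstInv p) h
    rwa [hC, cycloSubstInv_cycloSubst] at h'
  · intro h
    have h' := map_dvd (cycloSubst p) h
    rwa [hC] at h'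

theorem cycloSubst_frobSubst (x : Λ) :
    cycloSubst p (frobSubst p x) =
      PowerSeries.subst (basicPoly (p : ℤ_[p]) p : PowerSeries ℤ_[p]) (cycloSubst p x) := by
  have hb : PowerSeries.HasSubst (basicPoly (p : ℤ_[p]) p : PowerSeries ℤ_[p]) :=
    PowerSeries.HasSubst.of_constantCoeff_zero (isLTSeries_basicPadic p).constantCoeff_eq
  rw [cycloSubst_apply, frobSubst_apply, cycloSubst_apply,
    PowerSeries.subst_comp_subst_apply (hasSubst_multiplicativeSeries p) (hasSubst_cycloCoord p),
    PowerSeries.subst_comp_subst_apply (hasSubst_cycloCoord p) hb,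
    ← cycloSubst_multiplicativeSeries p, ← cycloSubst_apply, multiplicativeSeries, map_sub,
    map_pow, map_add, map_one, cycloSubst, PowerSeries.substAlgHom_X]

variable {p} {Ω : Type*} [Field Ω] [Algebra ℚ_[p] Ω] [Algebra ℤ_[p] Ω]
  [IsScalarTower ℤ_[p] ℚ_[p] Ω] {lam : ℕ → Ω} (hlam : IsTorsionTower (p : ℤ_[p]) lam)

/-- **The relative norm of a value is the value of `normSeries`.** -/
theorem levNorm_evalLev_cycloSubst (k : ℕ) (g : Λ) :
    levNorm hlam k (evalLev (K := ℚ_[p]) PadicInt.irreducible_p hlam (k + 1) (cycloSubst p g)) =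
      evalLev (K := ℚ_[p]) PadicInt.irreducible_p hlam k (cycloSubst p (normSeries p g)) := by
  classical
  have hπ : Irreducible (p : ℤ_[p]) := PadicInt.irreducible_p
  let := (inclusion (lev_le (K := ℚ_[p]) hlam k)).toRingHom.toAlgebra
  have : IsScalarTower ℚ_[p] (lev ℚ_[p] lam k) (lev ℚ_[p] lam (k + 1)) :=
    IsScalarTower.of_algebraMap_eq fun x => rfl
  have hgk := isTorsionGenerator_levGen (K := ℚ_[p]) hπ hlam k
  have hgk1 := isTorsionGenerator_levGen (K := ℚ_[p]) hπ hlam (k + 1)
  have := finiteDimensional hπ k hgk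
  have := finiteDimensional hπ (k + 1) hgk1
  have := Module.Finite.of_restrictScalars_finite ℚ_[p] (lev ℚ_[p] lam k) (lev ℚ_[p] lam (k + 1))
  have hfin : Module.finrank (lev ℚ_[p] lam k) (lev ℚ_[p] lam (k + 1)) = p := by
    have h := Module.finrank_mul_finrank ℚ_[p] (lev ℚ_[p] lam k) (lev ℚ_[p] lam (k + 1))
    rw [finrank_eq hπ k hgk, finrank_eq hπ (k + 1) hgk1, show torsionDegree ℤ_[p] (k + 1) =
      torsionDegree ℤ_[p] k * p by simp only [torsionDegree, residueCard_padicInt, pow_succ]; ring]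
      at h
    exact mul_left_cancel₀ (torsionDegree_pos hπ k).ne' h
  let E : Λ →ₐ[ℤ_[p]] lev ℚ_[p] lam (k + 1) :=
    (evalLev (K := ℚ_[p]) hπ hlam (k + 1)).comp (cycloSubst p)
  let E₀ : Λ →ₐ[ℤ_[p]] lev ℚ_[p] lam k :=
    (evalLev (K := ℚ_[p]) hπ hlam k).comp (cycloSubst p)
  have hφ : ∀ x, E (frobSubst p x) = algebraMap _ _ (E₀ x) := fun x => Subtype.ext (by
    change torsionValue hlam (k + 1) (cycloSubst p (frobSubst p x)) =
      torsionValue hlam k (cycloSubst p x)
    rw [cycloSubst_frobSubst, torsionValue_succ_subst])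
  set ω := E T₁ with hω
  have hωval : (ω : Ω) = cycloZeta hlam (k + 1) := by
    change torsionValue hlam (k + 1) (cycloSubst p T₁) = _
    rw [map_add, map_one, cycloSubst, PowerSeries.substAlgHom_X, map_add, map_one, cycloZeta]
  have hint : IsIntegral (lev ℚ_[p] lam k) ω := Algebra.IsIntegral.isIntegral _
  have htop : Algebra.adjoin (lev ℚ_[p] lam k) {ω} = ⊤ := by
    rw [eq_top_iff]
    intro x _
    have hgen : lev ℚ_[p] lam (k + 1) = ℚ_[p]⟮(ω : Ω)⟯ := by
      rw [hωval]
      conv_lhs => rw [lev_eq_adjoin hlam (Nat.Prime.not_dvd_one hp.out) (k + 1), pow_one]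
    have hx : (x : Ω) ∈ ℚ_[p]⟮(ω : Ω)⟯ := hgen.le x.2
    have hωint : IsIntegral ℚ_[p] (ω : Ω) :=
      (Algebra.IsIntegral.isIntegral (R := ℚ_[p]) ω).map (lev ℚ_[p] lam (k + 1)).val
    rw [← IntermediateField.mem_toSubalgebra,
      adjoin_simple_toSubalgebra_of_isAlgebraic hωint.isAlgebraic,
      Algebra.adjoin_singleton_eq_range_aeval] at hx
    obtain ⟨r, hr⟩ := hx
    have hxr : x = Polynomial.aeval ω r := Subtype.ext
      (hr.symm.trans (Polynomial.aeval_algHom_apply (lev ℚ_[p] lam (k + 1)).val ω r))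
    rw [hxr, ← Polynomial.aeval_map_algebraMap (lev ℚ_[p] lam k)]
    exact Polynomial.aeval_mem_adjoin_singleton _ _
  set pb := (Algebra.adjoin.powerBasis hint).map
    ((Subalgebra.equivOfEq _ _ htop).trans Subalgebra.topEquiv)
  have hdim : pb.dim = p := pb.finrank ▸ hfin
  set b := pb.basis.reindex (finCongr hdim)
  have hb : ∀ i : Fin p, b i = E (T₁ ^ (i : ℕ)) := fun i => by
    rw [Module.Basis.reindex_apply, PowerBasis.basis_eq_pow, map_pow, ← hω]
    rfl
  change Algebra.norm (lev ℚ_[p] lam k) (E g) = E₀ (frobMatrix p g).det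
  rw [Algebra.norm_eq_matrix_det b, AlgHom.map_det]
  congr 1
  refine Matrix.ext fun i j => ?_
  rw [Algebra.leftMulMatrix_eq_repr_mul, AlgHom.mapMatrix_apply, Matrix.map_apply, hb, ← map_mul,
    ← frobExpand_frobCoord p (g * _), frobExpand, map_sum]
  simp only [map_mul, hφ, ← frobMatrix_apply, ← hb, ← Algebra.smul_def, map_sum, map_smul,
    Module.Basis.repr_self, Finsupp.coe_finsetSum, Finset.sum_apply, Finsupp.smul_apply,
    smul_eq_mul, Finsupp.single_apply, mul_ite, mul_one, mul_zero, Finset.sum_ite_eq',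
    Finset.mem_univ, if_true]

variable (p)

/-- The coordinate carries one norm operator to the other. -/
theorem colemanNorm_cycloSubst (g : Λ) :
    colemanNorm (π := (p : ℤ_[p])) PadicInt.irreducible_p (cycloSubst p g) =
      cycloSubst p (normSeries p g) := by
  have : FaithfulSMul ℤ_[p] (AlgebraicClosure ℚ_[p]) := by
    rw [faithfulSMul_iff_algebraMap_injective,
      IsScalarTower.algebraMap_eq ℤ_[p] ℚ_[p] (AlgebraicClosure ℚ_[p])]
    exact (algebraMap ℚ_[p] _).injective.comp (IsFractionRing.injective ℤ_[p] ℚ_[p])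
  obtain ⟨lam, hlam⟩ := exists_torsionTower (Ω := AlgebraicClosure ℚ_[p])
    (PadicInt.irreducible_p (p := p))
  refine evalLev_injective (K := ℚ_[p]) PadicInt.irreducible_p hlam fun k => ?_
  rw [← levNorm_evalLev (K := ℚ_[p]) PadicInt.irreducible_p hlam, levNorm_evalLev_cycloSubst]

theorem C_dvd_normSeries_sub (g : Λ) : PowerSeries.C (p : ℤ_[p]) ∣ normSeries p g - g := by
  rw [← pow_one (PowerSeries.C (p : ℤ_[p])), ← C_pow_dvd_cycloSubst_iff, map_sub,
    ← colemanNorm_cycloSubst, pow_one]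
  exact dvd_colemanNorm_sub_self _ _

/-- The operator contracts congruences of units. -/
theorem C_pow_dvd_normSeries_sub {i : ℕ} (hi : 1 ≤ i) {a b : Λ} (hb : IsUnit b)
    (h : PowerSeries.C (p : ℤ_[p]) ^ i ∣ a - b) :
    PowerSeries.C (p : ℤ_[p]) ^ (i + 1) ∣ normSeries p a - normSeries p b := by
  rw [← C_pow_dvd_cycloSubst_iff, map_sub, ← colemanNorm_cycloSubst, ← colemanNorm_cycloSubst]
  refine dvd_colemanNorm_sub _ hi (hb.map _) ?_
  rwa [← map_sub, C_pow_dvd_cycloSubst_iff]

theorem normSeries_eq_self_iff (g : Λ) :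
    normSeries p g = g ↔
      colemanNorm (π := (p : ℤ_[p])) PadicInt.irreducible_p (cycloSubst p g) = cycloSubst p g := by
  rw [colemanNorm_cycloSubst]
  exact (cycloSubst_injective p).eq_iff.symm

end Fermat.Agent.LubinTate
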