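import Fermat.Agent.LubinTate.Coleman.Closeness

/-!
# The norm operator of Coleman on power series

`colemanNorm` extends `normPoly` to series by continuity. It is multiplicative, it is the identity
modulo `π`, and it turns congruences to one modulo `π ^ i` into congruences modulo `π ^ (i + 1)`,
so its iterates at a unit converge.
-/

set_option autoImplicit false

noncomputable section

open Polynomial IsLocalRing

namespace Fermat.Agent.LubinTate

variable {O : Type*} [CommRing O] {π : O} {q : ℕ}

/-- Coefficients of a member of `(π ^ i, g j)` are divisible by `π ^ i` when `j` is large. -/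
theorem dvd_coeff_of_mem_levelSeries (hq : 2 ≤ q) {i j n : ℕ} (h : n + i ≤ j) {x : PowerSeries O}
    (hx : x ∈ levelSeries π q i j) : π ^ i ∣ PowerSeries.coeff n x := by
  obtain ⟨a, b, rfl⟩ := Ideal.mem_span_pair.1 hx
  rw [map_add]
  refine dvd_add ?_ ?_
  · rw [mul_comm, ← map_pow, PowerSeries.coeff_C_mul]
    exact dvd_mul_right _ _
  · exact (pow_dvd_pow π (by omega)).trans
      (Ideal.mul_mem_left (closeIdeal π j) b (iterPoly_mem_closeIdeal hq j) n)

/-- Divisibility by a power of `π`, coefficient by coefficient. -/
theorem C_pow_dvd_iff (π : O) (i : ℕ) (x : PowerSeries O) :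
    PowerSeries.C π ^ i ∣ x ↔ ∀ n, π ^ i ∣ PowerSeries.coeff n x := by
  rw [← map_pow]
  constructor
  · rintro ⟨c, rfl⟩ n
    rw [PowerSeries.coeff_C_mul]
    exact dvd_mul_right _ _
  · intro h
    choose c hc using h
    exact ⟨PowerSeries.mk c, PowerSeries.ext fun n => by
      rw [PowerSeries.coeff_C_mul, PowerSeries.coeff_mk, hc]⟩

/-- The precision needed at step `t`. -/
def colemanStep (q t : ℕ) : ℕ := t + q ^ (t + 1) * t

/-- The `t`th approximation to the norm of a series. -/
def colemanApprox [IsLocalRing O] (π : O) (h : PowerSeries O) (t : ℕ) : PowerSeries O :=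
  (normPoly π (residueCard O) (PowerSeries.trunc (colemanStep (residueCard O) t) h) : O[X])

variable [IsDomain O] [IsDiscreteValuationRing O] [Finite (ResidueField O)]
  [IsAdicComplete (maximalIdeal O) O] (hπ : Irreducible π)
include hπ

omit [IsAdicComplete (maximalIdeal O) O] in
theorem colemanApprox_sub_mem (h : PowerSeries O) (t : ℕ) :
    colemanApprox π h (t + 1) - colemanApprox π h t ∈ closeIdeal π t := by
  rw [colemanApprox, colemanApprox]
  have hq := (isLubinTateBase hπ).two_le
  have hM : colemanStep (residueCard O) t ≤ colemanStep (residueCard O) (t + 1) :=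
    add_le_add (Nat.le_succ t) (Nat.mul_le_mul (Nat.pow_le_pow_right (by omega) (Nat.le_succ _))
      (Nat.le_succ t))
  refine closeIdeal_antitone (le_min le_rfl le_rfl) (levelSeries_le_closeIdeal hq t t ?_)
  rw [← Polynomial.coe_sub]
  refine coe_mem_levelSeries (normPoly_level_sub_mem hπ t t (mem_levelSpan_of_coe hq ?_))
  refine closeIdeal_le_levelSeries hq t (t + 1) ?_
  rw [Polynomial.coe_sub, ← sub_sub_sub_cancel_left _ _ h]
  exact sub_mem (sub_trunc_mem _ h) (closeIdeal_antitone hM (sub_trunc_mem _ h))

/-- The extension of the norm operator, as a function. -/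
def colemanFun (h : PowerSeries O) : PowerSeries O :=
  (exists_limit hπ (colemanApprox π h) (colemanApprox_sub_mem hπ h)).choose

/-- It agrees with `normPoly` on nearby polynomials. -/
theorem colemanFun_sub_mem {h : PowerSeries O} {p : O[X]} {i j : ℕ}
    (hp : h - (p : PowerSeries O) ∈ levelSeries π (residueCard O) i (j + 1)) :
    colemanFun hπ h - (normPoly π (residueCard O) p : PowerSeries O) ∈
      levelSeries π (residueCard O) i j := by
  have hq := (isLubinTateBase hπ).two_le
  set t := i + residueCard O ^ j * i + j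
  have hlim := (exists_limit hπ (colemanApprox π h) (colemanApprox_sub_mem hπ h)).choose_spec t
  rw [← sub_add_sub_cancel _
    (normPoly π (residueCard O) (PowerSeries.trunc (colemanStep (residueCard O) t) h) :
      PowerSeries O)]
  refine add_mem (closeIdeal_le_levelSeries hq i j (closeIdeal_antitone (by omega) hlim)) ?_
  rw [← Polynomial.coe_sub]
  refine coe_mem_levelSeries (normPoly_level_sub_mem hπ i j (mem_levelSpan_of_coe hq ?_))
  rw [Polynomial.coe_sub, ← sub_sub_sub_cancel_left _ _ h]
  refine sub_mem hp (levelSeries_mono (by omega) (by omega) (by omega)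
    (closeIdeal_le_levelSeries hq t (t + 1) (sub_trunc_mem _ h)))

theorem colemanFun_coe (p : O[X]) :
    colemanFun hπ (p : PowerSeries O) = (normPoly π (residueCard O) p : PowerSeries O) :=
  eq_of_forall_sub_mem hπ fun t =>
    closeIdeal_antitone (le_min le_rfl le_rfl) (levelSeries_le_closeIdeal
      (isLubinTateBase hπ).two_le t t (colemanFun_sub_mem hπ (by simp)))

/-- **The norm operator of Coleman on series.** -/
def colemanNorm : PowerSeries O →* PowerSeries O where
  toFun := colemanFun hπ
  map_one' := by rw [← Polynomial.coe_one, colemanFun_coe, map_one]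
  map_mul' a b := by
    have hq := (isLubinTateBase hπ).two_le
    refine eq_of_forall_sub_mem hπ fun t =>
      closeIdeal_antitone (le_min le_rfl le_rfl) (levelSeries_le_closeIdeal hq t t ?_)
    set pa := PowerSeries.trunc (colemanStep (residueCard O) t) a
    set pb := PowerSeries.trunc (colemanStep (residueCard O) t) b
    have ha := closeIdeal_le_levelSeries hq t (t + 1)
      (sub_trunc_mem (π := π) (colemanStep (residueCard O) t) a)
    have hb := closeIdeal_le_levelSeries hq t (t + 1)
      (sub_trunc_mem (π := π) (colemanStep (residueCard O) t) b)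
    have hab : a * b - ((pa * pb : O[X]) : PowerSeries O) ∈
        levelSeries π (residueCard O) t (t + 1) := by
      rw [Polynomial.coe_mul, show a * b - (pa : PowerSeries O) * pb =
        (a - pa) * b + (pa : PowerSeries O) * (b - pb) by ring]
      exact add_mem (Ideal.mul_mem_right _ _ ha) (Ideal.mul_mem_left _ _ hb)
    have h1 := colemanFun_sub_mem hπ hab
    have h2 := colemanFun_sub_mem hπ ha
    have h3 := colemanFun_sub_mem hπ hb
    rw [map_mul, Polynomial.coe_mul] at h1
    set A := colemanFun hπ a
    set B := colemanFun hπ b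
    set U := (normPoly π (residueCard O) pa : PowerSeries O)
    set V := (normPoly π (residueCard O) pb : PowerSeries O)
    rw [show colemanFun hπ (a * b) - A * B =
      (colemanFun hπ (a * b) - U * V) - ((A - U) * B + U * (B - V)) by ring]
    exact sub_mem h1 (add_mem (Ideal.mul_mem_right _ _ h2) (Ideal.mul_mem_left _ _ h3))

theorem colemanNorm_sub_mem {h : PowerSeries O} {p : O[X]} {i j : ℕ}
    (hp : h - (p : PowerSeries O) ∈ levelSeries π (residueCard O) i (j + 1)) :
    colemanNorm hπ h - (normPoly π (residueCard O) p : PowerSeries O) ∈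
      levelSeries π (residueCard O) i j :=
  colemanFun_sub_mem hπ hp

theorem colemanNorm_coe (p : O[X]) :
    colemanNorm hπ (p : PowerSeries O) = (normPoly π (residueCard O) p : PowerSeries O) :=
  colemanFun_coe hπ p

/-- **It is the identity modulo `π`.** -/
theorem dvd_colemanNorm_sub_self (h : PowerSeries O) :
    PowerSeries.C π ∣ colemanNorm hπ h - h := by
  have hq := (isLubinTateBase hπ).two_le
  rw [← pow_one (PowerSeries.C π), C_pow_dvd_iff]
  intro n
  refine dvd_coeff_of_mem_levelSeries hq (le_refl (n + 1)) ?_
  set p := PowerSeries.trunc (1 + residueCard O ^ (n + 2) * 1) h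
  have hp : h - (p : PowerSeries O) ∈ levelSeries π (residueCard O) 1 (n + 2) :=
    closeIdeal_le_levelSeries hq 1 (n + 2) (sub_trunc_mem _ h)
  rw [show colemanNorm hπ h - h = (colemanNorm hπ h -
      (normPoly π (residueCard O) p : PowerSeries O)) +
    ((normPoly π (residueCard O) p : PowerSeries O) - p) - (h - p) by ring]
  refine sub_mem (add_mem (colemanNorm_sub_mem hπ hp) ?_)
    (levelSeries_mono (by omega) le_rfl (by omega) hp)
  obtain ⟨c, hc⟩ := Ideal.mem_span_singleton.1 (normPoly_sub_self_mem hπ p)
  rw [← Polynomial.coe_sub, hc]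
  refine coe_mem_levelSeries (Ideal.mul_mem_right _ _ ?_)
  rw [← pow_one (C π)]
  exact Ideal.subset_span (Set.mem_insert _ _)

/-- **It raises congruences to one.** -/
theorem dvd_colemanNorm_one_add_sub {i : ℕ} (hi : 1 ≤ i) (c : PowerSeries O) :
    PowerSeries.C π ^ (i + 1) ∣ colemanNorm hπ (1 + PowerSeries.C π ^ i * c) - 1 := by
  have hq := (isLubinTateBase hπ).two_le
  rw [C_pow_dvd_iff]
  intro n
  refine dvd_coeff_of_mem_levelSeries hq (le_refl (n + (i + 1))) ?_
  set j := n + (i + 1)
  set p := PowerSeries.trunc (i + 1 + residueCard O ^ (j + 1) * (i + 1)) c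
  have hp : (1 + PowerSeries.C π ^ i * c) - ((1 + C π ^ i * p : O[X]) : PowerSeries O) ∈
      levelSeries π (residueCard O) (i + 1) (j + 1) := by
    rw [Polynomial.coe_add, Polynomial.coe_one, Polynomial.coe_mul, Polynomial.coe_pow,
      Polynomial.coe_C, add_sub_add_left_eq_sub, ← mul_sub]
    exact Ideal.mul_mem_left _ _ (closeIdeal_le_levelSeries hq _ _ (sub_trunc_mem _ c))
  rw [← sub_add_sub_cancel _ (normPoly π (residueCard O) (1 + C π ^ i * p) : PowerSeries O)]
  refine add_mem (colemanNorm_sub_mem hπ hp) ?_
  rw [← Polynomial.coe_one, ← Polynomial.coe_sub]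
  exact coe_mem_levelSeries (Ideal.span_mono (by simp) (normPoly_one_add_mem hπ hi p))

theorem isUnit_colemanNorm {h : PowerSeries O} (hh : IsUnit h) : IsUnit (colemanNorm hπ h) :=
  hh.map _

/-- The operator contracts congruences of units. -/
theorem dvd_colemanNorm_sub {i : ℕ} (hi : 1 ≤ i) {a b : PowerSeries O} (hb : IsUnit b)
    (h : PowerSeries.C π ^ i ∣ a - b) :
    PowerSeries.C π ^ (i + 1) ∣ colemanNorm hπ a - colemanNorm hπ b := by
  obtain ⟨c, hc⟩ := h
  obtain ⟨d, hd⟩ := hb.exists_right_inv
  have ha : a = b * (1 + PowerSeries.C π ^ i * (c * d)) := by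
    linear_combination hc - (PowerSeries.C π ^ i * c) * hd
  rw [ha, map_mul, ← mul_sub_one]
  exact (dvd_colemanNorm_one_add_sub hπ hi _).mul_left _

/-- **The iterates at a unit converge.** -/
theorem dvd_iterate_colemanNorm_sub {a : PowerSeries O} (ha : IsUnit a) {m s : ℕ} (h : m ≤ s) :
    PowerSeries.C π ^ (m + 1) ∣
      (⇑(colemanNorm hπ))^[s] a - (⇑(colemanNorm hπ))^[m] a := by
  have hu : ∀ t, IsUnit ((⇑(colemanNorm hπ))^[t] a) := fun t => by
    induction t with
    | zero => exact ha
    | succ t ih => rw [Function.iterate_succ_apply']; exact ih.map _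
  have hstep : ∀ t, PowerSeries.C π ^ (t + 1) ∣
      (⇑(colemanNorm hπ))^[t + 1] a - (⇑(colemanNorm hπ))^[t] a := by
    intro t
    induction t with
    | zero => simpa using dvd_colemanNorm_sub_self hπ a
    | succ t ih =>
      rw [Function.iterate_succ_apply' _ (t + 1), Function.iterate_succ_apply' _ t]
      exact dvd_colemanNorm_sub hπ (by omega) (hu t) (by
        rwa [← Function.iterate_succ_apply' (⇑(colemanNorm hπ)) t a])
  induction s, h using Nat.le_induction with
  | base => simp
  | succ s hs ih =>
    rw [← sub_add_sub_cancel _ ((⇑(colemanNorm hπ))^[s] a)]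
    exact dvd_add ((pow_dvd_pow _ (by omega)).trans (hstep s)) ih

end Fermat.Agent.LubinTate
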