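import Fermat.Agent.LubinTate.Coleman.Operator
import Mathlib.FieldTheory.IntermediateField.Adjoin.Basic
import Mathlib.FieldTheory.IsAlgClosed.AlgebraicClosure

/-!
# The tower of torsion fields

`lam k` is a point of exact level `k + 1` with `f (lam (k + 1)) = lam k`. The norm from level
`k + 2` to level `k + 1` of the value of a series `h` is the value of `colemanNorm h`.
-/

set_option autoImplicit false

noncomputable section

open Polynomial IsLocalRing IntermediateField

namespace Fermat.Agent.LubinTate

variable {O : Type*} [CommRing O] {π : O} {q : ℕ}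

/-- The norm operator computes norms in extensions generated by a point of a fibre. -/
theorem norm_aeval_eq [Nontrivial O] (hq : 2 ≤ q) {L L' : Type*} [CommRing L] [CommRing L']
    [Algebra L L'] [Algebra O L] [Algebra O L'] [IsScalarTower O L L'] (η : L) (ω : L')
    (hω : aeval ω (basicPoly π q) = algebraMap L L' η) (b' : Module.Basis (Fin q) L L')
    (hb' : ∀ i, b' i = ω ^ (i : ℕ)) (p : O[X]) :
    Algebra.norm L (aeval ω p) = aeval η (normPoly π q p) := by
  classical
  set φ : O[X] →+* L := (aeval η).toRingHom with hφ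
  have hlift : (fibrePoly π q).eval₂ ((algebraMap L L').comp φ) ω = 0 := by
    rw [basicPoly, map_add, map_mul, map_pow, aeval_X, aeval_C] at hω
    simp [fibrePoly, φ, ← IsScalarTower.algebraMap_apply, hω]
  set e := AdjoinRoot.lift ((algebraMap L L').comp φ) ω hlift
  have he : ∀ a, e (fibreClass π q a) = aeval ω a := by
    intro a
    rw [fibreClass, RingHom.comp_apply, AdjoinRoot.lift_mk, coe_mapRingHom, eval₂_map, aeval_def]
    congr 1
    ext c
    simp [φ, ← IsScalarTower.algebraMap_apply]
  set b := fibreBasis (π := π) hq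
  have heb : ∀ i, e (b i) = b' i := fun i => by
    simp [b, fibreBasis_apply, e, hb']
  have hM : Algebra.leftMulMatrix b' (aeval ω p) =
      (Algebra.leftMulMatrix b (fibreClass π q p)).map φ := by
    ext i j
    rw [Matrix.map_apply, Algebra.leftMulMatrix_eq_repr_mul, Algebra.leftMulMatrix_eq_repr_mul]
    have hsum := congrArg e (b.sum_repr (fibreClass π q p * b j))
    simp only [map_mul, map_sum, Algebra.smul_def, AdjoinRoot.algebraMap_eq, heb, he] at hsum
    simp only [e, AdjoinRoot.lift_of, RingHom.comp_apply] at hsum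
    rw [← hsum]
    simp only [← Algebra.smul_def, map_sum, map_smul, b'.repr_self, Finsupp.smul_single,
      smul_eq_mul, mul_one, Finsupp.finsetSum_apply, Finsupp.single_apply]
    rw [Finset.sum_ite_eq' Finset.univ i, if_pos (Finset.mem_univ i)]
  rw [Algebra.norm_eq_matrix_det b', hM, ← RingHom.mapMatrix_apply, ← RingHom.map_det]
  exact congrArg φ (Algebra.norm_eq_matrix_det b _).symm

variable [IsDomain O] [IsDiscreteValuationRing O] [Finite (ResidueField O)]

/-- The iterates are distinguished. -/
theorem isDistinguished_iterPoly (hπ : Irreducible π) (j : ℕ) :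
    (iterPoly π (residueCard O) j).IsDistinguishedAt (maximalIdeal O) := by
  have := nontrivial_quotient hπ
  have hq := (isLubinTateBase hπ).two_le
  refine ⟨⟨fun {i} hi => ?_⟩, (monic_iterPoly hq j).1⟩
  rw [natDegree_iterPoly hq] at hi
  rw [hπ.maximalIdeal_eq, ← Ideal.Quotient.eq_zero_iff_mem, ← coeff_map,
    (monic_iterPoly hq j).2.1, coeff_X_pow, if_neg hi.ne]

/-- A compatible system of torsion points: `lam k` has exact level `k + 1`. -/
structure IsTorsionTower (π : O) {Ω : Type*} [Field Ω] [Algebra O Ω] (lam : ℕ → Ω) : Prop where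
  aeval_zero : aeval (lam 0) (torsionPoly π 0) = 0
  aeval_succ : ∀ k, aeval (lam (k + 1)) (basicPoly π (residueCard O)) = lam k

variable {K : Type*} [Field K] [Algebra O K] [IsFractionRing O K]
  {Ω : Type*} [Field Ω] [Algebra K Ω] [Algebra O Ω] [IsScalarTower O K Ω]

omit [Finite (ResidueField O)] in
theorem IsTorsionTower.aeval_torsionPoly {lam : ℕ → Ω} (h : IsTorsionTower π lam) (k : ℕ) :
    aeval (lam k) (torsionPoly π k) = 0 := by
  induction k with
  | zero => exact h.aeval_zero
  | succ k ih =>
    rw [torsionPoly, levelPoly, iterPoly_succ', map_add, map_pow, aeval_comp, aeval_C,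
      h.aeval_succ k]
    rw [torsionPoly, levelPoly, map_add, map_pow, aeval_C] at ih
    exact ih

omit [Algebra K Ω] [IsScalarTower O K Ω] in
/-- Torsion towers exist in an algebraically closed field. -/
theorem exists_torsionTower (hπ : Irreducible π) [IsAlgClosed Ω] [FaithfulSMul O Ω] :
    ∃ lam : ℕ → Ω, IsTorsionTower π lam := by
  have hq := (isLubinTateBase hπ).two_le
  have := nontrivial_quotient hπ
  obtain ⟨l₀, h₀⟩ := IsAlgClosed.exists_aeval_eq_zero Ω (torsionPoly π 0) (by
    rw [Polynomial.degree_eq_natDegree (torsionPoly_facts hπ 0).1.ne_zero,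
      (torsionPoly_facts hπ 0).2.1]
    exact_mod_cast (torsionDegree_pos hπ 0).ne')
  have hstep : ∀ x : Ω, ∃ y : Ω, aeval y (basicPoly π (residueCard O)) = x := by
    intro x
    have hm : (basicPoly π (residueCard O)).Monic := by
      simpa [iterPoly] using (monic_iterPoly (π := π) hq 1).1
    have hd : (basicPoly π (residueCard O)).natDegree = residueCard O := by
      simpa [iterPoly] using natDegree_iterPoly (π := π) hq 1
    obtain ⟨y, hy⟩ := IsAlgClosed.exists_root
      ((basicPoly π (residueCard O)).map (algebraMap O Ω) - C x) (by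
        intro h
        have h' := Polynomial.natDegree_eq_zero_iff_degree_le_zero.2 h.le
        rw [natDegree_sub_C, hm.natDegree_map, hd] at h'
        omega)
    rw [IsRoot.def, eval_sub, eval_C, eval_map, ← aeval_def, sub_eq_zero] at hy
    exact ⟨y, hy⟩
  choose next hnext using hstep
  exact ⟨fun k => next^[k] l₀, h₀, fun k => by
    rw [Function.iterate_succ_apply']; exact hnext _⟩

variable (K) in
/-- The field of level `k + 1`. -/
abbrev lev (lam : ℕ → Ω) (k : ℕ) : IntermediateField K Ω := K⟮lam k⟯

variable (K) in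
/-- Its generator. -/
def levGen (lam : ℕ → Ω) (k : ℕ) : lev K lam k := ⟨lam k, mem_adjoin_simple_self K (lam k)⟩

variable (hπ : Irreducible π) {lam : ℕ → Ω} (hlam : IsTorsionTower π lam) (k : ℕ)
include hπ hlam

omit [IsFractionRing O K] in
theorem isTorsionGenerator_levGen : IsTorsionGenerator K π k (levGen K lam k) := by
  have h : aeval (lam k) (torsionPoly π k) = 0 := hlam.aeval_torsionPoly k
  have hint : IsIntegral K (lam k) :=
    IsIntegral.tower_top (R := O) ⟨torsionPoly π k, (torsionPoly_facts hπ k).1, h⟩
  refine ⟨(lev K lam k).val.injective ?_, ?_⟩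
  · rw [map_zero]
    change ((lev K lam k).val.restrictScalars O) (aeval (levGen K lam k) (torsionPoly π k)) = 0
    rw [← aeval_algHom_apply]
    exact h
  · exact (IntermediateField.adjoin.powerBasis hint).adjoin_gen_eq_top

omit hπ [IsFractionRing O K] [Finite (ResidueField O)] in
theorem lev_le : lev K lam k ≤ lev K lam (k + 1) := by
  rw [adjoin_simple_le_iff, ← hlam.aeval_succ k, ← aeval_map_algebraMap K]
  exact algebra_adjoin_le_adjoin _ _ (aeval_mem_adjoin_singleton _ _)

omit hπ in
/-- The norm from level `k + 2` to level `k + 1`. -/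
def levNorm : lev K lam (k + 1) →* lev K lam k :=
  letI := (inclusion (lev_le (K := K) hlam k)).toRingHom.toAlgebra
  Algebra.norm (lev K lam k)

omit [IsFractionRing O K] in
/-- It is compatible with the norms to the ground field. -/
theorem norm_levNorm (x : lev K lam (k + 1)) :
    Algebra.norm K (levNorm hlam k x) = Algebra.norm K x := by
  let := (inclusion (lev_le (K := K) hlam k)).toRingHom.toAlgebra
  have : IsScalarTower K (lev K lam k) (lev K lam (k + 1)) :=
    IsScalarTower.of_algebraMap_eq fun x => rfl
  have := finiteDimensional hπ k (isTorsionGenerator_levGen (K := K) hπ hlam k)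
  have := finiteDimensional hπ (k + 1) (isTorsionGenerator_levGen (K := K) hπ hlam (k + 1))
  have := Module.Finite.of_restrictScalars_finite K (lev K lam k) (lev K lam (k + 1))
  exact Algebra.norm_norm

/-- The norm of the value of a polynomial. -/
theorem levNorm_aeval (p : O[X]) :
    levNorm hlam k (aeval (levGen K lam (k + 1)) p) =
      aeval (levGen K lam k) (normPoly π (residueCard O) p) := by
  let := (inclusion (lev_le (K := K) hlam k)).toRingHom.toAlgebra
  have : IsScalarTower K (lev K lam k) (lev K lam (k + 1)) :=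
    IsScalarTower.of_algebraMap_eq fun x => rfl
  have : IsScalarTower O (lev K lam k) (lev K lam (k + 1)) :=
    IsScalarTower.of_algebraMap_eq fun x => Subtype.ext rfl
  have hq := (isLubinTateBase hπ).two_le
  have hgk := isTorsionGenerator_levGen (K := K) hπ hlam k
  have hgk1 := isTorsionGenerator_levGen (K := K) hπ hlam (k + 1)
  have := finiteDimensional hπ k hgk
  have := finiteDimensional hπ (k + 1) hgk1
  have := Module.Finite.of_restrictScalars_finite K (lev K lam k) (lev K lam (k + 1))
  have hfin : Module.finrank (lev K lam k) (lev K lam (k + 1)) = residueCard O := by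
    have h := Module.finrank_mul_finrank K (lev K lam k) (lev K lam (k + 1))
    rw [finrank_eq hπ k hgk, finrank_eq hπ (k + 1) hgk1,
      show torsionDegree O (k + 1) = torsionDegree O k * residueCard O by
        simp only [torsionDegree, pow_succ]; ring] at h
    exact mul_left_cancel₀ (torsionDegree_pos hπ k).ne' h
  have hω : aeval (levGen K lam (k + 1)) (basicPoly π (residueCard O)) =
      algebraMap (lev K lam k) (lev K lam (k + 1)) (levGen K lam k) := by
    refine (lev K lam (k + 1)).val.injective ?_
    change ((lev K lam (k + 1)).val.restrictScalars O)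
      (aeval (levGen K lam (k + 1)) (basicPoly π (residueCard O))) = _
    rw [← aeval_algHom_apply]
    exact hlam.aeval_succ k
  have hint : IsIntegral (lev K lam k) (levGen K lam (k + 1)) := Algebra.IsIntegral.isIntegral _
  have htop : Algebra.adjoin (lev K lam k) {levGen K lam (k + 1)} = ⊤ := by
    rw [eq_top_iff]
    intro x _
    have hx : x ∈ Algebra.adjoin K {levGen K lam (k + 1)} := hgk1.adjoin_eq ▸ trivial
    rw [Algebra.adjoin_singleton_eq_range_aeval] at hx
    obtain ⟨r, rfl⟩ := hx
    change aeval (levGen K lam (k + 1)) r ∈ _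
    rw [← aeval_map_algebraMap (lev K lam k)]
    exact aeval_mem_adjoin_singleton _ _
  set pb := (Algebra.adjoin.powerBasis hint).map
    ((Subalgebra.equivOfEq _ _ htop).trans Subalgebra.topEquiv)
  have hdim : pb.dim = residueCard O := pb.finrank ▸ hfin
  exact norm_aeval_eq hq (levGen K lam k) _ hω (pb.basis.reindex (finCongr hdim))
    (fun i => by rw [Module.Basis.reindex_apply, PowerBasis.basis_eq_pow]; rfl) p

variable [IsAdicComplete (maximalIdeal O) O]

/-- Evaluation of series at `lam k`. -/
def evalLev : PowerSeries O →ₐ[O] lev K lam k :=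
  evalAt hπ k (isTorsionGenerator_levGen (K := K) hπ hlam k)

omit [IsFractionRing O K] in
theorem evalLev_coe (p : O[X]) :
    evalLev (K := K) hπ hlam k (p : PowerSeries O) = aeval (levGen K lam k) p :=
  evalAt_coe hπ k _ p

omit [IsFractionRing O K] in
theorem evalLev_iterPoly :
    evalLev (K := K) hπ hlam k (iterPoly π (residueCard O) (k + 1) : PowerSeries O) = 0 :=
  evalAt_iterPoly hπ k (isTorsionGenerator_levGen (K := K) hπ hlam k)

omit [IsAdicComplete (maximalIdeal O) O] in
/-- Integral elements divisible by every power of `π` vanish. -/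
theorem eq_zero_of_forall_integral {y : lev K lam k}
    (h : ∀ i : ℕ, ∃ z, IsIntegral O z ∧ y = algebraMap O (lev K lam k) (π ^ i) * z) : y = 0 := by
  have := finiteDimensional hπ k (isTorsionGenerator_levGen (K := K) hπ hlam k)
  by_contra hy
  obtain ⟨z₀, hz₀, hyz⟩ := h 0
  rw [pow_zero, map_one, one_mul] at hyz
  have hyi : IsIntegral O y := by rw [hyz]; exact hz₀
  obtain ⟨a, ha⟩ := IsIntegrallyClosed.isIntegral_iff.1 (Algebra.isIntegral_norm K hyi)
  refine hy ((Algebra.norm_eq_zero_iff (R := K) (x := y)).1 ?_)
  rw [← ha, eq_zero_of_forall_pow_dvd hπ (a := a) fun i => ?_, map_zero]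
  obtain ⟨z, hz, hyz'⟩ := h i
  obtain ⟨b, hb⟩ := IsIntegrallyClosed.isIntegral_iff.1 (Algebra.isIntegral_norm K hz)
  have hab : a = (π ^ i) ^ Module.finrank K (lev K lam k) * b := IsFractionRing.injective O K (by
    rw [ha, hyz', map_mul, map_mul, hb, IsScalarTower.algebraMap_apply O K (lev K lam k),
      Algebra.norm_algebraMap, ← map_pow (algebraMap O K)])
  rw [hab]
  exact dvd_mul_of_dvd_left (dvd_pow_self _ Module.finrank_pos.ne') _

/-- Values of members of `(π ^ i, g (k + 1))`. -/
theorem exists_evalLev_eq {i : ℕ} {x : PowerSeries O}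
    (hx : x ∈ levelSeries π (residueCard O) i (k + 1)) : ∃ z, IsIntegral O z ∧
      evalLev (K := K) hπ hlam k x = algebraMap O (lev K lam k) (π ^ i) * z := by
  obtain ⟨a, b, rfl⟩ := Ideal.mem_span_pair.1 hx
  refine ⟨evalLev (K := K) hπ hlam k a, isIntegral_evalAt hπ k _ a, ?_⟩
  rw [map_add, map_mul, map_mul, evalLev_iterPoly, mul_zero, add_zero, ← map_pow,
    PowerSeries.C_eq_algebraMap, AlgHom.commutes, mul_comm]

/-- **The norm of a value is a value of the norm operator.** -/
theorem levNorm_evalLev (h : PowerSeries O) :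
    levNorm hlam k (evalLev (K := K) hπ hlam (k + 1) h) =
      evalLev (K := K) hπ hlam k (colemanNorm hπ h) := by
  obtain ⟨p, hp⟩ := Ideal.Quotient.mk_surjective
    ((isDistinguished_iterPoly hπ (k + 2)).algEquivQuotient.symm (Ideal.Quotient.mk _ h))
  obtain ⟨c, hc⟩ : (iterPoly π (residueCard O) (k + 2) : PowerSeries O) ∣ h - p :=
    Ideal.mem_span_singleton.1 ((Ideal.Quotient.mk_eq_mk_iff_sub_mem _ _).1
      ((AlgEquiv.eq_symm_apply _).1 hp).symm)
  have h1 : evalLev (K := K) hπ hlam (k + 1) h = aeval (levGen K lam (k + 1)) p := by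
    rw [← evalLev_coe hπ hlam, ← sub_eq_zero, ← map_sub, hc, map_mul, evalLev_iterPoly, zero_mul]
  rw [h1, levNorm_aeval hπ hlam, ← evalLev_coe hπ hlam, eq_comm, ← sub_eq_zero, ← map_sub]
  refine eq_zero_of_forall_integral hπ hlam k fun i => exists_evalLev_eq hπ hlam k ?_
  exact colemanNorm_sub_mem hπ (by
    rw [hc]; exact Ideal.mul_mem_right _ _ (Ideal.subset_span (Set.mem_insert_of_mem _ rfl)))

end Fermat.Agent.LubinTate
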