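import Fermat.Agent.LubinTate.Coleman.FrobeniusBasis
import Mathlib.LinearAlgebra.Matrix.Adjugate
import Mathlib.LinearAlgebra.Matrix.NonsingularInverse
import Mathlib.LinearAlgebra.Matrix.Trace

/-!
# Norm, trace and logarithmic derivative over the Frobenius image

`normSeries g` is the norm of `g` over the image of `φ`, in the coordinate of `φ`, the trace is
`p ψ`, and `ψ` of the logarithmic derivative is the logarithmic derivative of the norm.
-/

set_option autoImplicit false

noncomputable section

open Finset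

namespace Fermat.Agent.LubinTate

variable {R : Type*} [CommRing R] {n : Type*} [Fintype n] [DecidableEq n]

/-- The rule of Jacobi for a derivation. -/
theorem derivation_det {D : R → R} (hadd : ∀ a b, D (a + b) = D a + D b)
    (hmul : ∀ a b, D (a * b) = D a * b + a * D b) (M : Matrix n n R) :
    D M.det = Matrix.trace (M.adjugate * M.map D) := by
  have h0 : D 0 = 0 := by simpa using hadd 0 0
  have h1 : D 1 = 0 := by simpa using hmul 1 1
  let F : R →+ R := { toFun := D, map_zero' := h0, map_add' := hadd }
  have hprod : ∀ (s : Finset n) (f : n → R),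
      D (∏ i ∈ s, f i) = ∑ j ∈ s, D (f j) * ∏ i ∈ s.erase j, f i := by
    intro s
    induction s using Finset.induction_on with
    | empty => intro f; simp [h1]
    | insert a s ha ih =>
      intro f
      rw [Finset.prod_insert ha, hmul, ih, Finset.sum_insert ha, Finset.erase_insert ha,
        Finset.mul_sum]
      congr 1
      refine Finset.sum_congr rfl fun j hj => ?_
      rw [Finset.erase_insert_of_ne (by rintro rfl; exact ha hj),
        Finset.prod_insert (fun h => ha (Finset.mem_of_mem_erase h))]
      ring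
  have hsmul : ∀ (z : ℤ) (a : R), D ((z : R) * a) = (z : R) * D a := fun z a => by
    rw [← zsmul_eq_mul, ← zsmul_eq_mul]
    exact map_zsmul F z a
  rw [Matrix.det_apply', show D _ = F _ from rfl, map_sum, Matrix.trace]
  have hterm : ∀ j, Matrix.diag (M.adjugate * M.map D) j =
      ∑ σ : Equiv.Perm n, ((Equiv.Perm.sign σ : ℤ) : R) *
        (D (M (σ j) j) * ∏ i ∈ univ.erase j, M (σ i) i) := by
    intro j
    have hc : Matrix.diag (M.adjugate * M.map D) j = (M.updateCol j fun i => D (M i j)).det := by
      rw [← Matrix.cramer_apply, Matrix.cramer_eq_adjugate_mulVec]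
      rfl
    rw [hc, Matrix.det_apply']
    refine Finset.sum_congr rfl fun σ _ => ?_
    rw [← Finset.mul_prod_erase univ _ (Finset.mem_univ j), Matrix.updateCol_self]
    congr 2
    exact Finset.prod_congr rfl fun i hi => Matrix.updateCol_ne (Finset.ne_of_mem_erase hi)
  simp only [hterm]
  rw [Finset.sum_comm]
  refine Finset.sum_congr rfl fun σ _ => ?_
  rw [← Finset.mul_sum, show F _ = D _ from rfl, hsmul, hprod]

variable (p : ℕ) [hp : Fact p.Prime]

local notation "Λ" => PowerSeries ℤ_[p]
local notation "T₁" => (1 + PowerSeries.X : PowerSeries ℤ_[p])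

/-- The matrix of multiplication. -/
def frobMatrix (g : Λ) : Matrix (Fin p) (Fin p) Λ :=
  Matrix.of fun i j => frobCoord p (g * T₁ ^ (j : ℕ)) i

theorem frobMatrix_apply (g : Λ) (i j : Fin p) :
    frobMatrix p g i j = frobCoord p (g * T₁ ^ (j : ℕ)) i := rfl

theorem mul_frobExpand (g : Λ) (c : Fin p → Λ) :
    g * frobExpand p c = frobExpand p (Matrix.mulVec (frobMatrix p g) c) := by
  simp only [frobExpand, Finset.mul_sum]
  have h : ∀ j : Fin p, g * (frobSubst p (c j) * T₁ ^ (j : ℕ)) =
      ∑ i, frobSubst p (c j * frobMatrix p g i j) * T₁ ^ (i : ℕ) := fun j => by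
    conv_lhs => rw [mul_left_comm, ← frobExpand_frobCoord p (g * T₁ ^ (j : ℕ)), frobExpand,
      Finset.mul_sum]
    exact Finset.sum_congr rfl fun i _ => by rw [map_mul (frobSubst p), mul_assoc, frobMatrix_apply]
  rw [Finset.sum_congr rfl fun j _ => h j, Finset.sum_comm]
  refine Finset.sum_congr rfl fun i _ => ?_
  rw [← Finset.sum_mul, ← map_sum]
  congr 2
  exact Finset.sum_congr rfl fun j _ => mul_comm _ _

theorem frobMatrix_mul (g h : Λ) : frobMatrix p (g * h) = frobMatrix p g * frobMatrix p h := by
  refine Matrix.ext fun i j => ?_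
  rw [frobMatrix_apply, mul_assoc, ← frobExpand_frobCoord p (h * _), mul_frobExpand,
    frobCoord_frobExpand, Matrix.mul_apply]
  rfl

theorem frobMatrix_one : frobMatrix p 1 = 1 := by
  refine Matrix.ext fun i j => ?_
  rw [frobMatrix_apply, one_mul, frobCoord_one_add_X_pow, Matrix.one_apply, Pi.single_apply]

theorem frobMatrix_add (g h : Λ) : frobMatrix p (g + h) = frobMatrix p g + frobMatrix p h :=
  Matrix.ext fun i j => by simp [frobMatrix_apply, add_mul]

theorem frobMatrix_frobSubst_mul (a g : Λ) :
    frobMatrix p (frobSubst p a * g) = a • frobMatrix p g :=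
  Matrix.ext fun i j => by
    rw [frobMatrix_apply, mul_assoc, frobCoord_frobSubst_mul]
    rfl

/-- **The trace is `p ψ`.** -/
theorem trace_frobMatrix (h : Λ) :
    Matrix.trace (frobMatrix p h) = (p : Λ) * colemanPsi p h := by
  classical
  let F : Λ →+ Λ :=
    { toFun := fun h => Matrix.trace (frobMatrix p h) - (p : Λ) * colemanPsi p h
      map_zero' := by simp [frobMatrix, Matrix.trace, map_zero]
      map_add' := fun a b => by rw [frobMatrix_add, Matrix.trace_add, map_add]; ring }
  suffices hF : ∀ (a : Λ) (l : Fin p), F (frobSubst p a * T₁ ^ (l : ℕ)) = 0 by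
    refine sub_eq_zero.1 ?_
    change F h = 0
    rw [← frobExpand_frobCoord p h, frobExpand, map_sum]
    exact Finset.sum_eq_zero fun l _ => hF _ l
  intro a l
  change Matrix.trace (frobMatrix p (frobSubst p a * T₁ ^ (l : ℕ))) -
    (p : Λ) * colemanPsi p (frobSubst p a * T₁ ^ (l : ℕ)) = 0
  rw [frobMatrix_frobSubst_mul, Matrix.trace_smul, colemanPsi_frobSubst_mul,
    colemanPsi_one_add_X_pow p l.2, smul_eq_mul, mul_left_comm, ← mul_sub, mul_eq_zero]
  refine Or.inr ?_
  by_cases hl : (l : ℕ) = 0
  · rw [if_pos hl, hl, pow_zero, frobMatrix_one, Matrix.trace_one, Fintype.card_fin, mul_one,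
      sub_self]
  rw [if_neg hl, mul_zero, sub_zero]
  refine Finset.sum_eq_zero fun j _ => ?_
  rw [Matrix.diag_apply, frobMatrix_apply, ← pow_add]
  by_cases hlt : (l : ℕ) + j < p
  · rw [show (l : ℕ) + j = ((⟨l + j, hlt⟩ : Fin p) : ℕ) from rfl, frobCoord_one_add_X_pow,
      Pi.single_apply, if_neg fun h => ?_]
    have h' : (j : ℕ) = l + j := congrArg Fin.val h
    omega
  · have hsub : (l : ℕ) + j - p < p := by omega
    rw [show (l : ℕ) + j = p + ((⟨l + j - p, hsub⟩ : Fin p) : ℕ) by simp; omega, pow_add,
      ← frobSubst_one_add_X, frobCoord_frobSubst_mul, frobCoord_one_add_X_pow, Pi.smul_apply,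
      Pi.single_apply, if_neg fun h => ?_, smul_zero]
    have h' : (j : ℕ) = l + j - p := congrArg Fin.val h
    omega

/-- **The norm in the coordinate of `φ`.** -/
def normSeries : Λ →* Λ where
  toFun g := (frobMatrix p g).det
  map_one' := by rw [frobMatrix_one, Matrix.det_one]
  map_mul' g h := by rw [frobMatrix_mul, Matrix.det_mul]

theorem amiceD_add {S : Type*} [CommRing S] (x y : PowerSeries S) :
    amiceD (x + y) = amiceD x + amiceD y := by
  simp [amiceD, mul_add]

/-- `(1 + X) d/dX` and `φ`. -/
theorem amiceD_frobSubst (x : Λ) :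
    amiceD (frobSubst p x) = (p : Λ) * frobSubst p (amiceD x) := by
  rw [amiceD, amiceD, frobSubst_apply, PowerSeries.derivative_subst
    (hasSubst_multiplicativeSeries p), map_mul, frobSubst_one_add_X, frobSubst_apply,
    multiplicativeSeries, map_sub, Derivation.map_one_eq_zero, sub_zero, Derivation.leibniz_pow,
    map_add, Derivation.map_one_eq_zero, zero_add, PowerSeries.derivative_X, smul_eq_mul,
    mul_one, nsmul_eq_mul]
  have hpow : T₁ * T₁ ^ (p - 1) = T₁ ^ p := by
    rw [← pow_succ', Nat.sub_add_cancel hp.out.pos]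
  rw [← hpow]
  ring

/-- The matrix of the derivative. -/
theorem frobMatrix_amiceD (g : Λ) : frobMatrix p (amiceD g) =
    (p : Λ) • (frobMatrix p g).map amiceD +
      (Matrix.diagonal (fun i : Fin p => ((i : ℕ) : Λ)) * frobMatrix p g -
        frobMatrix p g * Matrix.diagonal fun i : Fin p => ((i : ℕ) : Λ)) := by
  refine Matrix.ext fun i j => ?_
  simp only [Matrix.add_apply, Matrix.sub_apply, Matrix.smul_apply, Matrix.map_apply,
    Matrix.diagonal_mul, Matrix.mul_diagonal, smul_eq_mul]
  have h : amiceD g * T₁ ^ (j : ℕ) = frobExpand p fun i =>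
      (p : Λ) * amiceD (frobMatrix p g i j) + (((i : ℕ) : Λ) * frobMatrix p g i j -
        frobMatrix p g i j * ((j : ℕ) : Λ)) := by
    let DA : Λ →+ Λ := AddMonoidHom.mk' amiceD amiceD_add
    have h1 : g * T₁ ^ (j : ℕ) = frobExpand p fun i => frobMatrix p g i j :=
      (frobExpand_frobCoord p _).symm
    have h2 := congrArg DA h1
    rw [frobExpand, map_sum] at h2
    simp only [DA, AddMonoidHom.mk'_apply, amiceD_mul, amiceD_one_add_X_pow, amiceD_frobSubst]
      at h2
    have h3 : ((j : ℕ) : Λ) * (g * T₁ ^ (j : ℕ)) =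
        ∑ i, frobSubst p (frobMatrix p g i j * ((j : ℕ) : Λ)) * T₁ ^ (i : ℕ) := by
      rw [h1, frobExpand, Finset.mul_sum]
      exact Finset.sum_congr rfl fun i _ => by rw [map_mul, map_natCast]; ring
    rw [eq_sub_of_add_eq h2, show g * (((j : ℕ) : Λ) * T₁ ^ (j : ℕ)) =
      ((j : ℕ) : Λ) * (g * T₁ ^ (j : ℕ)) by ring, h3, frobExpand, ← Finset.sum_sub_distrib]
    refine Finset.sum_congr rfl fun i _ => ?_
    simp only [map_add, map_sub, map_mul, map_natCast]
    ring
  rw [frobMatrix_apply, h, frobCoord_frobExpand]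

/-- The logarithmic derivative. -/
def logDeriv' (g : Λ) : Λ := amiceD g * Ring.inverse g

theorem logDeriv'_mul_self {g : Λ} (hg : IsUnit g) : logDeriv' p g * g = amiceD g :=
  Ring.inverse_mul_cancel_right _ _ hg

/-- **`ψ` of the logarithmic derivative** is the logarithmic derivative of the norm. -/
theorem colemanPsi_logDeriv {g : Λ} (hg : IsUnit g) :
    colemanPsi p (logDeriv' p g) = logDeriv' p (normSeries p g) := by
  obtain ⟨g', hg'⟩ := hg.exists_right_inv
  have hinv : Ring.inverse g = g' := by
    refine (hg.mul_right_inj.1 ?_)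
    rw [Ring.mul_inverse_cancel _ hg, hg']
  have hN : IsUnit (normSeries p g) := hg.map _
  set M := frobMatrix p g
  set M' := frobMatrix p g' with hM'
  have hMM : M * M' = 1 := by rw [← frobMatrix_mul, hg', frobMatrix_one]
  have hMM' : M' * M = 1 := by rw [← frobMatrix_mul, mul_comm, hg', frobMatrix_one]
  have hadj : M.adjugate = M.det • M' := by
    calc M.adjugate = M.adjugate * (M * M') := by rw [hMM, mul_one]
      _ = (M.adjugate * M) * M' := by rw [mul_assoc]
      _ = _ := by rw [Matrix.adjugate_mul, Matrix.smul_mul, one_mul]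
  have htr : (p : Λ) * colemanPsi p (logDeriv' p g) =
      (p : Λ) * Matrix.trace (M' * M.map amiceD) := by
    rw [← trace_frobMatrix, logDeriv', hinv, frobMatrix_mul, Matrix.trace_mul_comm,
      frobMatrix_amiceD, mul_add, Matrix.mul_sub, Matrix.trace_add, Matrix.trace_sub,
      Matrix.mul_smul, Matrix.trace_smul, smul_eq_mul]
    set Δ := Matrix.diagonal fun i : Fin p => ((i : ℕ) : Λ)
    rw [Matrix.trace_mul_comm M' (Δ * M), ← hM', mul_assoc Δ, hMM, mul_one, ← mul_assoc M', hMM',
      one_mul, sub_self, add_zero]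
  have hp0 : (p : Λ) ≠ 0 := fun h => hp.out.ne_zero (by
    rw [← map_natCast PowerSeries.C, ← map_zero PowerSeries.C] at h
    exact_mod_cast PowerSeries.C_injective h)
  rw [mul_left_cancel₀ hp0 htr]
  have h1 : amiceD M.det = M.det * Matrix.trace (M' * M.map amiceD) :=
    (derivation_det amiceD_add amiceD_mul M).trans
      (by rw [hadj, Matrix.smul_mul, Matrix.trace_smul, smul_eq_mul])
  have h2 : logDeriv' p M.det = M.det * Matrix.trace (M' * M.map amiceD) * Ring.inverse M.det :=
    congrArg (· * Ring.inverse M.det) h1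
  rw [show normSeries p g = M.det from rfl, h2, mul_right_comm,
    Ring.mul_inverse_cancel M.det (show IsUnit M.det from hN), one_mul]

end Fermat.Agent.LubinTate
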