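import Fermat.Agent.LubinTate.Coleman.UnitsSequence

/-!
# The action of the units of `ℤ_p` on series

`powerSubst b` substitutes `(1 + X) ^ b - 1`. It is the Galois action in the coordinate of the
multiplicative group: it commutes with `φ` and with the norm, and on measures it is the image
by `x ↦ b x`.
-/

set_option autoImplicit false

noncomputable section

open Finset
open scoped fwdDiff

namespace Fermat.Agent.LubinTate

variable (p : ℕ) [hp : Fact p.Prime]

local notation "Λ" => PowerSeries ℤ_[p]
local notation "T₁" => (1 + PowerSeries.X : PowerSeries ℤ_[p])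
local notation "Bn" => PowerSeries.binomialSeries ℤ_[p] (R := ℤ_[p])

theorem hasSubst_binomial (b : ℤ_[p]) : PowerSeries.HasSubst (Bn b - 1) :=
  PowerSeries.HasSubst.of_constantCoeff_zero' (by simp)

/-- Substitution of `(1 + X) ^ b - 1`. -/
def powerSubst (b : ℤ_[p]) : Λ →ₐ[ℤ_[p]] Λ := PowerSeries.substAlgHom (hasSubst_binomial p b)

theorem powerSubst_apply (b : ℤ_[p]) (x : Λ) :
    powerSubst p b x = PowerSeries.subst (Bn b - 1) x := by
  rw [powerSubst, PowerSeries.coe_substAlgHom]

theorem powerSubst_X (b : ℤ_[p]) : powerSubst p b PowerSeries.X = Bn b - 1 :=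
  PowerSeries.substAlgHom_X _

theorem powerSubst_one_add_X (b : ℤ_[p]) : powerSubst p b T₁ = Bn b := by
  rw [map_add, map_one, powerSubst_X, add_sub_cancel]

theorem algHom_C (f : Λ →ₐ[ℤ_[p]] Λ) (c : ℤ_[p]) : f (PowerSeries.C c) = PowerSeries.C c := by
  rw [PowerSeries.C_eq_algebraMap, AlgHom.commutes]

theorem constantCoeff_algHom {f : Λ →ₐ[ℤ_[p]] Λ} (hf : (f PowerSeries.X).constantCoeff = 0)
    (x : Λ) : (f x).constantCoeff = x.constantCoeff := by
  conv_lhs => rw [x.eq_X_mul_shift_add_const, map_add, map_mul, algHom_C]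
  rw [map_add, map_mul, hf, zero_mul, zero_add, PowerSeries.constantCoeff_C]

/-- An endomorphism without constant term preserves the closeness ideals. -/
theorem algHom_mem_closeIdeal {f : Λ →ₐ[ℤ_[p]] Λ} (hf : (f PowerSeries.X).constantCoeff = 0)
    {t : ℕ} : ∀ {x : Λ}, x ∈ closeIdeal (p : ℤ_[p]) t → f x ∈ closeIdeal (p : ℤ_[p]) t := by
  induction t with
  | zero => exact fun _ n => by simp
  | succ t ih =>
    intro x hx
    have hX : f PowerSeries.X ∈ closeIdeal (p : ℤ_[p]) 1 := fun n => by
      rcases n with - | n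
      · simp [hf]
      · simp
    have hy : PowerSeries.mk (fun n => PowerSeries.coeff (n + 1) x) ∈ closeIdeal (p : ℤ_[p]) t :=
      fun n => by rw [PowerSeries.coeff_mk]; simpa using hx (n + 1)
    rw [x.eq_X_mul_shift_add_const, map_add, map_mul, algHom_C]
    refine add_mem (by simpa [add_comm] using mul_mem_closeIdeal hX (ih hy)) fun n => ?_
    rw [PowerSeries.coeff_C]
    split_ifs with h
    · subst h
      simpa using hx 0
    · exact dvd_zero _

theorem constantCoeff_powerSubst_X (b : ℤ_[p]) :
    (powerSubst p b PowerSeries.X).constantCoeff = 0 := by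
  simp [powerSubst_X]

theorem constantCoeff_powerSubst (b : ℤ_[p]) (x : Λ) :
    (powerSubst p b x).constantCoeff = x.constantCoeff :=
  constantCoeff_algHom p (constantCoeff_powerSubst_X p b) x

theorem eq_of_logDeriv_eq {x y : Λ} (hx : IsUnit x) (hy : IsUnit y)
    (h : logDeriv' p x = logDeriv' p y) (h0 : x.constantCoeff = y.constantCoeff) : x = y := by
  obtain ⟨q, rfl⟩ : y ∣ x := hy.dvd
  have hq : IsUnit q := isUnit_of_mul_isUnit_right hx
  rw [logDeriv'_mul p hy hq, add_eq_left] at h
  rw [map_mul, (PowerSeries.isUnit_iff_constantCoeff.1 hy).mul_eq_left] at h0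
  rw [eq_C_of_logDeriv_eq_zero p hq h, h0, map_one, mul_one]

theorem eq_binomialSeries_of_amiceD {x : Λ} {b : ℤ_[p]} (h : amiceD x = PowerSeries.C b * x)
    (h0 : x.constantCoeff = 1) : x = Bn b := by
  have hx : IsUnit x := by simp [PowerSeries.isUnit_iff_constantCoeff, h0]
  refine eq_of_logDeriv_eq p hx (isUnit_binomialSeries p b) ?_ (by simp [h0])
  rw [logDeriv'_binomialSeries, logDeriv', h, Ring.mul_inverse_cancel_right _ _ hx]

theorem frobSubst_binomialSeries (b : ℤ_[p]) : frobSubst p (Bn b) = Bn ((p : ℤ_[p]) * b) :=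
  eq_binomialSeries_of_amiceD p (by
    rw [amiceD_frobSubst, amiceD_binomialSeries, map_mul (frobSubst p), frobSubst_C, map_mul,
      map_natCast, mul_assoc])
    (by rw [constantCoeff_frobSubst]; simp)

/-- The derivative. -/
theorem amiceD_powerSubst (b : ℤ_[p]) (x : Λ) :
    amiceD (powerSubst p b x) = PowerSeries.C b * powerSubst p b (amiceD x) := by
  have hB := amiceD_binomialSeries p b
  rw [amiceD] at hB
  rw [amiceD, amiceD, powerSubst_apply, PowerSeries.derivative_subst (hasSubst_binomial p b),
    map_sub, Derivation.map_one_eq_zero, sub_zero, map_mul, powerSubst_one_add_X,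
    powerSubst_apply, mul_left_comm, hB]
  ring

theorem powerSubst_binomialSeries (b c : ℤ_[p]) : powerSubst p b (Bn c) = Bn (b * c) :=
  eq_binomialSeries_of_amiceD p (by
    rw [amiceD_powerSubst, amiceD_binomialSeries, map_mul (powerSubst p b), algHom_C, map_mul,
      mul_assoc])
    (by rw [constantCoeff_powerSubst]; simp)

theorem powerSubst_powerSubst (b c : ℤ_[p]) (x : Λ) :
    powerSubst p b (powerSubst p c x) = powerSubst p (b * c) x := by
  rw [powerSubst_apply, powerSubst_apply, powerSubst_apply,
    PowerSeries.subst_comp_subst_apply (hasSubst_binomial p c) (hasSubst_binomial p b),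
    ← powerSubst_apply, map_sub, map_one, powerSubst_binomialSeries]

theorem powerSubst_one (x : Λ) : powerSubst p 1 x = x := by
  rw [powerSubst_apply, show (1 : ℤ_[p]) = ((1 : ℕ) : ℤ_[p]) from Nat.cast_one.symm,
    PowerSeries.binomialSeries_nat, pow_one, add_sub_cancel_left, PowerSeries.X_subst]

theorem frobSubst_powerSubst (b : ℤ_[p]) (x : Λ) :
    frobSubst p (powerSubst p b x) = powerSubst p b (frobSubst p x) := by
  rw [powerSubst_apply, frobSubst_apply, powerSubst_apply, frobSubst_apply,
    PowerSeries.subst_comp_subst_apply (hasSubst_binomial p b) (hasSubst_multiplicativeSeries p),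
    PowerSeries.subst_comp_subst_apply (hasSubst_multiplicativeSeries p) (hasSubst_binomial p b),
    ← frobSubst_apply, ← powerSubst_apply, map_sub, map_one, frobSubst_binomialSeries,
    multiplicativeSeries, map_sub, map_pow, powerSubst_one_add_X, map_one]
  congr 1
  rw [show Bn b = powerSubst p b T₁ from (powerSubst_one_add_X p b).symm, ← map_pow,
    ← PowerSeries.binomialSeries_nat (R := ℤ_[p]), powerSubst_binomialSeries, mul_comm]

theorem logDeriv'_powerSubst (b : ℤ_[p]) {g : Λ} (hg : IsUnit g) :
    logDeriv' p (powerSubst p b g) = PowerSeries.C b * powerSubst p b (logDeriv' p g) := by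
  refine (hg.map (powerSubst p b)).mul_left_inj.1 ?_
  rw [logDeriv'_mul_self p (hg.map _), amiceD_powerSubst, mul_assoc, ← map_mul,
    logDeriv'_mul_self p hg]

theorem colemanMapFun_powerSubst (b : ℤ_[p]) {g : Λ} (hg : IsUnit g) :
    colemanMapFun p (powerSubst p b g) = PowerSeries.C b * powerSubst p b (colemanMapFun p g) := by
  rw [colemanMapFun, colemanMapFun, logDeriv'_powerSubst p b hg, map_mul, frobSubst_C,
    frobSubst_powerSubst, map_sub, mul_sub]

/-! ### The norm -/

/-- **The norm commutes with the action of the units.** -/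
theorem normSeries_powerSubst {b : ℤ_[p]} (hb : IsUnit b) (g : Λ) :
    normSeries p (powerSubst p b g) = powerSubst p b (normSeries p g) := by
  set S := powerSubst p b
  set P : Matrix (Fin p) (Fin p) Λ :=
    Matrix.of fun l i => frobCoord p (S (T₁ ^ (i : ℕ))) l with hP
  have hS : ∀ c : Fin p → Λ, S (frobExpand p c) =
      frobExpand p (Matrix.mulVec P fun i => S (c i)) := by
    intro c
    simp only [frobExpand, map_sum, map_mul]
    have h : ∀ i : Fin p, S (frobSubst p (c i)) * S (T₁ ^ (i : ℕ)) =
        ∑ l, frobSubst p (S (c i) * P l i) * T₁ ^ (l : ℕ) := fun i => by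
      rw [← frobExpand_frobCoord p (S (T₁ ^ (i : ℕ))), frobExpand, Finset.mul_sum,
        show S (frobSubst p (c i)) = frobSubst p (S (c i)) from (frobSubst_powerSubst p b _).symm]
      exact Finset.sum_congr rfl fun l _ => by rw [map_mul, mul_assoc, hP, Matrix.of_apply]
    rw [Finset.sum_congr rfl fun i _ => h i, Finset.sum_comm]
    refine Finset.sum_congr rfl fun l _ => ?_
    rw [← Finset.sum_mul]
    congr 1
    simp only [Matrix.mulVec, dotProduct, map_sum, map_mul, mul_comm]
  have hsurj : Function.Surjective (Matrix.mulVec P) := fun v => by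
    obtain ⟨b', hb'⟩ := hb.exists_right_inv
    refine ⟨fun i => S (frobCoord p (powerSubst p b' (frobExpand p v)) i),
      (frobExpand_bijective p).1 ?_⟩
    rw [← hS, frobExpand_frobCoord, powerSubst_powerSubst, hb', powerSubst_one]
  have hdet : IsUnit P.det :=
    (Matrix.isUnit_iff_isUnit_det P).1 (Matrix.mulVec_surjective_iff_isUnit.1 hsurj)
  have hM : frobMatrix p (S g) * P = P * (frobMatrix p g).map S := by
    refine Matrix.ext fun l j => ?_
    have h1 : S g * frobExpand p (fun i => P i j) =
        frobExpand p (Matrix.mulVec P fun i => S (frobMatrix p g i j)) := by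
      rw [← hS, show frobExpand p (fun i => P i j) = S (T₁ ^ (j : ℕ)) from frobExpand_frobCoord p _,
        show frobExpand p (fun i => frobMatrix p g i j) = g * T₁ ^ (j : ℕ) from
          frobExpand_frobCoord p _, map_mul]
    rw [mul_frobExpand] at h1
    exact congrFun ((frobExpand_bijective p).1 h1) l
  have h := congrArg Matrix.det hM
  rw [Matrix.det_mul, Matrix.det_mul, mul_comm P.det] at h
  exact (hdet.mul_left_inj.1 h).trans (AlgHom.map_det S _).symm

/-- The units of `ℤ_p` act on the fixed units. -/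
theorem powerSubst_mem_normFixed {b : ℤ_[p]} (hb : IsUnit b) {g : Λˣ} (hg : g ∈ normFixed p) :
    Units.map (powerSubst p b).toRingHom.toMonoidHom g ∈ normFixed p := by
  rw [mem_normFixed] at hg ⊢
  change normSeries p (powerSubst p b g) = powerSubst p b g
  rw [normSeries_powerSubst p hb, hg]

/-! ### Measures -/

/-- The value of an integral depends continuously on the series. -/
theorem exists_closeIdeal_dvd_integral (f : C(ℤ_[p], ℤ_[p])) (i : ℕ) :
    ∃ t, ∀ F ∈ closeIdeal (p : ℤ_[p]) t, (p : ℤ_[p]) ^ i ∣ amiceIntegral F f := by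
  obtain ⟨J, hJ⟩ := Metric.tendsto_atTop.1 (PadicInt.fwdDiff_tendsto_zero f)
    ((p : ℝ) ^ (-(i : ℤ))) (zpow_pos (Nat.cast_pos.2 hp.out.pos) _)
  refine ⟨J + i, fun F hF => ?_⟩
  rw [← Ideal.mem_span_singleton, ← PadicInt.norm_le_pow_iff_mem_span_pow, amiceIntegral_apply]
  refine IsUltrametricDist.norm_tsum_le_of_forall_le_of_nonneg (zpow_nonneg (Nat.cast_nonneg _) _)
    fun n => ?_
  rw [norm_mul]
  rcases lt_or_ge n J with hn | hn
  · refine (mul_le_of_le_one_right (norm_nonneg _) (PadicInt.norm_le_one _)).trans ?_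
    rw [PadicInt.norm_le_pow_iff_mem_span_pow, Ideal.mem_span_singleton]
    exact (pow_dvd_pow _ (by omega)).trans (hF n)
  · refine (mul_le_of_le_one_left (norm_nonneg _) (PadicInt.norm_le_one _)).trans ?_
    simpa using (hJ n hn).le

theorem amiceIntegral_binomialSeries (c : ℤ_[p]) (f : C(ℤ_[p], ℤ_[p])) :
    amiceIntegral (Bn c) f = f c := by
  let L : C(ℤ_[p], ℤ_[p]) →L[ℤ_[p]] ℤ_[p] :=
    { toFun := fun f => f c
      map_add' := fun _ _ => rfl
      map_smul' := fun _ _ => rfl
      cont := ContinuousEvalConst.continuous_eval_const c }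
  refine DFunLike.congr_fun (continuousLinearMap_ext_mahler (L' := L) fun n => ?_) f
  rw [amiceIntegral_mahler, PowerSeries.binomialSeries_coeff, smul_eq_mul, mul_one]
  exact (mahler_apply n c).symm

/-- Multiplication by `b` on `ℤ_p`. -/
def scaleMap (b : ℤ_[p]) : C(ℤ_[p], ℤ_[p]) := ⟨fun x => b * x, by fun_prop⟩

theorem scaleMap_apply (b x : ℤ_[p]) : scaleMap p b x = b * x := rfl

/-- **The measure of `g ((1 + X) ^ b - 1)`.** -/
theorem amiceIntegral_powerSubst (b : ℤ_[p]) (x : Λ) (f : C(ℤ_[p], ℤ_[p])) :
    amiceIntegral (powerSubst p b x) f = amiceIntegral x (f.comp (scaleMap p b)) := by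
  have hpoly : ∀ j : ℕ, amiceIntegral (powerSubst p b (PowerSeries.X ^ j)) f =
      amiceIntegral (PowerSeries.X ^ j) (f.comp (scaleMap p b)) := fun j => by
    rw [show (PowerSeries.X : Λ) = T₁ + PowerSeries.C (-1) by rw [map_neg, map_one]; ring, add_pow,
      map_sum, amiceIntegral_sum, amiceIntegral_sum]
    refine Finset.sum_congr rfl fun i _ => ?_
    rw [← map_pow, ← map_natCast PowerSeries.C, mul_assoc, ← map_mul, mul_comm (T₁ ^ i),
      map_mul (powerSubst p b), algHom_C, amiceIntegral_smul, amiceIntegral_smul, smul_apply,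
      smul_apply, ← PowerSeries.binomialSeries_nat (R := ℤ_[p]), powerSubst_binomialSeries,
      amiceIntegral_binomialSeries, amiceIntegral_binomialSeries]
    rfl
  refine sub_eq_zero.1 (eq_zero_of_forall_pow_dvd PadicInt.irreducible_p fun i => ?_)
  obtain ⟨t₁, h₁⟩ := exists_closeIdeal_dvd_integral p f i
  obtain ⟨t₂, h₂⟩ := exists_closeIdeal_dvd_integral p (f.comp (scaleMap p b)) i
  set t := max t₁ t₂
  set P := PowerSeries.trunc t x
  have hx := sub_trunc_mem (π := (p : ℤ_[p])) t x
  have hP : amiceIntegral (powerSubst p b (P : Λ)) f =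
      amiceIntegral (P : Λ) (f.comp (scaleMap p b)) := by
    rw [P.as_sum_range, ← Polynomial.coeToPowerSeries.ringHom_apply, map_sum, map_sum,
      amiceIntegral_sum, amiceIntegral_sum]
    refine Finset.sum_congr rfl fun j _ => ?_
    rw [Polynomial.coeToPowerSeries.ringHom_apply, Polynomial.coe_monomial,
      PowerSeries.monomial_eq_C_mul_X_pow, map_mul, algHom_C, amiceIntegral_smul,
      amiceIntegral_smul, smul_apply, smul_apply, hpoly]
  have h1 := h₁ _ (closeIdeal_antitone (le_max_left t₁ t₂)
    (algHom_mem_closeIdeal p (constantCoeff_powerSubst_X p b) hx))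
  have h2 := h₂ _ (closeIdeal_antitone (le_max_right t₁ t₂) hx)
  rw [map_sub, amiceIntegral_sub, sub_apply, hP] at h1
  rw [amiceIntegral_sub, sub_apply] at h2
  have := dvd_sub h1 h2
  rwa [sub_sub_sub_cancel_right] at this

end Fermat.Agent.LubinTate
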