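import Fermat.Agent.LubinTate.Coleman.Translation

/-!
# The twisted map of Coleman and products of measures

`colemanTwist g` is `x⁻¹` times the measure of `colemanMapFun g`; it commutes with the action of
`ℤ_pˣ`. `scaleIntegral θ f` is `b ↦ ∫ f (b x) dθ` on the units: its integral by `ν` is that of `f`
by the product of `ν` and `θ`.
-/

set_option autoImplicit false

noncomputable section

open Finset
open scoped fwdDiff

namespace Fermat.Agent.LubinTate

variable (p : ℕ) [hp : Fact p.Prime]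

local notation "Λ" => PowerSeries ℤ_[p]
local notation "𝒞" => C(ℤ_[p], ℤ_[p])

theorem unitsIndicator_mul_self : (unitsIndicator : 𝒞) * unitsIndicator = unitsIndicator := by
  ext x
  by_cases hx : IsUnit x <;> simp [unitsIndicator_apply, hx]

theorem unitsIndicator_mul_unit {b : ℤ_[p]} (hb : IsUnit b) (x : ℤ_[p]) :
    unitsIndicator (b * x) = unitsIndicator x := by
  rw [unitsIndicator_apply, unitsIndicator_apply]
  by_cases hx : IsUnit x
  · rw [if_pos (hb.mul hx), if_pos hx]
  · rw [if_neg fun h => hx (isUnit_of_mul_isUnit_right h), if_neg hx]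

/-- `x ↦ x⁻¹` on the units, zero elsewhere. -/
def unitsInv : 𝒞 where
  toFun x := ⟨((unitsIndicator x : ℤ_[p]) : ℚ_[p]) *
      (((x + (1 - unitsIndicator x) : ℤ_[p]) : ℚ_[p]))⁻¹, by
    by_cases hx : IsUnit x
    · simp [unitsIndicator_apply, hx, PadicInt.isUnit_iff.1 hx]
    · simp [unitsIndicator_apply, hx]⟩
  continuous_toFun := by
    refine Continuous.subtype_mk ?_ _
    have h0 : ∀ x : ℤ_[p], ((x + (1 - unitsIndicator x) : ℤ_[p]) : ℚ_[p]) ≠ 0 := fun x h => by
      by_cases hx : IsUnit x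
      · simp [unitsIndicator_apply, hx] at h
        simp [h] at hx
      · rw [unitsIndicator_apply, if_neg hx, sub_zero] at h
        have hu : IsUnit (x + 1) := by
          refine IsLocalRing.notMem_maximalIdeal.1 fun hm => ?_
          exact (IsLocalRing.maximalIdeal.isMaximal ℤ_[p]).ne_top ((Ideal.eq_top_iff_one _).2
            ((Ideal.add_mem_iff_right _ ((IsLocalRing.mem_maximalIdeal x).2 hx)).1 hm))
        rw [PadicInt.isUnit_iff, PadicInt.norm_def, h, norm_zero] at hu
        exact zero_ne_one hu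
    have hc : Continuous fun x : ℤ_[p] => x + (1 - unitsIndicator x) :=
      continuous_id.add (continuous_const.sub unitsIndicator.continuous)
    exact (continuous_subtype_val.comp unitsIndicator.continuous).mul
      ((continuous_subtype_val.comp hc).inv₀ h0)

theorem id_mul_unitsInv : ContinuousMap.id ℤ_[p] * unitsInv p = unitsIndicator := by
  ext x
  by_cases hx : IsUnit x
  · have h0 : (x : ℚ_[p]) ≠ 0 := fun h => by simp [PadicInt.coe_eq_zero.1 h] at hx
    refine Subtype.ext ?_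
    change (x : ℚ_[p]) * (((unitsIndicator x : ℤ_[p]) : ℚ_[p]) *
      (((x + (1 - unitsIndicator x) : ℤ_[p]) : ℚ_[p]))⁻¹) = _
    simp [unitsIndicator_apply, hx, h0]
  · refine Subtype.ext ?_
    change (x : ℚ_[p]) * (((unitsIndicator x : ℤ_[p]) : ℚ_[p]) *
      (((x + (1 - unitsIndicator x) : ℤ_[p]) : ℚ_[p]))⁻¹) = _
    simp [unitsIndicator_apply, hx]

theorem unitsInv_mul_unit {b : ℤ_[p]} (hb : IsUnit b) (x : ℤ_[p]) :
    b * unitsInv p (b * x) = unitsInv p x := by
  have key : ∀ y, y * unitsInv p y = unitsIndicator y := fun y =>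
    DFunLike.congr_fun (id_mul_unitsInv p) y
  by_cases hx : IsUnit x
  · refine hx.mul_right_inj.1 ?_
    rw [key, ← mul_assoc, mul_comm x b, key, unitsIndicator_mul_unit p hb]
  · have hz : ∀ y : ℤ_[p], ¬ IsUnit y → unitsInv p y = 0 := fun y hy => Subtype.ext (by
      simp [unitsInv, unitsIndicator_apply, hy])
    rw [hz x hx, hz _ fun h => hx (isUnit_of_mul_isUnit_right h), mul_zero]

/-- **The twisted map of Coleman.** -/
def colemanTwist (g : Λ) : 𝒞 →L[ℤ_[p]] ℤ_[p] where
  toFun f := amiceIntegral (colemanMapFun p g) (f * unitsInv p)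
  map_add' f f' := by rw [add_mul, map_add]
  map_smul' r f := by rw [smul_mul_assoc, map_smul, RingHom.id_apply]
  cont := (amiceIntegral (colemanMapFun p g)).continuous.comp (continuous_id.mul continuous_const)

theorem colemanTwist_apply (g : Λ) (f : 𝒞) :
    colemanTwist p g f = amiceIntegral (colemanMapFun p g) (f * unitsInv p) := rfl

theorem colemanTwist_mul {g h : Λ} (hg : IsUnit g) (hh : IsUnit h) :
    colemanTwist p (g * h) = colemanTwist p g + colemanTwist p h := by
  refine ContinuousLinearMap.ext fun f => ?_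
  rw [add_apply, colemanTwist_apply, colemanMapFun_mul p hg hh, amiceIntegral_add, add_apply]
  rfl

theorem colemanTwist_supported (g : Λ) (f : 𝒞) :
    colemanTwist p g (f * unitsIndicator) = colemanTwist p g f := by
  rw [colemanTwist_apply, colemanTwist_apply]
  congr 1
  ext x
  by_cases hx : IsUnit x
  · simp [unitsIndicator_apply, hx]
  · simp [unitsInv, unitsIndicator_apply, hx]

/-- **Equivariance.** -/
theorem colemanTwist_powerSubst {b : ℤ_[p]} (hb : IsUnit b) {g : Λ} (hg : IsUnit g) (f : 𝒞) :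
    colemanTwist p (powerSubst p b g) f = colemanTwist p g (f.comp (scaleMap p b)) := by
  rw [colemanTwist_apply, colemanTwist_apply, colemanMapFun_powerSubst p b hg, amiceIntegral_smul,
    smul_apply, amiceIntegral_powerSubst, ← map_smul]
  congr 1
  ext x
  simp only [ContinuousMap.smul_apply, ContinuousMap.comp_apply, ContinuousMap.mul_apply,
    scaleMap_apply, smul_eq_mul]
  rw [mul_left_comm, unitsInv_mul_unit p hb]

/-- For a fixed unit the twist determines the map of Coleman. -/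
theorem colemanTwist_eq_zero_iff {g : Λˣ} (hg : g ∈ normFixed p) :
    colemanTwist p g = 0 ↔ colemanMapFun p g = 0 := by
  constructor
  · intro h
    refine (exists_amiceIntegral_eq p (0 : 𝒞 →L[ℤ_[p]] ℤ_[p])).unique ?_ amiceIntegral_zero
    refine ContinuousLinearMap.ext fun f => ?_
    rw [zero_apply, ← (colemanPsi_eq_zero_iff p _).1 (colemanPsi_colemanMapFun p hg) f,
      ← id_mul_unitsInv, ← mul_assoc]
    exact DFunLike.congr_fun h (f * ContinuousMap.id ℤ_[p])
  · intro h
    refine ContinuousLinearMap.ext fun f => ?_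
    rw [colemanTwist_apply, h, amiceIntegral_zero]
    rfl

/-- The twist of the measure of a fixed unit kills `x`. -/
theorem colemanTwist_id {g : Λˣ} (hg : g ∈ normFixed p) :
    colemanTwist p g (ContinuousMap.id ℤ_[p]) = 0 := by
  rw [colemanTwist_apply, id_mul_unitsInv, ← one_mul (unitsIndicator : 𝒞),
    (colemanPsi_eq_zero_iff p _).1 (colemanPsi_colemanMapFun p hg), amiceIntegral_one_apply,
    constantCoeff_colemanMapFun]

/-- **The image**: supported on the units and killing `x`. -/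
theorem exists_colemanTwist_eq_iff (ν : 𝒞 →L[ℤ_[p]] ℤ_[p]) :
    (∃ g ∈ normFixed p, colemanTwist p g = ν) ↔
      (∀ f, ν (f * unitsIndicator) = ν f) ∧ ν (ContinuousMap.id ℤ_[p]) = 0 := by
  constructor
  · rintro ⟨g, hg, rfl⟩
    exact ⟨colemanTwist_supported p _, colemanTwist_id p hg⟩
  · rintro ⟨hν, h0⟩
    let μ : 𝒞 →L[ℤ_[p]] ℤ_[p] :=
      { toFun := fun f => ν (f * ContinuousMap.id ℤ_[p])
        map_add' := fun f f' => by rw [add_mul, map_add]
        map_smul' := fun r f => by rw [smul_mul_assoc, map_smul, RingHom.id_apply]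
        cont := ν.continuous.comp (continuous_id.mul continuous_const) }
    obtain ⟨g, hg, hgμ⟩ := (exists_amiceIntegral_colemanMapFun_eq_iff p μ).2 ⟨fun f => by
      change ν (f * unitsIndicator * ContinuousMap.id ℤ_[p]) = ν (f * ContinuousMap.id ℤ_[p])
      rw [mul_right_comm, hν], by change ν (1 * ContinuousMap.id ℤ_[p]) = 0; rwa [one_mul]⟩
    refine ⟨g, hg, ContinuousLinearMap.ext fun f => ?_⟩
    rw [colemanTwist_apply, hgμ]
    change ν (f * unitsInv p * ContinuousMap.id ℤ_[p]) = ν f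
    rw [mul_assoc, mul_comm (unitsInv p), id_mul_unitsInv, hν]

theorem ringInverse_sub_mem {t : ℕ} {a b : Λ} (ha : IsUnit a) (hb : IsUnit b)
    (h : a - b ∈ closeIdeal (p : ℤ_[p]) t) :
    Ring.inverse a - Ring.inverse b ∈ closeIdeal (p : ℤ_[p]) t := by
  rw [show Ring.inverse a - Ring.inverse b = -(Ring.inverse a * Ring.inverse b) * (a - b) by
    linear_combination Ring.inverse b * Ring.inverse_mul_cancel a ha -
      Ring.inverse a * Ring.inverse_mul_cancel b hb]
  exact Ideal.mul_mem_left _ _ h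

theorem colemanMapFun_sub_mem {t : ℕ} {a b : Λ} (ha : IsUnit a) (hb : IsUnit b)
    (h : a - b ∈ closeIdeal (p : ℤ_[p]) (t + 1)) :
    colemanMapFun p a - colemanMapFun p b ∈ closeIdeal (p : ℤ_[p]) t := by
  have hl : logDeriv' p a - logDeriv' p b ∈ closeIdeal (p : ℤ_[p]) t := by
    rw [show logDeriv' p a - logDeriv' p b = amiceD (a - b) * Ring.inverse a +
      amiceD b * (Ring.inverse a - Ring.inverse b) by
        rw [logDeriv', logDeriv', amiceD_sub]; ring]
    exact add_mem (Ideal.mul_mem_right _ _ (amiceD_mem_closeIdeal p h))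
      (Ideal.mul_mem_left _ _ (closeIdeal_antitone (Nat.le_succ t) (ringInverse_sub_mem p ha hb h)))
  rw [colemanMapFun, colemanMapFun, sub_sub_sub_comm, ← map_sub]
  exact sub_mem hl (frobSubst_mem_closeIdeal p hl)

/-- The twist depends continuously on the series. -/
theorem exists_close_colemanTwist (f : 𝒞) (i : ℕ) : ∃ t, ∀ a b : Λ, IsUnit a → IsUnit b →
    a - b ∈ closeIdeal (p : ℤ_[p]) t →
      (p : ℤ_[p]) ^ i ∣ colemanTwist p a f - colemanTwist p b f := by
  obtain ⟨t, ht⟩ := exists_closeIdeal_dvd_integral p (f * unitsInv p) i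
  refine ⟨t + 1, fun a b ha hb h => ?_⟩
  rw [colemanTwist_apply, colemanTwist_apply, ← sub_apply,
    ← amiceIntegral_sub]
  exact ht _ (colemanMapFun_sub_mem p ha hb h)

/-! ### Products -/

/-- `b ↦ ∫ f (b x) dθ` on the units. -/
def scaleIntegral (θ : 𝒞 →L[ℤ_[p]] ℤ_[p]) (f : 𝒞) : 𝒞 :=
  unitsIndicator * (⟨θ, θ.continuous⟩ : C(𝒞, ℤ_[p])).comp
    (f.comp ⟨fun x : ℤ_[p] × ℤ_[p] => x.1 * x.2, by fun_prop⟩).curry

theorem scaleIntegral_apply (θ : 𝒞 →L[ℤ_[p]] ℤ_[p]) (f : 𝒞) (b : ℤ_[p]) :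
    scaleIntegral p θ f b = unitsIndicator b * θ (f.comp (scaleMap p b)) := rfl

theorem scaleIntegral_add (θ : 𝒞 →L[ℤ_[p]] ℤ_[p]) (f f' : 𝒞) :
    scaleIntegral p θ (f + f') = scaleIntegral p θ f + scaleIntegral p θ f' := by
  ext b
  simp [scaleIntegral_apply, mul_add, ContinuousMap.add_comp]

theorem scaleIntegral_comp {c : ℤ_[p]} (hc : IsUnit c) (θ : 𝒞 →L[ℤ_[p]] ℤ_[p]) (f : 𝒞) :
    scaleIntegral p θ (f.comp (scaleMap p c)) = (scaleIntegral p θ f).comp (scaleMap p c) := by
  refine ContinuousMap.ext fun b => ?_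
  rw [ContinuousMap.comp_apply, scaleIntegral_apply, scaleIntegral_apply, scaleMap_apply,
    unitsIndicator_mul_unit p hc]
  congr 2
  ext x
  simp [scaleMap_apply, mul_assoc]

theorem scaleIntegral_supported {θ : 𝒞 →L[ℤ_[p]] ℤ_[p]}
    (hθ : ∀ f, θ (f * unitsIndicator) = θ f) (f : 𝒞) :
    scaleIntegral p θ (f * unitsIndicator) = scaleIntegral p θ f := by
  refine ContinuousMap.ext fun b => ?_
  rw [scaleIntegral_apply, scaleIntegral_apply]
  by_cases hb : IsUnit b
  · congr 1
    rw [← hθ (f.comp (scaleMap p b))]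
    congr 1
    ext x
    simp [scaleMap_apply, unitsIndicator_mul_unit p hb]
  · simp [unitsIndicator_apply, hb]

theorem scaleIntegral_id {θ : 𝒞 →L[ℤ_[p]] ℤ_[p]} (hθ : θ (ContinuousMap.id ℤ_[p]) = 0) :
    scaleIntegral p θ (ContinuousMap.id ℤ_[p]) = 0 := by
  refine ContinuousMap.ext fun b => ?_
  rw [scaleIntegral_apply, show (ContinuousMap.id ℤ_[p]).comp (scaleMap p b) =
    b • ContinuousMap.id ℤ_[p] from ContinuousMap.ext fun x => rfl, map_smul, hθ, smul_zero,
    mul_zero]
  rfl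

/-! ### Compactness and step functions -/

/-- Sequences of finitely many series have cluster points. -/
theorem exists_cluster {ι : Type*} [Finite ι] (x : ℕ → ι → Λ) :
    ∃ l : ι → Λ, ∀ t, ∃ m, t ≤ m ∧ ∀ i, l i - x m i ∈ closeIdeal (p : ℤ_[p]) t := by
  classical
  let R : ∀ t : ℕ, ℕ → (ι → Fin t → ZMod (p ^ t)) := fun t m i n =>
    PadicInt.toZModPow (p := p) t (PowerSeries.coeff (n : ℕ) (x m i))
  have hpig : ∀ (t : ℕ) (S : {S : Set ℕ // S.Infinite}), ∃ S' : {S : Set ℕ // S.Infinite},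
      S'.1 ⊆ S.1 ∧ ∀ m ∈ S'.1, ∀ m' ∈ S'.1, R t m = R t m' := by
    intro t S
    have := S.2.to_subtype
    have : NeZero (p ^ t) := ⟨pow_ne_zero _ hp.out.ne_zero⟩
    obtain ⟨r, hr⟩ := Finite.exists_infinite_fiber fun m : S.1 => R t m
    refine ⟨⟨S.1 ∩ R t ⁻¹' {r}, ?_⟩, Set.inter_subset_left,
      fun m hm m' hm' => hm.2.trans hm'.2.symm⟩
    have h := (Set.infinite_coe_iff.1 hr).image (f := Subtype.val) Subtype.val_injective.injOn
    refine h.mono ?_
    rintro m ⟨⟨m', hm'⟩, hr', rfl⟩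
    exact ⟨hm', hr'⟩
  choose N hN hNR using hpig
  let S : ℕ → {S : Set ℕ // S.Infinite} := fun t =>
    Nat.rec ⟨Set.univ, Set.infinite_univ⟩ (fun t S => N t S) t
  choose m hm hmt using fun t => (S (t + 1)).2.exists_gt t
  have hstep : ∀ t i, x (m (t + 1)) i - x (m t) i ∈ closeIdeal (p : ℤ_[p]) t := fun t i n => by
    by_cases hn : n < t
    · refine (pow_dvd_pow _ (Nat.sub_le t n)).trans ?_
      rw [map_sub, ← Ideal.mem_span_singleton, ← PadicInt.ker_toZModPow, RingHom.mem_ker, map_sub,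
        sub_eq_zero]
      exact congrFun (congrFun (hNR t (S t) _ (hN (t + 1) (S (t + 1)) (hm (t + 1))) _ (hm t)) i)
        ⟨n, hn⟩
    · rw [show t - n = 0 by omega, pow_zero]
      exact one_dvd _
  choose l hl using fun i => exists_limit PadicInt.irreducible_p (fun t => x (m t) i)
    fun t => hstep t i
  exact ⟨l, fun t => ⟨m t, (hmt t).le, fun i => hl i t⟩⟩

theorem dvd_map_of_forall_dvd (μ : 𝒞 →L[ℤ_[p]] ℤ_[p]) {f : 𝒞} {i : ℕ}
    (h : ∀ x, (p : ℤ_[p]) ^ i ∣ f x) : (p : ℤ_[p]) ^ i ∣ μ f := by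
  obtain ⟨F, hF, -⟩ := exists_amiceIntegral_eq p μ
  rw [← hF, ← Ideal.mem_span_singleton, ← PadicInt.norm_le_pow_iff_mem_span_pow]
  refine (norm_amiceIntegral_le F f).trans
    ((ContinuousMap.norm_le _ (zpow_nonneg (Nat.cast_nonneg _) _)).2 fun x => ?_)
  rw [PadicInt.norm_le_pow_iff_mem_span_pow, Ideal.mem_span_singleton]
  exact h x

theorem eventually_toZModPow_eq (m : ℕ) (x : ℤ_[p]) :
    ∀ᶠ y in nhds x, PadicInt.toZModPow (p := p) m y = PadicInt.toZModPow m x := by
  filter_upwards [Metric.closedBall_mem_nhds x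
    (zpow_pos (Nat.cast_pos.2 hp.out.pos) (-(m : ℤ)) : (0 : ℝ) < (p : ℝ) ^ (-(m : ℤ)))] with y hy
  rwa [mem_closedBall_iff_norm, PadicInt.norm_le_pow_iff_mem_span_pow, ← PadicInt.ker_toZModPow,
    RingHom.mem_ker, map_sub, sub_eq_zero] at hy

/-- The indicator of a class modulo `p ^ m`. -/
def classIndicator (m : ℕ) (r : ZMod (p ^ m)) : 𝒞 where
  toFun x := if PadicInt.toZModPow m x = r then 1 else 0
  continuous_toFun := by
    refine ((IsLocallyConstant.iff_eventually_eq _).2 fun x => ?_).continuous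
    filter_upwards [eventually_toZModPow_eq p m x] with y hy
    simp only [hy]

/-- **A measure is approximated by its masses of the classes modulo `p ^ m`.** -/
theorem exists_dvd_integral_sub_sum (μ : 𝒞 →L[ℤ_[p]] ℤ_[p]) (G : 𝒞) (i : ℕ) :
    ∃ M, ∀ m, M ≤ m → ∀ [NeZero (p ^ m)], (p : ℤ_[p]) ^ i ∣ μ G -
      ∑ r : ZMod (p ^ m), μ (classIndicator p m r) * G (r.val : ℤ_[p]) := by
  classical
  obtain ⟨δ, hδ, hG⟩ := Metric.uniformContinuous_iff.1
    (CompactSpace.uniformContinuous_of_continuous G.continuous) ((p : ℝ) ^ (-(i : ℤ)))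
    (zpow_pos (Nat.cast_pos.2 hp.out.pos) _)
  obtain ⟨M, hM⟩ := PadicInt.exists_pow_neg_lt p hδ
  refine ⟨M, fun m hm _ => ?_⟩
  rw [show ∑ r : ZMod (p ^ m), μ (classIndicator p m r) * G (r.val : ℤ_[p]) =
      μ (∑ r : ZMod (p ^ m), G (r.val : ℤ_[p]) • classIndicator p m r) by
    rw [map_sum]; exact Finset.sum_congr rfl fun r _ => by rw [map_smul, smul_eq_mul, mul_comm],
    ← map_sub]
  refine dvd_map_of_forall_dvd p μ fun x => ?_
  rw [ContinuousMap.sub_apply, ContinuousMap.sum_apply,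
    Finset.sum_eq_single (PadicInt.toZModPow m x) (fun r _ hr => by
      simp [classIndicator, Ne.symm hr]) (by simp)]
  simp only [ContinuousMap.smul_apply, classIndicator, ContinuousMap.coe_mk, if_pos, smul_eq_mul,
    mul_one]
  rw [← Ideal.mem_span_singleton, ← PadicInt.norm_le_pow_iff_mem_span_pow]
  refine (hG ?_).le
  rw [dist_eq_norm]
  refine lt_of_le_of_lt ?_ hM
  refine ((PadicInt.norm_le_pow_iff_mem_span_pow _ m).2 ?_).trans
    (zpow_le_zpow_right₀ (by exact_mod_cast hp.out.one_le) (by omega))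
  rw [← PadicInt.ker_toZModPow, RingHom.mem_ker, map_sub, map_natCast, ZMod.natCast_zmod_val,
    sub_self]

end Fermat.Agent.LubinTate
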