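import Fermat.Agent.LubinTate.Coleman.ColemanMap
import Mathlib.RingTheory.RootsOfUnity.Basic

/-!
# The exact sequence of Coleman for the units of the cyclotomic tower

The norm compatible units of `ℚ_[p] (μ_{p ^ ∞})` are the values of the units fixed by the norm, and
`colemanMapHom` carries them to the measures on the units of `ℤ_p`. The kernel consists of the
systems `ω ((-1) ^ (p - 1) ζ k) ^ a`, `ω ^ (p - 1) = 1` and `a` in `ℤ_p`.
-/

set_option autoImplicit false

noncomputable section

open IsLocalRing IntermediateField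

namespace Fermat.Agent.LubinTate

variable (p : ℕ) [hp : Fact p.Prime]

local notation "Λ" => PowerSeries ℤ_[p]
local notation "T₁" => (1 + PowerSeries.X : PowerSeries ℤ_[p])

theorem constantCoeff_cycloSubst (x : Λ) : (cycloSubst p x).constantCoeff = x.constantCoeff := by
  obtain ⟨S, -, hS⟩ := exists_cycloCoord_eq p
  have hC : cycloSubst p (PowerSeries.C x.constantCoeff) = PowerSeries.C x.constantCoeff := by
    rw [PowerSeries.C_eq_algebraMap, AlgHom.commutes]
  conv_lhs => rw [x.eq_X_mul_shift_add_const, map_add, map_mul, hC]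
  have hX : (cycloSubst p PowerSeries.X).constantCoeff = 0 := by
    rw [cycloSubst, PowerSeries.substAlgHom_X, hS, map_mul, PowerSeries.constantCoeff_X, zero_mul]
  rw [map_add, map_mul, hX, zero_mul, zero_add, PowerSeries.constantCoeff_C]

/-- The coordinate, as an automorphism. -/
def cycloSubstEquiv : Λ ≃ₐ[ℤ_[p]] Λ :=
  AlgEquiv.ofBijective (cycloSubst p) ⟨cycloSubst_injective p, cycloSubst_surjective p⟩

/-- The coordinate carries the fixed units to those of Coleman. -/
def fixedCoordHom : normFixed p →* colemanFixed (π := (p : ℤ_[p])) PadicInt.irreducible_p :=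
  ((Units.map (cycloSubst p).toRingHom.toMonoidHom).comp (normFixed p).subtype).codRestrict _
    fun g => (mem_colemanFixed _).2 ((normSeries_eq_self_iff p _).1 ((mem_normFixed p).1 g.2))

theorem fixedCoordHom_bijective : Function.Bijective (fixedCoordHom p) := by
  constructor
  · intro g g' h
    exact Subtype.ext (Units.ext (cycloSubst_injective p
      (congrArg (fun x => ((Subtype.val x : Λˣ) : Λ)) h)))
  · rintro ⟨u, hu⟩
    let e : Λ ≃* Λ := (cycloSubstEquiv p).toRingEquiv.toMulEquiv
    refine ⟨⟨(Units.mapEquiv e).symm u, ?_⟩, Subtype.ext ((Units.mapEquiv e).apply_symm_apply u)⟩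
    have h : cycloSubst p (((Units.mapEquiv e).symm u : Λˣ) : Λ) = u :=
      congrArg Units.val ((Units.mapEquiv e).apply_symm_apply u)
    rw [mem_normFixed, normSeries_eq_self_iff, h]
    exact (mem_colemanFixed _).1 hu

variable {p} {Ω : Type*} [Field Ω] [Algebra ℚ_[p] Ω] [Algebra ℤ_[p] Ω]
  [IsScalarTower ℤ_[p] ℚ_[p] Ω] {lam : ℕ → Ω} (hlam : IsTorsionTower (p : ℤ_[p]) lam)

/-- **The fixed units are the norm compatible units of the tower.** -/
def fixedUnitsEquiv : normFixed p ≃* normUnits ℚ_[p] hlam :=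
  (MulEquiv.ofBijective (fixedCoordHom p) (fixedCoordHom_bijective p)).trans
    (colemanEquiv ℚ_[p] PadicInt.irreducible_p hlam)

theorem coe_fixedUnitsEquiv (g : normFixed p) (k : ℕ) :
    ((((fixedUnitsEquiv hlam g : ∀ k, (lev ℚ_[p] lam k)ˣ) k : (lev ℚ_[p] lam k)ˣ) :
        lev ℚ_[p] lam k) : Ω) =
      torsionValue hlam k (cycloSubst p ((g : Λˣ) : Λ)) :=
  rfl

include hlam in
theorem cycloSubst_eq_of_values {x y : Λ}
    (h : ∀ k, torsionValue hlam k (cycloSubst p x) = torsionValue hlam k (cycloSubst p y)) :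
    x = y :=
  cycloSubst_injective p (evalLev_injective (K := ℚ_[p]) PadicInt.irreducible_p hlam fun k =>
    Subtype.ext (h k))

/-- The series of a system. -/
def unitsSeries (u : normUnits ℚ_[p] hlam) : Λ :=
  (((fixedUnitsEquiv hlam).symm u : Λˣ) : Λ)

theorem torsionValue_unitsSeries (u : normUnits ℚ_[p] hlam) (k : ℕ) :
    torsionValue hlam k (cycloSubst p (unitsSeries hlam u)) =
      ((((u : ∀ k, (lev ℚ_[p] lam k)ˣ) k : (lev ℚ_[p] lam k)ˣ) : lev ℚ_[p] lam k) : Ω) := by
  conv_rhs => rw [← (fixedUnitsEquiv hlam).apply_symm_apply u]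
  exact (coe_fixedUnitsEquiv hlam _ k).symm

/-- **The map of Coleman on the norm compatible units.** -/
def colemanMapHom :
    normUnits ℚ_[p] hlam →* Multiplicative (C(ℤ_[p], ℤ_[p]) →L[ℤ_[p]] ℤ_[p]) :=
  MonoidHom.mk'
    (fun u => Multiplicative.ofAdd (amiceIntegral (colemanMapFun p (unitsSeries hlam u))))
    fun u v => by
      rw [← ofAdd_add, ← amiceIntegral_add, ← colemanMapFun_mul p
        (show IsUnit (unitsSeries hlam u) from Units.isUnit _)
        (show IsUnit (unitsSeries hlam v) from Units.isUnit _)]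
      congr 3
      simp [unitsSeries]

theorem colemanMapHom_apply (u : normUnits ℚ_[p] hlam) :
    Multiplicative.toAdd (colemanMapHom hlam u) =
      amiceIntegral (colemanMapFun p (unitsSeries hlam u)) :=
  rfl

/-- The value at a torsion point of `(1 + X) ^ a`. -/
theorem torsionValue_binomialSeries (k : ℕ) (a : ℤ_[p]) :
    torsionValue hlam k (cycloSubst p (PowerSeries.binomialSeries ℤ_[p] a)) =
      cycloZeta hlam k ^ (PadicInt.toZModPow (p := p) (k + 1) a).val := by
  have hπ : Irreducible (p : ℤ_[p]) := PadicInt.irreducible_p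
  set B := PowerSeries.binomialSeries ℤ_[p] (R := ℤ_[p])
  set n := fun m : ℕ => (PadicInt.toZModPow (p := p) m a).val with hn
  have hdvd : ∀ m, (p : ℤ_[p]) ^ m ∣ a - n m := fun m => by
    rw [← Ideal.mem_span_singleton, ← PadicInt.ker_toZModPow, RingHom.mem_ker, map_sub,
      map_natCast, ZMod.natCast_zmod_val, sub_self]
  -- powers of roots of unity
  have hzeta : ∀ m, k + 1 ≤ m → cycloZeta hlam k ^ n m = cycloZeta hlam k ^ n (k + 1) := by
    intro m hm
    have hord : orderOf (cycloZeta hlam k) = p ^ (k + 1) :=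
      (isPrimitiveRoot_cycloZeta hlam k).eq_orderOf.symm
    rw [← pow_mod_orderOf (cycloZeta hlam k) (n m),
      ← pow_mod_orderOf (cycloZeta hlam k) (n (k + 1))]
    congr 1
    rw [hord]
    change n m ≡ n (k + 1) [MOD p ^ (k + 1)]
    refine (ZMod.natCast_eq_natCast_iff _ _ _).1 ?_
    rw [← map_natCast (PadicInt.toZModPow (p := p) (k + 1)), ← map_natCast
      (PadicInt.toZModPow (p := p) (k + 1)) (n (k + 1)), ← sub_eq_zero, ← map_sub,
      ← RingHom.mem_ker, PadicInt.ker_toZModPow, Ideal.mem_span_singleton,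
      show (n m : ℤ_[p]) - n (k + 1) = (a - n (k + 1)) - (a - n m) by ring]
    exact dvd_sub (hdvd _) ((pow_dvd_pow _ hm).trans (hdvd m))
  have hpow : ∀ (b : ℤ_[p]) (e : ℕ), B (e * b) = B b ^ e := fun b e => by
    induction e with
    | zero => simp [B]
    | succ e ih =>
      rw [Nat.cast_succ, add_mul, one_mul, show B (e * b + b) = B (e * b) * B b from
        PowerSeries.binomialSeries_add _ _, ih, pow_succ]
  have hT : cycloSubst p T₁ = 1 + cycloCoord p := by
    rw [map_add, map_one, cycloSubst, PowerSeries.substAlgHom_X]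
  -- approximation at depth `m`
  have happ : ∀ m, cycloSubst p (B a) - (1 + cycloCoord p) ^ n m ∈
      closeIdeal (p : ℤ_[p]) (m + 1) := by
    intro m
    obtain ⟨b, hb⟩ := hdvd m
    have h1 : (B b).constantCoeff = 1 := by simp [B]
    rw [show a = n m + ((p ^ m : ℕ) : ℤ_[p]) * b by rw [Nat.cast_pow, ← hb]; ring,
      show B (n m + ((p ^ m : ℕ) : ℤ_[p]) * b) = B (n m) * B (((p ^ m : ℕ) : ℤ_[p]) * b) from
      PowerSeries.binomialSeries_add _ _, hpow, map_mul, map_pow,
      show B (n m) = T₁ ^ n m from PowerSeries.binomialSeries_nat _, map_pow, hT, ← mul_sub_one]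
    exact Ideal.mul_mem_left _ _ (pow_prime_pow_sub_one_mem p
      (by rw [constantCoeff_cycloSubst, h1, sub_self]; exact dvd_zero _) m)
  set ev := evalLev (K := ℚ_[p]) hπ hlam k
  have hval : ∀ m, k + 1 ≤ m →
      ((ev (cycloSubst p (B a)) - ev ((1 + cycloCoord p) ^ n (k + 1)) : lev ℚ_[p] lam k)) =
        ev (cycloSubst p (B a) - (1 + cycloCoord p) ^ n m) := fun m hm => by
    rw [map_sub]
    congr 1
    refine Subtype.ext ?_
    change torsionValue hlam k _ = torsionValue hlam k _
    rw [map_pow, map_pow, map_add, map_one]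
    exact (hzeta m hm).symm
  have h0 : ev (cycloSubst p (B a)) - ev ((1 + cycloCoord p) ^ n (k + 1)) = 0 := by
    refine eq_zero_of_forall_integral hπ hlam k fun i => ?_
    set m := k + 1 + (i + residueCard ℤ_[p] ^ (k + 1) * i)
    obtain ⟨z, hz, e⟩ := exists_evalLev_eq (K := ℚ_[p]) hπ hlam k
      (closeIdeal_le_levelSeries (isLubinTateBase hπ).two_le i (k + 1)
        (closeIdeal_antitone (by omega) (happ m)))
    exact ⟨z, hz, (hval m (by omega)).trans e⟩
  have h := congrArg Subtype.val (sub_eq_zero.1 h0)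
  refine h.trans ?_
  change torsionValue hlam k _ = _
  rw [map_pow, map_add, map_one]
  rfl

/-- The roots of unity of order `p - 1` and `ℤ_p`, into the fixed units. -/
def kernelSeries :
    rootsOfUnity (p - 1) ℤ_[p] × Multiplicative ℤ_[p] →* normFixed p :=
  (MonoidHom.mk' (fun x => Units.map PowerSeries.C.toMonoidHom (x.1 : ℤ_[p]ˣ) *
      (Units.map PowerSeries.C.toMonoidHom (isUnit_binomSign p x.2.toAdd).unit *
        (isUnit_binomialSeries p x.2.toAdd).unit)) fun x y => by
    refine Units.ext ?_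
    simp only [Prod.fst_mul, Prod.snd_mul, toAdd_mul, Units.val_mul, Units.coe_map,
      MonoidHom.coe_coe,
      RingHom.toMonoidHom_eq_coe, IsUnit.unit_spec, binomSign_add, PowerSeries.binomialSeries_add,
      map_mul, Subgroup.coe_mul]
    ring).codRestrict _ fun x => (mem_normFixed p).2 (by
    simp only [MonoidHom.mk'_apply, Units.val_mul, Units.coe_map, MonoidHom.coe_coe,
      RingHom.toMonoidHom_eq_coe, IsUnit.unit_spec]
    rw [map_mul, normSeries_kernelSeries, normSeries_C]
    congr 2
    have hω := congrArg Units.val ((mem_rootsOfUnity _ _).1 x.1.2)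
    rw [Units.val_pow_eq_pow_val, Units.val_one] at hω
    exact (congrArg (_ ^ ·) (Nat.sub_add_cancel hp.out.pos).symm).trans
      (by rw [pow_succ, hω, one_mul]))

theorem coe_kernelSeries (x : rootsOfUnity (p - 1) ℤ_[p] × Multiplicative ℤ_[p]) :
    ((kernelSeries x : Λˣ) : Λ) = PowerSeries.C ((x.1 : ℤ_[p]ˣ) : ℤ_[p]) *
      (PowerSeries.C (binomSign p x.2.toAdd) *
        PowerSeries.binomialSeries ℤ_[p] x.2.toAdd) :=
  rfl

theorem kernelSeries_injective : Function.Injective (kernelSeries (p := p)) := by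
  intro x y h
  have h' : (kernelSeries x : Λˣ).val = (kernelSeries y : Λˣ).val := by rw [h]
  rw [coe_kernelSeries, coe_kernelSeries] at h'
  have hu : ∀ c : ℤ_[p]ˣ, IsUnit (PowerSeries.C (c : ℤ_[p])) := fun c => c.isUnit.map _
  have hs : ∀ a, IsUnit (PowerSeries.C (binomSign p a) *
      PowerSeries.binomialSeries ℤ_[p] a) := fun a =>
    ((isUnit_binomSign p a).map PowerSeries.C).mul (isUnit_binomialSeries p a)
  have hl := congrArg (logDeriv' p) h'
  simp only [logDeriv'_mul p (hu _) (hs _), logDeriv'_C, zero_add,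
    logDeriv'_mul p ((isUnit_binomSign p _).map PowerSeries.C) (isUnit_binomialSeries p _),
    logDeriv'_binomialSeries] at hl
  have h2 := PowerSeries.C_injective hl
  rw [h2] at h'
  exact Prod.ext (Subtype.ext (Units.ext (PowerSeries.C_injective ((hs _).mul_left_inj.1 h'))))
    (Multiplicative.toAdd.injective h2)

theorem colemanMapFun_eq_zero_iff_range (g : normFixed p) :
    colemanMapFun p ((g : Λˣ) : Λ) = 0 ↔ g ∈ (kernelSeries (p := p)).range := by
  constructor
  · intro h
    obtain ⟨a, c, hg⟩ := (colemanMapFun_eq_zero_iff p).1 h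
    set s := binomSign p a
    have hN := (mem_normFixed p).1 g.2
    rw [hg, map_mul, normSeries_C, normSeries_binomialSeries, ← mul_assoc, ← map_mul] at hN
    have hcp := PowerSeries.C_injective ((isUnit_binomialSeries p a).mul_left_inj.1 hN)
    set r : ℤ_[p] := (c : ℤ_[p]) * s with hr
    have hru : IsUnit r := c.isUnit.mul (isUnit_binomSign p a)
    have hr1 : r ^ (p - 1) = 1 := by
      refine hru.mul_left_inj.1 ?_
      rw [← pow_succ, Nat.sub_add_cancel hp.out.pos, one_mul, hr, mul_pow]
      have hk := congrArg PowerSeries.constantCoeff (normSeries_kernelSeries p a)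
      simp only [map_mul, normSeries_C, normSeries_binomialSeries, PowerSeries.constantCoeff_C,
        PowerSeries.binomialSeries_constantCoeff, mul_one, ← map_pow] at hk
      have hss := binomSign_mul_self p a
      have hsp : binomSign p a ^ p = 1 := by
        calc binomSign p a ^ p = binomSign p a ^ p * (binomSign p a * binomSign p a) := by
              rw [hss, mul_one]
          _ = binomSign p a ^ p * binomSign p a * binomSign p a := by ring
          _ = _ := by rw [hk, hss]
      rw [hsp, mul_one]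
      calc (c : ℤ_[p]) ^ p = (c : ℤ_[p]) ^ p * (binomSign p a * binomSign p a) := by
            rw [hss, mul_one]
        _ = _ := by rw [← mul_assoc, hcp]
    have hmem : hru.unit ∈ rootsOfUnity (p - 1) ℤ_[p] := by
      rw [mem_rootsOfUnity]
      exact Units.ext (by rw [Units.val_pow_eq_pow_val, IsUnit.unit_spec, hr1, Units.val_one])
    refine ⟨(⟨hru.unit, hmem⟩, Multiplicative.ofAdd a), Subtype.ext (Units.ext ?_)⟩
    rw [coe_kernelSeries, hg, toAdd_ofAdd, ← mul_assoc, ← map_mul, IsUnit.unit_spec, hr,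
      mul_assoc, binomSign_mul_self, mul_one]
  · rintro ⟨x, rfl⟩
    refine (colemanMapFun_eq_zero_iff p).2 ⟨x.2.toAdd,
      (x.1 : ℤ_[p]ˣ) * (isUnit_binomSign p x.2.toAdd).unit, ?_⟩
    rw [coe_kernelSeries, Units.val_mul, map_mul, IsUnit.unit_spec, mul_assoc]

/-- **The kernel, in units.** -/
def colemanKernelHom :
    rootsOfUnity (p - 1) ℤ_[p] × Multiplicative ℤ_[p] →* normUnits ℚ_[p] hlam :=
  (fixedUnitsEquiv hlam).toMonoidHom.comp kernelSeries

theorem colemanKernelHom_injective : Function.Injective (colemanKernelHom hlam) :=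
  (fixedUnitsEquiv hlam).injective.comp kernelSeries_injective

theorem coe_colemanKernelHom (x : rootsOfUnity (p - 1) ℤ_[p] × Multiplicative ℤ_[p]) (k : ℕ) :
    ((((colemanKernelHom hlam x : ∀ k, (lev ℚ_[p] lam k)ˣ) k : (lev ℚ_[p] lam k)ˣ) :
        lev ℚ_[p] lam k) : Ω) =
      algebraMap ℤ_[p] Ω ((x.1 : ℤ_[p]ˣ) : ℤ_[p]) *
        ((-1) ^ (p - 1) * cycloZeta hlam k) ^
          (PadicInt.toZModPow (p := p) (k + 1) x.2.toAdd).val := by
  change torsionValue hlam k (cycloSubst p ((kernelSeries x : Λˣ) : Λ)) = _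
  rw [coe_kernelSeries, map_mul, map_mul, map_mul, map_mul, torsionValue_binomialSeries,
    PowerSeries.C_eq_algebraMap]
  simp only [AlgHom.commutes]
  rw [mul_pow]
  congr 2
  set n := (PadicInt.toZModPow (p := p) (k + 1) x.2.toAdd).val
  obtain ⟨b, hb⟩ : (p : ℤ_[p]) ∣ x.2.toAdd - n := (dvd_pow_self _ k.succ_ne_zero).trans (by
    rw [← Ideal.mem_span_singleton, ← PadicInt.ker_toZModPow, RingHom.mem_ker, map_sub,
      map_natCast, ZMod.natCast_zmod_val, sub_self])
  rw [binomSign_eq p (n := n) (by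
    rw [← sub_eq_zero, ← map_natCast (PadicInt.toZMod (p := p)), ← map_sub, hb, map_mul,
      map_natCast, ZMod.natCast_self, zero_mul]), PowerSeries.C_eq_algebraMap]
  simp

/-- **Exactness at the units.** -/
theorem ker_colemanMapHom : (colemanMapHom hlam).ker = (colemanKernelHom hlam).range := by
  ext u
  obtain ⟨g, rfl⟩ := (fixedUnitsEquiv hlam).surjective u
  rw [MonoidHom.mem_ker, colemanKernelHom, MonoidHom.range_comp, Subgroup.mem_map_equiv,
    MulEquiv.symm_apply_apply, ← colemanMapFun_eq_zero_iff_range]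
  change amiceIntegral (colemanMapFun p (unitsSeries hlam _)) = 0 ↔ _
  rw [unitsSeries, MulEquiv.symm_apply_apply]
  exact ⟨fun h => (exists_amiceIntegral_eq p _).unique h (amiceIntegral_zero (p := p)),
    fun h => by rw [h, amiceIntegral_zero]⟩

/-- **Exactness at the measures.** -/
theorem mem_range_colemanMapHom_iff (μ : C(ℤ_[p], ℤ_[p]) →L[ℤ_[p]] ℤ_[p]) :
    Multiplicative.ofAdd μ ∈ (colemanMapHom hlam).range ↔
      (∀ f, μ (f * unitsIndicator) = μ f) ∧ μ 1 = 0 := by
  rw [← exists_amiceIntegral_colemanMapFun_eq_iff, MonoidHom.mem_range]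
  constructor
  · rintro ⟨u, hu⟩
    exact ⟨_, ((fixedUnitsEquiv hlam).symm u).2, congrArg Multiplicative.toAdd hu⟩
  · rintro ⟨g, hg, hμ⟩
    refine ⟨fixedUnitsEquiv hlam ⟨g, hg⟩, Multiplicative.toAdd.injective ?_⟩
    rw [colemanMapHom_apply, unitsSeries, MulEquiv.symm_apply_apply]
    exact hμ

theorem exists_unitsSupported_eq (c : ℤ_[p]) :
    ∃ μ : C(ℤ_[p], ℤ_[p]) →L[ℤ_[p]] ℤ_[p],
      (∀ f, μ (f * unitsIndicator) = μ f) ∧ μ 1 = c :=
  ⟨amiceIntegral (PowerSeries.C c * T₁ ^ 1), fun f => by
    rw [amiceIntegral_smul, smul_apply, smul_apply,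
      amiceIntegral_one_add_X_pow, amiceIntegral_one_add_X_pow]
    simp [unitsIndicator_apply], by
    rw [amiceIntegral_smul, smul_apply, amiceIntegral_one_add_X_pow]
    simp⟩

end Fermat.Agent.LubinTate
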